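import Fermat.Agent.Corollaries.ZetaK.BL.Left

/-!
# The zeros of the zeta function with `0 < im ≤ T`: there are finitely many
-/

set_option autoImplicit false

noncomputable section

namespace Fermat.Agent.Cor.BL

open Complex Real Filter Topology Set

theorem ne_one_of_im_ne_zero {s : ℂ} (h : s.im ≠ 0) : s ≠ 1 := by
  rintro rfl
  exact h one_im

/-- the zeros with `0 < im ≤ T` are in the critical strip -/
theorem re_of_zero {s : ℂ} (h0 : riemannZeta s = 0) (h : s.im ≠ 0) : 0 < s.re ∧ s.re < 1 := by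
  constructor
  · by_contra h1
    exact zeta_ne_zero_of_re_nonpos (not_lt.mp h1) h h0
  · by_contra h1
    exact riemannZeta_ne_zero_of_one_le_re (not_lt.mp h1) h0

/-- finitely many zeros with `0 < im ≤ T` -/
theorem finite_zeros (T : ℝ) : {s : ℂ | riemannZeta s = 0 ∧ 0 < s.im ∧ s.im ≤ T}.Finite := by
  by_contra hinf
  have hK : IsCompact (Icc (0 : ℝ) 1 ×ℂ Icc (0 : ℝ) T) := isCompact_Icc.reProdIm isCompact_Icc
  obtain ⟨x, hx, hacc⟩ := Set.Infinite.exists_accPt_of_subset_isCompact hinf hK (by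
    rintro s ⟨h0, h1, h2⟩
    have h3 := re_of_zero h0 h1.ne'
    exact mem_reProdIm.mpr ⟨⟨h3.1.le, h3.2.le⟩, ⟨h1.le, h2⟩⟩)
  rw [accPt_iff_frequently_nhdsNE] at hacc
  have hfr : ∃ᶠ z in 𝓝[≠] x, riemannZeta₁ z = 0 := by
    refine hacc.mono fun z hz => ?_
    obtain ⟨h0, h1, -⟩ := hz
    have h2 := riemannZeta_eq_inv_sub_mul (ne_one_of_im_ne_zero h1.ne')
    rw [h0] at h2
    have h3 : (z - 1)⁻¹ ≠ 0 := inv_ne_zero (sub_ne_zero.mpr (ne_one_of_im_ne_zero h1.ne'))
    exact (mul_eq_zero.mp h2.symm).resolve_left h3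
  have han : AnalyticOnNhd ℂ riemannZeta₁ univ := fun z _ =>
    differentiable_riemannZeta₁.analyticAt z
  have hz := han.eqOn_zero_of_preconnected_of_frequently_eq_zero isPreconnected_univ (mem_univ x) hfr
  have h2 : riemannZeta₁ 2 = 0 := hz (mem_univ 2)
  have h3 := riemannZeta_eq_inv_sub_mul (s := 2) (by norm_num)
  rw [h2, mul_zero] at h3
  exact riemannZeta_ne_zero_of_one_le_re (s := 2) (by norm_num) h3

end Fermat.Agent.Cor.BL

end
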