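import Mathlib.NumberTheory.Harmonic.ZetaAsymp
import Mathlib.NumberTheory.LSeries.Nonvanishing
import Mathlib.Analysis.Analytic.Order
import Mathlib.Analysis.Calculus.Deriv.Star

/-!
# The zeros of the zeta function: symmetry of the orders

`order_one_sub_conj`: off the real line, for `0 < re s < 1`, the orders of the zeta function at `s`,
`1 - s`, `conj s` and `1 - conj s` are equal.
-/

set_option autoImplicit false

noncomputable section

namespace Fermat.Agent.Cor.BL.Symm

open Complex Filter Topology Set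

local notation "conj" => starRingEnd ℂ

theorem analyticAt_conj_conj {g : ℂ → ℂ} {z : ℂ} (hg : AnalyticAt ℂ g z) :
    AnalyticAt ℂ (fun w => conj (g (conj w))) (conj z) := by
  rw [analyticAt_iff_eventually_differentiableAt] at hg ⊢
  have h1 : Tendsto (fun w : ℂ => conj w) (𝓝 (conj z)) (𝓝 z) := by
    have := (Complex.continuous_conj).tendsto (conj z)
    rwa [conj_conj] at this
  filter_upwards [h1.eventually hg] with w hw
  have := hw.conj_conj
  rw [conj_conj] at this
  exact this

theorem order_le_conj {f : ℂ → ℂ} {z : ℂ} (hf : AnalyticAt ℂ f z) {n : ℕ}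
    (hn : analyticOrderAt f z = n) :
    analyticOrderAt (fun w => conj (f (conj w))) (conj z) = n := by
  rw [hf.analyticOrderAt_eq_natCast] at hn
  obtain ⟨g, hg, hg0, he⟩ := hn
  rw [(analyticAt_conj_conj hf).analyticOrderAt_eq_natCast]
  refine ⟨fun w => conj (g (conj w)), analyticAt_conj_conj hg, ?_, ?_⟩
  · change conj (g (conj (conj z))) ≠ 0
    rw [conj_conj]
    exact fun h => hg0 (by simpa using h)
  · have h1 : Tendsto (fun w : ℂ => conj w) (𝓝 (conj z)) (𝓝 z) := by
      have := (Complex.continuous_conj).tendsto (conj z)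
      rwa [conj_conj] at this
    filter_upwards [h1.eventually he] with w hw
    rw [hw]
    simp

theorem analyticAt_zeta {s : ℂ} (hs : s ≠ 1) : AnalyticAt ℂ riemannZeta s := by
  rw [analyticAt_iff_eventually_differentiableAt]
  filter_upwards [isOpen_ne.mem_nhds hs] with w hw
  exact differentiableAt_riemannZeta hw

theorem order_ne_top {s : ℂ} (hs : s ≠ 1) : analyticOrderAt riemannZeta s ≠ ⊤ := by
  have h1 : AnalyticOnNhd ℂ riemannZeta {1}ᶜ := fun w hw => analyticAt_zeta hw
  have hc : IsPreconnected ({1}ᶜ : Set ℂ) :=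
    (isConnected_compl_singleton_of_one_lt_rank (by simp) 1).isPreconnected
  intro h
  have h2 : analyticOrderAt riemannZeta (2 : ℂ) = ⊤ := by
    rw [analyticOrderAt_eq_top] at h ⊢
    have h3 : EqOn riemannZeta 0 {1}ᶜ := h1.eqOn_zero_of_preconnected_of_eventuallyEq_zero hc
      (by simpa using hs) h
    filter_upwards [isOpen_ne.mem_nhds (by norm_num : (2 : ℂ) ≠ 1)] with w hw
    exact h3 hw
  have h3 := (analyticOrderAt_eq_top.mp h2).self_of_nhds
  exact riemannZeta_ne_zero_of_one_le_re (by norm_num) h3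

theorem orderAt_conj {s : ℂ} (hs : s ≠ 1) :
    analyticOrderAt riemannZeta (conj s) = analyticOrderAt riemannZeta s := by
  obtain ⟨n, hn⟩ := ENat.ne_top_iff_exists.mp (order_ne_top hs)
  have h := order_le_conj (analyticAt_zeta hs) hn.symm
  have e : (fun w => conj (riemannZeta (conj w))) = riemannZeta := by
    funext w
    rw [← riemannZeta_conj, conj_conj]
  rw [e] at h
  rw [h, ← hn]

theorem orderAt_one_sub {s : ℂ} (h0 : 0 < s.re) (hi : s.im ≠ 0) :
    analyticOrderAt riemannZeta (1 - s) = analyticOrderAt riemannZeta s := by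
  have hs1 : s ≠ 1 := by
    rintro rfl
    simp at hi
  have h1s : 1 - s ≠ 1 := by
    intro h
    have h' : s = 0 := by linear_combination -h
    rw [h'] at hi
    simp at hi
  set u : ℂ → ℂ := fun s => 2 * (2 * Real.pi) ^ (-s) * Complex.Gamma s *
    Complex.cos (Real.pi * s / 2) with hu
  have hUn : {w : ℂ | 0 < w.re ∧ w.im ≠ 0} ∈ 𝓝 s :=
    IsOpen.mem_nhds ((isOpen_lt continuous_const continuous_re).inter
      (isOpen_ne_fun continuous_im continuous_const)) ⟨h0, hi⟩
  have hdiff : ∀ w : ℂ, 0 < w.re → DifferentiableAt ℂ u w := by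
    intro w hw
    have hG : DifferentiableAt ℂ Complex.Gamma w := by
      refine Complex.differentiableAt_Gamma w fun m h => ?_
      rw [h, neg_re, natCast_re] at hw
      have : (0 : ℝ) ≤ m := Nat.cast_nonneg m
      linarith
    have h2 : ((2 : ℂ) * Real.pi) ≠ 0 := by
      simp [Real.pi_ne_zero]
    have hp : DifferentiableAt ℂ (fun s : ℂ => ((2 : ℂ) * Real.pi) ^ (-s)) w :=
      DifferentiableAt.const_cpow (by fun_prop) (Or.inl h2)
    exact (((differentiableAt_const _).mul hp).mul hG).mul (by fun_prop)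
  have hua : AnalyticAt ℂ u s := by
    rw [analyticAt_iff_eventually_differentiableAt]
    filter_upwards [hUn] with w hw
    exact hdiff w hw.1
  have hu0 : u s ≠ 0 := by
    have h2 : Complex.Gamma s ≠ 0 := Complex.Gamma_ne_zero_of_re_pos h0
    have hpi : ((2 : ℂ) * Real.pi) ≠ 0 := by
      simp [Real.pi_ne_zero]
    have h3 : ((2 : ℂ) * Real.pi) ^ (-s) ≠ 0 := by
      rw [Complex.cpow_ne_zero_iff]
      exact Or.inl hpi
    have h4 : Complex.cos (Real.pi * s / 2) ≠ 0 := by
      rw [Complex.cos_ne_zero_iff]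
      intro k hk
      have h5 := congrArg Complex.im hk
      have h6 : ((Real.pi : ℂ) * s / 2).im = Real.pi * s.im / 2 := by
        have : ((Real.pi : ℂ) * s / 2) = ((Real.pi / 2 : ℝ) : ℂ) * s := by push_cast; ring
        rw [this, im_ofReal_mul]; ring
      have h7 : ((2 * (k : ℂ) + 1) * Real.pi / 2).im = 0 := by
        have : ((2 * (k : ℂ) + 1) * Real.pi / 2) = (((2 * (k : ℝ) + 1) * Real.pi / 2 : ℝ) : ℂ) := by
          push_cast; ring
        rw [this, ofReal_im]
      rw [h6, h7] at h5
      have h8 : Real.pi * s.im = 0 := by linarith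
      rcases mul_eq_zero.mp h8 with h | h
      · exact Real.pi_ne_zero h
      · exact hi h
    exact mul_ne_zero (mul_ne_zero (mul_ne_zero two_ne_zero h3) h2) h4
  have hfe : (riemannZeta ∘ fun w => 1 - w) =ᶠ[𝓝 s] u * riemannZeta := by
    filter_upwards [hUn] with w hw
    change riemannZeta (1 - w) = u w * riemannZeta w
    refine riemannZeta_one_sub (fun n h => ?_) ?_
    · have hw0 := hw.1
      rw [h, neg_re, natCast_re] at hw0
      have : (0 : ℝ) ≤ n := Nat.cast_nonneg n
      linarith
    · rintro rfl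
      exact hw.2 (by simp)
  have hga : AnalyticAt ℂ (fun w : ℂ => 1 - w) s := by fun_prop
  have hgd : deriv (fun w : ℂ => 1 - w) s ≠ 0 := by
    rw [deriv_const_sub, deriv_id'']
    norm_num
  have h1 := analyticOrderAt_comp_of_deriv_ne_zero (f := riemannZeta) hga hgd
  rw [← h1, analyticOrderAt_congr hfe, analyticOrderAt_mul hua (analyticAt_zeta hs1),
    hua.analyticOrderAt_eq_zero.mpr hu0, zero_add]

/-- **symmetry of the orders of the zeta function** under `s ↦ 1 - conj s` -/
theorem order_one_sub_conj {s : ℂ} (h0 : 0 < s.re) (hi : s.im ≠ 0) :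
    analyticOrderNatAt riemannZeta (1 - conj s) = analyticOrderNatAt riemannZeta s := by
  have hs1 : s ≠ 1 := by
    rintro rfl
    simp at hi
  have h1 := orderAt_one_sub (s := conj s) (by simpa using h0) (by simpa using hi)
  rw [analyticOrderNatAt, analyticOrderNatAt, h1, orderAt_conj hs1]

theorem order_conj {s : ℂ} (hs : s ≠ 1) :
    analyticOrderNatAt riemannZeta (conj s) = analyticOrderNatAt riemannZeta s := by
  rw [analyticOrderNatAt, analyticOrderNatAt, orderAt_conj hs]

theorem order_one_sub {s : ℂ} (h0 : 0 < s.re) (hi : s.im ≠ 0) :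
    analyticOrderNatAt riemannZeta (1 - s) = analyticOrderNatAt riemannZeta s := by
  rw [analyticOrderNatAt, analyticOrderNatAt, orderAt_one_sub h0 hi]

/-- a zero is a point of positive order -/
theorem order_pos {s : ℂ} (hs : s ≠ 1) (hz : riemannZeta s = 0) :
    0 < analyticOrderNatAt riemannZeta s := by
  rw [Nat.pos_iff_ne_zero]
  intro h
  rw [analyticOrderNatAt, ENat.toNat_eq_zero] at h
  rcases h with h | h
  · exact (analyticAt_zeta hs).analyticOrderAt_ne_zero.mpr hz h
  · exact order_ne_top hs h

end Fermat.Agent.Cor.BL.Symm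

end
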