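import Fermat.Agent.Corollaries.ZetaK.BL.Defs
import Fermat.Agent.Corollaries.ZetaK.BL.Symm
import Fermat.Agent.Corollaries.ZetaK.BL.Finite
import Fermat.Agent.Corollaries.ZetaK.ZD.Defs

/-!
# Almost all zeros of the zeta function are near to the critical line

`N(1/2 + δ, T) = O(T)` (Bohr and Landau) and `N(T) / T → ∞` (Littlewood).
-/

set_option autoImplicit false

noncomputable section

namespace Fermat.Agent.Cor.BL

open Complex Real Filter Topology Set
open scoped ComplexConjugate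

theorem one_le_order {s : ℂ} (h0 : riemannZeta s = 0) (h : s.im ≠ 0) :
    (1 : ℝ) ≤ (analyticOrderNatAt riemannZeta s : ℝ) :=
  Nat.one_le_cast.mpr (Symm.order_pos (ne_one_of_im_ne_zero h) h0)

theorem finite_far (δ T : ℝ) : (far δ T).Finite :=
  (finite_zeros T).subset fun _ hs => ⟨hs.1, hs.2.2.1, hs.2.2.2⟩

theorem zeta_symm_eq_zero {s : ℂ} (h0 : riemannZeta s = 0) (h : s.im ≠ 0) :
    riemannZeta (1 - conj s) = 0 := by
  have h1 : (conj s).im ≠ 0 := by
    rw [conj_im]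
    exact neg_ne_zero.mpr h
  have h2 := riemannZeta_one_sub (s := conj s) (fun n hn => h1 (by rw [hn]; simp))
    (ne_one_of_im_ne_zero h1)
  rw [h2, riemannZeta_conj, h0, map_zero, mul_zero]

/-- at most `2 C T` zeros outside the strip `|re - 1/2| < δ` -/
theorem sum_far_le {δ C T : ℝ}
    (hfin : {s : ℂ | riemannZeta s = 0 ∧ 1 / 2 + δ ≤ s.re ∧ 0 < s.im ∧ s.im ≤ T}.Finite)
    (hC : (∑ᶠ s ∈ {s : ℂ | riemannZeta s = 0 ∧ 1 / 2 + δ ≤ s.re ∧ 0 < s.im ∧ s.im ≤ T},
      (analyticOrderNatAt riemannZeta s : ℝ)) ≤ C * T) :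
    ∑ᶠ ρ ∈ far δ T, (analyticOrderNatAt riemannZeta ρ : ℝ) ≤ 2 * (C * T) := by
  classical
  set A : Finset ℂ := hfin.toFinset with hA
  have hAmem : ∀ s, s ∈ A ↔ riemannZeta s = 0 ∧ 1 / 2 + δ ≤ s.re ∧ 0 < s.im ∧ s.im ≤ T :=
    fun s => by rw [hA, Set.Finite.mem_toFinset]; rfl
  rw [finsum_mem_eq_finite_toFinset_sum _ hfin] at hC
  rw [finsum_mem_eq_finite_toFinset_sum _ (finite_far δ T)]
  set B : Finset ℂ := A.image fun s => 1 - conj s with hB
  have hsub : (finite_far δ T).toFinset ⊆ A ∪ B := by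
    intro s hs
    rw [Set.Finite.mem_toFinset] at hs
    obtain ⟨h0, h1, h2, h3⟩ := hs
    rw [Finset.mem_union]
    rcases le_or_gt 0 (s.re - 1 / 2) with h4 | h4
    · left
      rw [abs_of_nonneg h4] at h1
      exact (hAmem s).mpr ⟨h0, by linarith, h2, h3⟩
    · right
      rw [abs_of_neg h4] at h1
      rw [hB, Finset.mem_image]
      refine ⟨1 - conj s, (hAmem _).mpr ⟨zeta_symm_eq_zero h0 h2.ne', ?_, ?_, ?_⟩, ?_⟩
      · simp only [sub_re, one_re, conj_re]
        linarith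
      · simpa using h2
      · simpa using h3
      · simp
  have hBsum : ∑ s ∈ B, (analyticOrderNatAt riemannZeta s : ℝ) =
      ∑ s ∈ A, (analyticOrderNatAt riemannZeta s : ℝ) := by
    rw [hB, Finset.sum_image]
    · refine Finset.sum_congr rfl fun s hs => ?_
      obtain ⟨h0, -, h2, -⟩ := (hAmem s).mp hs
      rw [Symm.order_one_sub_conj (re_of_zero h0 h2.ne').1 h2.ne']
    · intro s _ t _ hst
      have h5 : conj s = conj t := sub_right_injective hst
      exact (starRingEnd ℂ).injective h5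
  have hnn : ∀ s : ℂ, (0 : ℝ) ≤ (analyticOrderNatAt riemannZeta s : ℝ) := fun s => Nat.cast_nonneg _
  have h6 := Finset.sum_union_inter (s₁ := A) (s₂ := B)
    (f := fun s => (analyticOrderNatAt riemannZeta s : ℝ))
  have h7 : 0 ≤ ∑ s ∈ A ∩ B, (analyticOrderNatAt riemannZeta s : ℝ) :=
    Finset.sum_nonneg fun s _ => hnn s
  have h8 := Finset.sum_le_sum_of_subset_of_nonneg hsub fun s _ _ => hnn s
  linarith

/-- `N(T) ≥ T / (6 h)` for every `h > 0` and all large `T` -/
theorem le_sum_far (hG : GapStmt) {h : ℝ} (hh : 0 < h) : ∃ T₁ : ℝ, ∀ T : ℝ, T₁ ≤ T →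
    T / (6 * h) ≤ ∑ᶠ ρ ∈ far 0 T, (analyticOrderNatAt riemannZeta ρ : ℝ) := by
  obtain ⟨T₀, hT₀⟩ := hG h hh
  set U : ℝ := max T₀ 0 + 2 * h with hU
  have hU0 : T₀ ≤ U := by
    have := le_max_left T₀ 0
    linarith
  have hU1 : 2 * h ≤ U := by
    have := le_max_right T₀ 0
    linarith
  refine ⟨2 * U + 6 * h, fun T hT => ?_⟩
  set K : ℕ := ⌊(T - U) / (3 * h)⌋₊ with hK
  have h3 : 0 < 3 * h := by linarith
  choose ρ hρ0 hρ1 hρ2 hρ3 using fun k : ℕ => hT₀ (U + 3 * h * k) (by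
    have : (0 : ℝ) ≤ 3 * h * k := by positivity
    linarith)
  have hmem : ∀ k ∈ Finset.range K, ρ k ∈ (finite_far 0 T).toFinset := by
    intro k hk
    rw [Set.Finite.mem_toFinset]
    have h4 := abs_le.mp (hρ3 k)
    have h5 : (0 : ℝ) ≤ 3 * h * k := by positivity
    refine ⟨hρ0 k, abs_nonneg _, by linarith [h4.1], ?_⟩
    have h6 : ((k + 1 : ℕ) : ℝ) ≤ (T - U) / (3 * h) :=
      (Nat.le_floor_iff' (by omega)).mp (Nat.succ_le_of_lt (Finset.mem_range.mp hk))
    rw [le_div_iff₀ h3] at h6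
    push_cast at h6
    linarith [h4.2]
  have hinj : Set.InjOn ρ (Finset.range K : Set ℕ) := by
    intro j _ k _ hjk
    by_contra hne
    have h4 := abs_le.mp (hρ3 j)
    have h5 := abs_le.mp (hρ3 k)
    rw [hjk] at h4
    rcases lt_or_gt_of_ne hne with h6 | h6
    · have h7 : ((j + 1 : ℕ) : ℝ) ≤ (k : ℝ) := by exact_mod_cast h6
      push_cast at h7
      nlinarith [mul_le_mul_of_nonneg_left h7 h3.le, h4.1, h4.2, h5.1, h5.2]
    · have h7 : ((k + 1 : ℕ) : ℝ) ≤ (j : ℝ) := by exact_mod_cast h6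
      push_cast at h7
      nlinarith [mul_le_mul_of_nonneg_left h7 h3.le, h4.1, h4.2, h5.1, h5.2]
  have hcard : K ≤ (finite_far 0 T).toFinset.card := by
    have := Finset.card_le_card_of_injOn ρ hmem hinj
    rwa [Finset.card_range] at this
  rw [finsum_mem_eq_finite_toFinset_sum _ (finite_far 0 T)]
  have hsum : ((finite_far 0 T).toFinset.card : ℝ) ≤
      ∑ s ∈ (finite_far 0 T).toFinset, (analyticOrderNatAt riemannZeta s : ℝ) := by
    rw [← nsmul_one, ← Finset.sum_const]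
    refine Finset.sum_le_sum fun s hs => ?_
    rw [Set.Finite.mem_toFinset] at hs
    exact one_le_order hs.1 hs.2.2.1.ne'
  have hK2 : (T - U) / (3 * h) - 1 ≤ K := by
    have := Nat.lt_floor_add_one ((T - U) / (3 * h))
    linarith
  have hK3 : T / (6 * h) ≤ (T - U) / (3 * h) - 1 := by
    rw [div_le_iff₀ (by linarith), sub_mul, div_mul_eq_mul_div, one_mul]
    have : (T - U) * (6 * h) / (3 * h) = 2 * (T - U) := by
      field_simp
      ring
    rw [this]
    linarith
  have hcard' : (K : ℝ) ≤ ((finite_far 0 T).toFinset.card : ℝ) := by exact_mod_cast hcard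
  linarith

/-- **almost all zeros are near to the critical line** -/
theorem almostStmt (hD : ZD.DensityStmt) (hG : GapStmt) : AlmostStmt := by
  intro δ hδ
  refine ⟨fun T => finite_far 0 T, ?_⟩
  obtain ⟨C, hC0, hC⟩ := hD (1 / 2 + δ) (by linarith)
  have hnn : ∀ δ T : ℝ, 0 ≤ ∑ᶠ ρ ∈ far δ T, (analyticOrderNatAt riemannZeta ρ : ℝ) := by
    intro δ T
    rw [finsum_mem_eq_finite_toFinset_sum _ (finite_far δ T)]
    exact Finset.sum_nonneg fun _ _ => Nat.cast_nonneg _
  refine tendsto_order.mpr ⟨fun a ha => Eventually.of_forall fun T =>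
    ha.trans_le (div_nonneg (hnn δ T) (hnn 0 T)), fun a ha => ?_⟩
  set h : ℝ := a / (24 * C) with hh'
  have hh : 0 < h := by positivity
  obtain ⟨T₁, hT₁⟩ := le_sum_far hG hh
  filter_upwards [eventually_ge_atTop T₁, eventually_ge_atTop 1] with T h1 h2
  have h3 := sum_far_le (hC T h2).1 (hC T h2).2
  have h4 := hT₁ T h1
  have h5 : 0 < T / (6 * h) := by positivity
  rw [div_lt_iff₀ (by linarith)]
  have h6 : 2 * (C * T) < a * (T / (6 * h)) := by
    have e : a * (T / (6 * h)) = 4 * (C * T) := by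
      rw [hh']
      field_simp
      ring
    rw [e]
    have : 0 < C * T := by positivity
    linarith
  have h7 := mul_le_mul_of_nonneg_left h4 ha.le
  linarith

end Fermat.Agent.Cor.BL

end
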