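import Fermat.Agent.Corollaries.ZetaK.BL.Osc

/-!
# (A) The approximation of the zeta function by Dirichlet polynomials, `1/2 ≤ σ ≤ 4`, `1 ≤ t ≤ N`
-/

set_option autoImplicit false

noncomputable section

namespace Fermat.Agent.Cor.BL

open Complex Real Filter Topology Set MeasureTheory

open Fermat.Agent.Cor.HL (B2 Qs zeta_em)

/-- (A) -/
theorem apprStmt : ApprStmt := by
  refine ⟨62, by norm_num, fun σ t N hσ hσ' ht htN => ?_⟩
  have ht0 : 0 < t := by linarith
  have hN1 : (1 : ℝ) ≤ N := by linarith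
  have hN : 1 ≤ N := by exact_mod_cast hN1
  have hN0 : (0 : ℝ) < N := by linarith
  have htabs : |t| ≤ 3 * N := by rw [abs_of_pos ht0]; linarith
  have hB := norm_osc_B2_le (a := σ + 2) (t := t) (by linarith) (by linarith) hN htabs
  set s : ℂ := σ + t * I with hs
  have hsre : s.re = σ := by simp [hs]
  have hsim : s.im = t := by simp [hs]
  have hs1 : s ≠ 1 := by
    intro h
    have := congrArg Complex.im h
    rw [hsim, one_im] at this
    linarith
  have hem := zeta_em (s := s) (by rw [hsre]; linarith) hs1 hN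
  have eJ : ∀ x : ℝ, (x : ℂ) ^ (-s - 2) = (x : ℂ) ^ (-(((σ + 2 : ℝ) : ℂ) + t * I)) := by
    intro x
    congr 1
    rw [hs]
    push_cast
    ring
  simp_rw [eJ] at hem
  set J := ∫ x in Ioi (N : ℝ), (B2 x : ℂ) * (x : ℂ) ^ (-(((σ + 2 : ℝ) : ℂ) + t * I)) with hJ
  have hNc : ∀ z : ℂ, ‖(N : ℂ) ^ z‖ = (N : ℝ) ^ z.re := by
    intro z
    rw [← ofReal_natCast, norm_cpow_eq_rpow_re_of_pos hN0]
  set E : ℝ := (N : ℝ) ^ (1 - σ) / t with hE
  have hE0 : 0 ≤ E := by positivity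
  have hNE : (N : ℝ) ^ (-σ) ≤ E := by
    rw [hE, le_div_iff₀ ht0, show (1 - σ : ℝ) = -σ + 1 by ring, Real.rpow_add hN0, Real.rpow_one]
    exact mul_le_mul_of_nonneg_left htN (by positivity)
  have hsn : ‖s‖ ≤ 5 * N := by
    rw [hs]
    refine (norm_add_le _ _).trans ?_
    rw [norm_mul, norm_I, mul_one, norm_real, norm_real, Real.norm_eq_abs, Real.norm_eq_abs,
      abs_of_pos ht0, abs_of_pos (by linarith)]
    linarith
  have hsn1 : ‖s + 1‖ ≤ 6 * N := by
    refine (norm_add_le _ _).trans ?_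
    rw [norm_one]
    linarith
  -- the four error terms
  have e1 : ‖(N : ℂ) ^ (1 - s) / (1 - s)‖ ≤ E := by
    have h1 : ‖(N : ℂ) ^ (1 - s)‖ = (N : ℝ) ^ (1 - σ) := by
      rw [hNc, sub_re, one_re, hsre]
    have h2 : t ≤ ‖1 - s‖ := by
      have h3 := abs_im_le_norm (1 - s)
      rw [sub_im, one_im, hsim, zero_sub, abs_neg, abs_of_pos ht0] at h3
      exact h3
    rw [norm_div, h1, hE]
    exact div_le_div_of_nonneg_left (by positivity) ht0 h2
  have e2 : ‖(N : ℂ) ^ (-s) / 2‖ ≤ 1 / 2 * E := by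
    rw [norm_div, hNc, neg_re, hsre, Complex.norm_ofNat]
    linarith
  have e3 : ‖s / 12 * (N : ℂ) ^ (-s - 1)‖ ≤ 5 / 12 * E := by
    rw [norm_mul, norm_div, hNc, sub_re, neg_re, hsre, one_re, Complex.norm_ofNat]
    calc ‖s‖ / 12 * (N : ℝ) ^ (-σ - 1) ≤ 5 * N / 12 * (N : ℝ) ^ (-σ - 1) := by gcongr
      _ = 5 / 12 * (N : ℝ) ^ (-σ) := by
        rw [Real.rpow_sub hN0, Real.rpow_one]
        field_simp
      _ ≤ 5 / 12 * E := by gcongr
  have e4 : ‖s * (s + 1) / 2 * J‖ ≤ 60 * E := by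
    rw [norm_mul, norm_div, norm_mul, Complex.norm_ofNat]
    calc ‖s‖ * ‖s + 1‖ / 2 * ‖J‖
        ≤ (5 * N) * (6 * N) / 2 * (4 * (N : ℝ) ^ (-(σ + 2))) := by gcongr
      _ = 60 * (N : ℝ) ^ (-σ) := by
        rw [show -(σ + 2) = -σ - (2 : ℕ) by push_cast; ring, Real.rpow_sub hN0,
          Real.rpow_natCast]
        field_simp
        norm_num
      _ ≤ 60 * E := by gcongr
  rw [hem, Qs]
  have key : ∀ (S a b c d : ℂ), ‖(S - a - b + c) - d - S‖ ≤ ‖a‖ + ‖b‖ + ‖c‖ + ‖d‖ := by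
    intro S a b c d
    rw [show (S - a - b + c) - d - S = -a - b + c - d by ring]
    have h1 := norm_sub_le (-a - b + c) d
    have h2 := norm_add_le (-a - b) c
    have h3 := norm_sub_le (-a) b
    rw [norm_neg] at h3
    linarith
  refine (key _ _ _ _ _).trans ?_
  have hfin : 62 * (N : ℝ) ^ (1 - σ) / t = 62 * E := by
    rw [hE]
    ring
  rw [hfin]
  linarith

end Fermat.Agent.Cor.BL

end
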