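import Fermat.Agent.Corollaries.ZetaK.HL.Em
import Fermat.Agent.Corollaries.ZetaK.HL.Approx

/-!
# The mean square of the zeta function and the theorem of Bohr and Landau (statements of the pieces)

* `MeanSqStmt` (Hardy and Littlewood 1918): `∫_0^T |ζ(1/2 + it)|² dt ~ T log T`;
* `BohrLandauStmt` (Bohr and Landau 1914): `N(σ, T) = O(T)` for `σ > 1/2`;
* `GapStmt` (Littlewood 1924): the gaps between the ordinates of the zeros tend to `0`;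
* `AlmostStmt`: almost all zeros of the zeta function are arbitrarily near to the critical line.
-/

set_option autoImplicit false

noncomputable section

namespace Fermat.Agent.Cor.BL

open Complex Real Filter Topology Set MeasureTheory

/-- (A) the approximation by Dirichlet polynomials, `1/2 ≤ σ ≤ 4`, `1 ≤ t ≤ N` -/
def ApprStmt : Prop := ∃ A : ℝ, 0 < A ∧ ∀ (σ t : ℝ) (N : ℕ), 1 / 2 ≤ σ → σ ≤ 4 → 1 ≤ t → t ≤ N →
  ‖riemannZeta (σ + t * I) - ∑ n ∈ Finset.Icc 1 N, (n : ℂ) ^ (-(σ + t * I))‖ ≤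
    A * (N : ℝ) ^ (1 - σ) / t

/-- (B) weighted mean squares of Dirichlet polynomials -/
def DirStmt : Prop := ∃ A : ℝ, 0 < A ∧ ∀ (σ T : ℝ) (N : ℕ), 1 / 2 ≤ σ → 1 ≤ T → (N : ℝ) ≤ 2 * T →
  |(∫ t in 0..T, (1 - t / T) * ‖∑ n ∈ Finset.Icc 1 N, (n : ℂ) ^ (-(σ + t * I))‖ ^ 2) -
    T / 2 * ∑ n ∈ Finset.Icc 1 N, (n : ℝ) ^ (-(2 * σ))| ≤ A * T

/-- (C) **Hardy and Littlewood (1918)** -/
def MeanSqStmt : Prop :=
  Tendsto (fun T : ℝ => (∫ t in 0..T, ‖riemannZeta (1 / 2 + t * I)‖ ^ 2) / (T * Real.log T))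
    atTop (𝓝 1)

/-- (D) the mean square to the right of the critical line -/
def UnifStmt : Prop := ∀ δ : ℝ, 0 < δ → ∃ C : ℝ, 0 < C ∧ ∀ σ T : ℝ, 1 / 2 + δ ≤ σ → σ ≤ 4 →
  1 ≤ T → ∫ t in 1..T, ‖riemannZeta (σ + t * I)‖ ^ 2 ≤ C * T

/-- the zeros with `σ ≤ re`, `0 < im ≤ T` -/
def zer (σ T : ℝ) : Set ℂ := {ρ | riemannZeta ρ = 0 ∧ σ ≤ ρ.re ∧ 0 < ρ.im ∧ ρ.im ≤ T}

/-- (E) **Bohr and Landau (1914)**: `N(1/2 + δ, T) = O(T)`, with multiplicities -/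
def BohrLandauStmt : Prop := ∀ δ : ℝ, 0 < δ → ∃ C : ℝ, 0 < C ∧ ∀ T : ℝ, 1 ≤ T →
  (zer (1 / 2 + δ) T).Finite ∧
  ∑ᶠ ρ ∈ zer (1 / 2 + δ) T, (analyticOrderNatAt riemannZeta ρ : ℝ) ≤ C * T

/-- (F) **Littlewood (1924)**: the gaps between the ordinates of the zeros tend to `0` -/
def GapStmt : Prop := ∀ h : ℝ, 0 < h → ∃ T₀ : ℝ, ∀ T : ℝ, T₀ ≤ T →
  ∃ ρ : ℂ, riemannZeta ρ = 0 ∧ 0 < ρ.re ∧ ρ.re < 1 ∧ |ρ.im - T| ≤ h

/-- the non-trivial zeros with `0 < im ≤ T` and `δ ≤ |re - 1/2|` -/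
def far (δ T : ℝ) : Set ℂ :=
  {ρ | riemannZeta ρ = 0 ∧ δ ≤ |ρ.re - 1 / 2| ∧ 0 < ρ.im ∧ ρ.im ≤ T}

/-- (G) **almost all zeros are near to the critical line**: the proportion of the zeros with
`|re - 1/2| ≥ δ` among the zeros with `0 < im ≤ T` tends to `0`, with multiplicities (`far 0 T` is the
set of all zeros with `0 < im ≤ T`) -/
def AlmostStmt : Prop := ∀ δ : ℝ, 0 < δ → (∀ T, (far 0 T).Finite) ∧
  Tendsto (fun T : ℝ => (∑ᶠ ρ ∈ far δ T, (analyticOrderNatAt riemannZeta ρ : ℝ)) /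
    (∑ᶠ ρ ∈ far 0 T, (analyticOrderNatAt riemannZeta ρ : ℝ))) atTop (𝓝 0)

end Fermat.Agent.Cor.BL

end
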