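import Fermat.Agent.Corollaries.ZetaK.BL.Defs

/-!
# (B) Weighted mean squares of the Dirichlet polynomials `∑_{n ≤ N} n^{-s}`

With the weight `1 - t/T` the off-diagonal terms are `(1 - cos (λ T)) / (λ² T)`, `λ = log (m/n)`, so
they are at most `C N |m - n|^{-3/2} / T` after multiplication with `(m n)^{-σ}`.
-/

set_option autoImplicit false

noncomputable section

namespace Fermat.Agent.Cor.BL

open Complex Real Filter Topology Set MeasureTheory

/-- the weighted integral -/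
def W (T l : ℝ) : ℝ := ∫ t in 0..T, (1 - t / T) * Real.cos (l * t)

theorem W_zero {T : ℝ} (hT : 0 < T) : W T 0 = T / 2 := by
  have h1 : ∀ t ∈ uIcc 0 T, HasDerivAt (fun t : ℝ => t - t ^ 2 / (2 * T))
      ((1 - t / T) * Real.cos (0 * t)) t := by
    intro t _
    have h := (hasDerivAt_id t).sub (((hasDerivAt_id t).pow 2).div_const (2 * T))
    refine h.congr_deriv ?_
    simp only [id, zero_mul, Real.cos_zero]
    field_simp
    ring
  rw [W, intervalIntegral.integral_eq_sub_of_hasDerivAt h1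
    (Continuous.intervalIntegrable (by fun_prop) _ _)]
  field_simp
  ring

theorem W_ne {T l : ℝ} (hT : 0 < T) (hl : l ≠ 0) : W T l = (1 - Real.cos (l * T)) / (l ^ 2 * T) := by
  have h1 : ∀ t ∈ uIcc 0 T, HasDerivAt (fun t : ℝ => (1 - t / T) * (Real.sin (l * t) / l) -
      Real.cos (l * t) / (l ^ 2 * T)) ((1 - t / T) * Real.cos (l * t)) t := by
    intro t _
    have e0 : HasDerivAt (fun t : ℝ => l * t) l t := by
      simpa using (hasDerivAt_id t).const_mul l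
    have e1 : HasDerivAt (fun t : ℝ => 1 - t / T) (-(1 / T)) t := by
      simpa using ((hasDerivAt_id t).div_const T).const_sub 1
    have e2 : HasDerivAt (fun t : ℝ => Real.sin (l * t) / l) (Real.cos (l * t) * l / l) t :=
      (e0.sin).div_const l
    have e3 : HasDerivAt (fun t : ℝ => Real.cos (l * t) / (l ^ 2 * T))
        (-Real.sin (l * t) * l / (l ^ 2 * T)) t := (e0.cos).div_const _
    refine ((e1.mul e2).sub e3).congr_deriv ?_
    field_simp
    ring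
  rw [W, intervalIntegral.integral_eq_sub_of_hasDerivAt h1
    (Continuous.intervalIntegrable (by fun_prop) _ _)]
  simp only [mul_zero, Real.sin_zero, Real.cos_zero, zero_div, sub_zero]
  field_simp
  ring

theorem abs_W_le {T l : ℝ} (hT : 0 < T) (hl : l ≠ 0) : |W T l| ≤ 2 / (l ^ 2 * T) := by
  have h2 : 0 < l ^ 2 * T := mul_pos (by positivity) hT
  rw [W_ne hT hl, abs_div, abs_of_pos h2]
  refine div_le_div_of_nonneg_right ?_ h2.le
  rw [abs_le]
  constructor <;> linarith [Real.neg_one_le_cos (l * T), Real.cos_le_one (l * T)]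

theorem cpow_eq {σ t : ℝ} {n : ℕ} (hn : 1 ≤ n) : (n : ℂ) ^ (-(σ + t * I)) =
    (((n : ℝ) ^ (-σ) * Real.cos (Real.log n * t) : ℝ) : ℂ) -
      (((n : ℝ) ^ (-σ) * Real.sin (Real.log n * t) : ℝ) : ℂ) * I := by
  have hn0 : (0 : ℝ) < n := by exact_mod_cast hn
  have hnc : (n : ℂ) ≠ 0 := by exact_mod_cast hn0.ne'
  rw [cpow_def_of_ne_zero hnc, Real.rpow_def_of_pos hn0, ← ofReal_natCast, ← ofReal_log hn0.le]
  have e : ((Real.log n : ℝ) : ℂ) * (-(σ + t * I)) =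
      ((Real.log n * -σ : ℝ) : ℂ) + ((-(Real.log n * t) : ℝ) : ℂ) * I := by
    push_cast
    ring
  rw [e, Complex.exp_add, Complex.exp_mul_I, ← Complex.ofReal_exp, ← Complex.ofReal_cos,
    ← Complex.ofReal_sin, Real.cos_neg, Real.sin_neg]
  push_cast
  ring

theorem norm_sq_sum (σ t : ℝ) (N : ℕ) : ‖∑ n ∈ Finset.Icc 1 N, (n : ℂ) ^ (-(σ + t * I))‖ ^ 2 =
    ∑ m ∈ Finset.Icc 1 N, ∑ n ∈ Finset.Icc 1 N, (m : ℝ) ^ (-σ) * (n : ℝ) ^ (-σ) *
      Real.cos ((Real.log m - Real.log n) * t) := by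
  have h1 : ∑ n ∈ Finset.Icc 1 N, (n : ℂ) ^ (-(σ + t * I)) =
      ((∑ n ∈ Finset.Icc 1 N, (n : ℝ) ^ (-σ) * Real.cos (Real.log n * t) : ℝ) : ℂ) +
        ((-∑ n ∈ Finset.Icc 1 N, (n : ℝ) ^ (-σ) * Real.sin (Real.log n * t) : ℝ) : ℂ) * I := by
    rw [Finset.sum_congr rfl fun n hn => cpow_eq (Finset.mem_Icc.1 hn).1, Finset.sum_sub_distrib,
      ← Finset.sum_mul]
    push_cast
    ring
  rw [h1, Complex.sq_norm, Complex.normSq_add_mul_I, neg_sq, pow_two, pow_two,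
    Finset.sum_mul_sum, Finset.sum_mul_sum, ← Finset.sum_add_distrib]
  refine Finset.sum_congr rfl fun m _ => ?_
  rw [← Finset.sum_add_distrib]
  refine Finset.sum_congr rfl fun n _ => ?_
  rw [sub_mul, Real.cos_sub]
  ring

/-- the weighted mean square as a double sum -/
theorem integral_eq (σ T : ℝ) (N : ℕ) :
    ∫ t in 0..T, (1 - t / T) * ‖∑ n ∈ Finset.Icc 1 N, (n : ℂ) ^ (-(σ + t * I))‖ ^ 2 =
      ∑ m ∈ Finset.Icc 1 N, ∑ n ∈ Finset.Icc 1 N, (m : ℝ) ^ (-σ) * (n : ℝ) ^ (-σ) *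
        W T (Real.log m - Real.log n) := by
  have h1 : ∀ t : ℝ, (1 - t / T) * ‖∑ n ∈ Finset.Icc 1 N, (n : ℂ) ^ (-(σ + t * I))‖ ^ 2 =
      ∑ m ∈ Finset.Icc 1 N, ∑ n ∈ Finset.Icc 1 N, (m : ℝ) ^ (-σ) * (n : ℝ) ^ (-σ) *
        ((1 - t / T) * Real.cos ((Real.log m - Real.log n) * t)) := by
    intro t
    rw [norm_sq_sum, Finset.mul_sum]
    refine Finset.sum_congr rfl fun m _ => ?_
    rw [Finset.mul_sum]
    exact Finset.sum_congr rfl fun n _ => by ring
  simp_rw [h1]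
  rw [intervalIntegral.integral_finset_sum fun m _ =>
    Continuous.intervalIntegrable (by fun_prop) _ _]
  refine Finset.sum_congr rfl fun m _ => ?_
  rw [intervalIntegral.integral_finset_sum fun n _ =>
    Continuous.intervalIntegrable (by fun_prop) _ _]
  refine Finset.sum_congr rfl fun n _ => ?_
  rw [intervalIntegral.integral_const_mul]
  rfl

/-- the summable bound -/
def gB (k : ℤ) : ℝ := |(k : ℝ)| ^ (-(3 / 2) : ℝ)

theorem gB_nonneg (k : ℤ) : 0 ≤ gB k := by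
  unfold gB
  positivity

theorem summable_gB : Summable gB := Real.summable_abs_int_rpow (by norm_num)

theorem sum_gB_le (m N : ℕ) : ∑ n ∈ Finset.Icc 1 N, gB ((m : ℤ) - n) ≤ ∑' k, gB k := by
  have h1 : ∑ n ∈ Finset.Icc 1 N, gB ((m : ℤ) - n) =
      ∑ k ∈ (Finset.Icc 1 N).image (fun n : ℕ => (m : ℤ) - n), gB k := by
    rw [Finset.sum_image]
    intro a _ b _ h
    simp only at h
    omega
  rw [h1]
  exact summable_gB.sum_le_tsum _ fun k _ => gB_nonneg k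

/-- the off-diagonal terms, `n < m` -/
theorem off_lt {σ T : ℝ} (hσ : 1 / 2 ≤ σ) (hT : 0 < T) {m n : ℕ} (hn : 1 ≤ n) (hnm : n < m) :
    (m : ℝ) ^ (-σ) * (n : ℝ) ^ (-σ) * (2 / ((Real.log m - Real.log n) ^ 2 * T)) ≤
      4 * m / T * gB ((m : ℤ) - n) := by
  have hn0 : (0 : ℝ) < n := by exact_mod_cast hn
  have hn1 : (1 : ℝ) ≤ n := by exact_mod_cast hn
  have hm0 : (0 : ℝ) < m := by exact_mod_cast (by omega : 0 < m)
  have hm1 : (1 : ℝ) ≤ m := by exact_mod_cast (by omega : 1 ≤ m)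
  obtain ⟨k, hk⟩ : ∃ k : ℕ, m = n + k := ⟨m - n, by omega⟩
  have hk1 : 1 ≤ k := by omega
  have hkR : (1 : ℝ) ≤ k := by exact_mod_cast hk1
  have hk0 : (0 : ℝ) < k := by linarith
  have hmk : (m : ℝ) = n + k := by rw [hk]; push_cast; ring
  -- the logarithm
  have hlog : (k : ℝ) / m ≤ Real.log m - Real.log n := by
    rw [← Real.log_div hm0.ne' hn0.ne']
    have h := Real.one_sub_inv_le_log_of_pos (show (0 : ℝ) < m / n by positivity)
    refine le_trans (le_of_eq ?_) h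
    rw [inv_div]
    field_simp
    linarith
  have hkm : 0 < (k : ℝ) / m := by positivity
  have h1 : 2 / ((Real.log m - Real.log n) ^ 2 * T) ≤ 2 / (((k : ℝ) / m) ^ 2 * T) := by
    refine div_le_div_of_nonneg_left (by norm_num) (by positivity) ?_
    exact mul_le_mul_of_nonneg_right (pow_le_pow_left₀ hkm.le hlog 2) hT.le
  -- the powers
  have h2 : (m : ℝ) ^ (-σ) ≤ (m : ℝ) ^ (-(1 / 2) : ℝ) :=
    Real.rpow_le_rpow_of_exponent_le hm1 (by linarith)
  have h3 : (n : ℝ) ^ (-σ) ≤ (n : ℝ) ^ (-(1 / 2) : ℝ) :=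
    Real.rpow_le_rpow_of_exponent_le hn1 (by linarith)
  have h4 : (m : ℝ) ^ (-(1 / 2) : ℝ) * (n : ℝ) ^ (-(1 / 2) : ℝ) ≤
      2 * (k : ℝ) ^ (1 / 2 : ℝ) / m := by
    have e1 : (m : ℝ) ^ (-(1 / 2) : ℝ) * (n : ℝ) ^ (-(1 / 2) : ℝ) =
        (m / n : ℝ) ^ (1 / 2 : ℝ) / m := by
      rw [Real.div_rpow hm0.le hn0.le, Real.rpow_neg hm0.le, Real.rpow_neg hn0.le]
      have e2 : (m : ℝ) = (m : ℝ) ^ (1 / 2 : ℝ) * (m : ℝ) ^ (1 / 2 : ℝ) := by
        rw [← Real.rpow_add hm0]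
        norm_num
      have e3 : (0 : ℝ) < (m : ℝ) ^ (1 / 2 : ℝ) := by positivity
      have e4 : (0 : ℝ) < (n : ℝ) ^ (1 / 2 : ℝ) := by positivity
      rw [div_div, mul_comm ((n : ℝ) ^ (1 / 2 : ℝ)) (m : ℝ)]
      nth_rewrite 3 [e2]
      field_simp
    rw [e1]
    refine div_le_div_of_nonneg_right ?_ hm0.le
    have h5 : (m / n : ℝ) ≤ 4 * k := by
      rw [div_le_iff₀ hn0, hmk]
      nlinarith
    calc (m / n : ℝ) ^ (1 / 2 : ℝ) ≤ (4 * k : ℝ) ^ (1 / 2 : ℝ) :=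
          Real.rpow_le_rpow (by positivity) h5 (by norm_num)
      _ = 2 * (k : ℝ) ^ (1 / 2 : ℝ) := by
          rw [Real.mul_rpow (by norm_num) hk0.le]
          congr 1
          rw [show (4 : ℝ) = 2 ^ (2 : ℝ) by norm_num, ← Real.rpow_mul (by norm_num)]
          norm_num
  have h5 : gB ((m : ℤ) - n) = (k : ℝ) ^ (1 / 2 : ℝ) / k ^ 2 := by
    have e : ((m : ℤ) - n) = (k : ℤ) := by rw [hk]; push_cast; ring
    rw [gB, e, Int.cast_natCast, abs_of_pos hk0, ← Real.rpow_natCast (k : ℝ) 2,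
      ← Real.rpow_sub hk0]
    norm_num
  calc (m : ℝ) ^ (-σ) * (n : ℝ) ^ (-σ) * (2 / ((Real.log m - Real.log n) ^ 2 * T))
      ≤ (2 * (k : ℝ) ^ (1 / 2 : ℝ) / m) * (2 / (((k : ℝ) / m) ^ 2 * T)) := by
        refine mul_le_mul ((mul_le_mul h2 h3 (by positivity) (by positivity)).trans h4) h1 ?_
          (by positivity)
        have : 0 < Real.log m - Real.log n := lt_of_lt_of_le hkm hlog
        positivity
    _ = 4 * m / T * gB ((m : ℤ) - n) := by
        rw [h5]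
        field_simp
        norm_num

theorem gB_neg (k : ℤ) : gB (-k) = gB k := by
  rw [gB, gB, Int.cast_neg, abs_neg]

/-- the off-diagonal terms -/
theorem off_le {σ T : ℝ} (hσ : 1 / 2 ≤ σ) (hT : 0 < T) {N m n : ℕ} (hm : 1 ≤ m) (hn : 1 ≤ n)
    (hmN : m ≤ N) (hnN : n ≤ N) (hmn : m ≠ n) :
    |(m : ℝ) ^ (-σ) * (n : ℝ) ^ (-σ) * W T (Real.log m - Real.log n)| ≤
      4 * N / T * gB ((m : ℤ) - n) := by
  have hn0 : (0 : ℝ) < n := by exact_mod_cast hn
  have hm0 : (0 : ℝ) < m := by exact_mod_cast hm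
  have hl : Real.log m - Real.log n ≠ 0 := by
    intro h
    have h2 := Real.log_injOn_pos (Set.mem_Ioi.2 hm0) (Set.mem_Ioi.2 hn0) (sub_eq_zero.1 h)
    exact hmn (by exact_mod_cast h2)
  have hmN' : (m : ℝ) ≤ N := by exact_mod_cast hmN
  have hnN' : (n : ℝ) ≤ N := by exact_mod_cast hnN
  rw [abs_mul, abs_of_nonneg (by positivity : 0 ≤ (m : ℝ) ^ (-σ) * (n : ℝ) ^ (-σ))]
  refine (mul_le_mul_of_nonneg_left (abs_W_le hT hl) (by positivity)).trans ?_
  rcases lt_or_gt_of_ne hmn with h | h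
  · have h1 := off_lt hσ hT hm h
    have e1 : (m : ℝ) ^ (-σ) * (n : ℝ) ^ (-σ) * (2 / ((Real.log m - Real.log n) ^ 2 * T)) =
        (n : ℝ) ^ (-σ) * (m : ℝ) ^ (-σ) * (2 / ((Real.log n - Real.log m) ^ 2 * T)) := by
      rw [show (Real.log m - Real.log n) ^ 2 = (Real.log n - Real.log m) ^ 2 by ring]
      ring
    rw [e1]
    refine h1.trans ?_
    rw [show ((m : ℤ) - n) = -((n : ℤ) - m) by ring, gB_neg]
    refine mul_le_mul_of_nonneg_right ?_ (gB_nonneg _)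
    exact div_le_div_of_nonneg_right (by linarith) hT.le
  · refine (off_lt hσ hT hn h).trans ?_
    refine mul_le_mul_of_nonneg_right ?_ (gB_nonneg _)
    exact div_le_div_of_nonneg_right (by linarith) hT.le

/-- (B) -/
theorem dirStmt : DirStmt := by
  have hS : 0 ≤ ∑' k, gB k := tsum_nonneg gB_nonneg
  refine ⟨16 * (∑' k, gB k) + 1, by linarith, fun σ T N hσ hT hN => ?_⟩
  have hT0 : 0 < T := by linarith
  rw [integral_eq, Finset.mul_sum, ← Finset.sum_sub_distrib]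
  have h1 : ∀ m ∈ Finset.Icc 1 N, |(∑ n ∈ Finset.Icc 1 N, (m : ℝ) ^ (-σ) * (n : ℝ) ^ (-σ) *
      W T (Real.log m - Real.log n)) - T / 2 * (m : ℝ) ^ (-(2 * σ))| ≤
        4 * N / T * ∑' k, gB k := by
    intro m hm
    obtain ⟨hm1, hmN⟩ := Finset.mem_Icc.1 hm
    have hm0 : (0 : ℝ) < m := by exact_mod_cast hm1
    rw [← Finset.sum_erase_add _ _ hm, sub_self, W_zero hT0]
    have e : (m : ℝ) ^ (-σ) * (m : ℝ) ^ (-σ) * (T / 2) = T / 2 * (m : ℝ) ^ (-(2 * σ)) := by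
      rw [← Real.rpow_add hm0, mul_comm]
      congr 2
      ring
    rw [e, add_sub_cancel_right]
    refine (Finset.abs_sum_le_sum_abs _ _).trans ?_
    refine (Finset.sum_le_sum fun n hn => off_le hσ hT0 hm1
      (Finset.mem_Icc.1 (Finset.mem_of_mem_erase hn)).1 hmN
      (Finset.mem_Icc.1 (Finset.mem_of_mem_erase hn)).2 (Finset.ne_of_mem_erase hn).symm).trans ?_
    rw [← Finset.mul_sum]
    refine mul_le_mul_of_nonneg_left ?_ (by positivity)
    refine (Finset.sum_le_sum_of_subset_of_nonneg (Finset.erase_subset _ _)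
      fun k _ _ => gB_nonneg _).trans (sum_gB_le m N)
  refine (Finset.abs_sum_le_sum_abs _ _).trans ((Finset.sum_le_sum h1).trans ?_)
  rw [Finset.sum_const, Nat.card_Icc, add_tsub_cancel_right, nsmul_eq_mul]
  have h2 : (N : ℝ) * (4 * N / T * ∑' k, gB k) = 4 * (N * N / T) * ∑' k, gB k := by ring
  rw [h2]
  have h3 : (N : ℝ) * N / T ≤ 4 * T := by
    rw [div_le_iff₀ hT0]
    nlinarith [Nat.cast_nonneg (α := ℝ) N]
  have h4 : 4 * ((N : ℝ) * N / T) * ∑' k, gB k ≤ 4 * (4 * T) * ∑' k, gB k :=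
    mul_le_mul_of_nonneg_right (by linarith) hS
  nlinarith

end Fermat.Agent.Cor.BL

end
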