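import Mathlib.NumberTheory.LSeries.Nonvanishing
import Mathlib.NumberTheory.LSeries.Dirichlet
import Mathlib.Analysis.SpecialFunctions.Gamma.Beta

/-!
# The size of the zeta function on the line `re s = -1/2`
-/

set_option autoImplicit false

noncomputable section

namespace Fermat.Agent.Cor.BL

open Complex Real Filter Topology Set ArithmeticFunction
open scoped LSeries.notation ArithmeticFunction.Moebius

/-! ### The half plane of absolute convergence -/

theorem norm_LSeries_le {f : ℕ → ℂ} {s s₀ : ℂ} (hf : LSeriesSummable f s₀) (hs : s₀.re ≤ s.re) :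
    ‖LSeries f s‖ ≤ ∑' n, ‖LSeries.term f s₀ n‖ := by
  have h1 : Summable fun n => ‖LSeries.term f s₀ n‖ := hf.norm
  have h2 : Summable fun n => ‖LSeries.term f s n‖ :=
    h1.of_nonneg_of_le (fun _ => norm_nonneg _) (LSeries.norm_term_le_of_re_le_re f hs)
  exact (norm_tsum_le_tsum_norm h2).trans
    (h2.tsum_le_tsum (LSeries.norm_term_le_of_re_le_re f hs) h1)

/-- bounds for the zeta function, `re s ≥ 3/2` -/
theorem exists_zeta_bounds : ∃ m Z : ℝ, 0 < m ∧ 0 < Z ∧ ∀ s : ℂ, 3 / 2 ≤ s.re →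
    m ≤ ‖riemannZeta s‖ ∧ ‖riemannZeta s‖ ≤ Z := by
  have h32 : (1 : ℝ) < ((3 / 2 : ℝ) : ℂ).re := by
    rw [ofReal_re]
    norm_num
  set A : ℝ := ∑' n, ‖LSeries.term (↗μ) ((3 / 2 : ℝ) : ℂ) n‖ with hA
  set B : ℝ := ∑' n, ‖LSeries.term (1 : ℕ → ℂ) ((3 / 2 : ℝ) : ℂ) n‖ with hB
  have hA0 : 0 ≤ A := tsum_nonneg fun _ => norm_nonneg _
  have hB0 : 0 ≤ B := tsum_nonneg fun _ => norm_nonneg _
  refine ⟨(A + 1)⁻¹, B + 1, by positivity, by positivity, fun s hs => ?_⟩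
  have hs1 : 1 < s.re := by linarith
  have hs' : ((3 / 2 : ℝ) : ℂ).re ≤ s.re := by
    rw [ofReal_re]
    exact hs
  have h1 : ‖LSeries (↗μ) s‖ ≤ A := norm_LSeries_le (LSeriesSummable_moebius_iff.mpr h32) hs'
  have h2 : ‖LSeries (1 : ℕ → ℂ) s‖ ≤ B := norm_LSeries_le (LSeriesSummable_one_iff.mpr h32) hs'
  have h3 := LSeries_one_mul_Lseries_moebius hs1
  rw [LSeries_one_eq_riemannZeta hs1] at h2 h3
  refine ⟨?_, by linarith⟩
  have h4 := congrArg norm h3
  rw [norm_mul, norm_one] at h4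
  rw [inv_le_iff_one_le_mul₀ (by linarith), ← h4]
  exact mul_le_mul_of_nonneg_left (by linarith) (norm_nonneg _)

/-- the logarithmic derivative, `re s ≥ 2` -/
theorem exists_logDeriv_bound : ∃ C : ℝ, 0 < C ∧ ∀ s : ℂ, 2 ≤ s.re →
    ‖deriv riemannZeta s / riemannZeta s‖ ≤ C := by
  have h2 : (1 : ℝ) < (2 : ℂ).re := by
    norm_num
  set A : ℝ := ∑' n, ‖LSeries.term (↗Λ) 2 n‖ with hA
  have hA0 : 0 ≤ A := tsum_nonneg fun _ => norm_nonneg _
  refine ⟨A + 1, by positivity, fun s hs => ?_⟩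
  have h1 : ‖LSeries (↗Λ) s‖ ≤ A :=
    norm_LSeries_le (LSeriesSummable_vonMangoldt h2) (by simpa using hs)
  rw [LSeries_vonMangoldt_eq_deriv_riemannZeta_div (by linarith), neg_div, norm_neg] at h1
  linarith

/-! ### The functional equation -/

/-- `|Γ(1/2 - iT) cos(π (3/2 - iT) / 2)|² = π / 2` -/
theorem norm_gamma_cos (T : ℝ) :
    (‖Complex.Gamma (1 / 2 - T * I)‖ * ‖Complex.cos (π * (3 / 2 - T * I) / 2)‖) ^ 2 = π / 2 := by
  have h1 : ‖Complex.Gamma (1 / 2 - T * I)‖ ^ 2 = π / Real.cosh (π * T) := by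
    have e1 : (starRingEnd ℂ) (1 / 2 - T * I) = 1 - (1 / 2 - T * I) := by
      apply Complex.ext
      · simp
        norm_num
      · simp
    have h2 := Complex.Gamma_mul_Gamma_one_sub (1 / 2 - T * I)
    rw [← e1, Complex.Gamma_conj, Complex.mul_conj'] at h2
    have e2 : Complex.sin (π * (1 / 2 - T * I)) = ((Real.cosh (π * T) : ℝ) : ℂ) := by
      have : (π : ℂ) * (1 / 2 - T * I) = π / 2 - ((π * T : ℝ) : ℂ) * I := by
        push_cast
        ring
      rw [this, Complex.sin_pi_div_two_sub, Complex.cos_mul_I, ofReal_cosh]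
    rw [e2] at h2
    exact_mod_cast h2
  have h2 : ‖Complex.cos (π * (3 / 2 - T * I) / 2)‖ ^ 2 = Real.cosh (π * T) / 2 := by
    set x : ℝ := 3 * π / 4 with hx
    set y : ℝ := π * T / 2 with hy
    have e1 : (π : ℂ) * (3 / 2 - T * I) / 2 = (x : ℂ) - (y : ℂ) * I := by
      rw [hx, hy]
      push_cast
      ring
    have e2 : Complex.cos ((x : ℂ) - (y : ℂ) * I) =
        ((Real.cos x * Real.cosh y : ℝ) : ℂ) + ((Real.sin x * Real.sinh y : ℝ) : ℂ) * I := by
      rw [Complex.cos_sub, Complex.cos_mul_I, Complex.sin_mul_I]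
      push_cast
      ring
    have hc : Real.cos x ^ 2 = 1 / 2 := by
      rw [Real.cos_sq]
      have : 2 * x = π / 2 + π := by
        rw [hx]
        ring
      rw [this, Real.cos_add_pi, Real.cos_pi_div_two]
      norm_num
    have hs : Real.sin x ^ 2 = 1 / 2 := by
      have := Real.sin_sq_add_cos_sq x
      linarith
    have hh : Real.cosh (π * T) = Real.cosh y ^ 2 + Real.sinh y ^ 2 := by
      rw [← Real.cosh_two_mul, hy]
      congr 1
      ring
    rw [e1, e2, ← Complex.normSq_eq_norm_sq, Complex.normSq_add_mul_I, mul_pow, mul_pow, hc, hs,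
      hh]
    ring
  have h3 : 0 < Real.cosh (π * T) := Real.cosh_pos _
  rw [mul_pow, h1, h2]
  field_simp

/-- **the size of `ζ(-1/2 + iT)`** -/
theorem norm_zeta_left (T : ℝ) : ‖riemannZeta (-(1 / 2) + T * I)‖ =
    2 * (2 * π) ^ (-(3 / 2) : ℝ) * √(π / 2) * ‖(1 / 2 - T * I : ℂ)‖ *
      ‖riemannZeta (3 / 2 - T * I)‖ := by
  have hre : (3 / 2 - T * I : ℂ).re = 3 / 2 := by simp
  have h1 := riemannZeta_one_sub (s := 3 / 2 - T * I) (fun n h => by
    have h2 := congrArg Complex.re h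
    rw [hre] at h2
    simp at h2
    have : (0 : ℝ) ≤ n := Nat.cast_nonneg n
    linarith) (fun h => by
    have h2 := congrArg Complex.re h
    rw [hre] at h2
    norm_num at h2)
  have e1 : (1 : ℂ) - (3 / 2 - T * I) = -(1 / 2) + T * I := by ring
  rw [e1] at h1
  rw [h1]
  have e2 : Complex.Gamma (3 / 2 - T * I) = (1 / 2 - T * I) * Complex.Gamma (1 / 2 - T * I) := by
    rw [← Complex.Gamma_add_one]
    · congr 1
      ring
    · intro h
      have h2 := congrArg Complex.re h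
      simp at h2
  have e3 : ‖((2 : ℂ) * π) ^ (-(3 / 2 - T * I) : ℂ)‖ = (2 * π) ^ (-(3 / 2) : ℝ) := by
    have : (2 : ℂ) * π = ((2 * π : ℝ) : ℂ) := by push_cast; rfl
    rw [this, Complex.norm_cpow_eq_rpow_re_of_pos (by positivity), neg_re, hre]
  have e4 : ‖Complex.Gamma (1 / 2 - T * I)‖ * ‖Complex.cos (π * (3 / 2 - T * I) / 2)‖ =
      √(π / 2) := by
    rw [← norm_gamma_cos T, Real.sqrt_sq (by positivity)]
  rw [e2]
  simp only [norm_mul]
  rw [e3, ← e4]
  have : ‖(2 : ℂ)‖ = 2 := by simp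
  rw [this]
  ring

/-- `|ζ(-1/2 + iT)| ≥ c T` -/
theorem exists_norm_zeta_left : ∃ c : ℝ, 0 < c ∧ ∀ T : ℝ, 0 ≤ T →
    c * T ≤ ‖riemannZeta (-(1 / 2) + T * I)‖ := by
  obtain ⟨m, Z, hm, -, h⟩ := exists_zeta_bounds
  have hc : 0 < 2 * (2 * π) ^ (-(3 / 2) : ℝ) * √(π / 2) := by positivity
  refine ⟨2 * (2 * π) ^ (-(3 / 2) : ℝ) * √(π / 2) * m, by positivity, fun T hT => ?_⟩
  have h1 : T ≤ ‖(1 / 2 - T * I : ℂ)‖ := by
    have h2 := Complex.abs_im_le_norm (1 / 2 - T * I : ℂ)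
    have h3 : (1 / 2 - T * I : ℂ).im = -T := by simp
    rw [h3, abs_neg, abs_of_nonneg hT] at h2
    exact h2
  have h2 := (h (3 / 2 - T * I) (by simp)).1
  rw [norm_zeta_left]
  have h3 : T * m ≤ ‖(1 / 2 - T * I : ℂ)‖ * ‖riemannZeta (3 / 2 - T * I)‖ :=
    mul_le_mul h1 h2 hm.le (norm_nonneg _)
  calc 2 * (2 * π) ^ (-(3 / 2) : ℝ) * √(π / 2) * m * T
      = 2 * (2 * π) ^ (-(3 / 2) : ℝ) * √(π / 2) * (T * m) := by ring
    _ ≤ 2 * (2 * π) ^ (-(3 / 2) : ℝ) * √(π / 2) *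
        (‖(1 / 2 - T * I : ℂ)‖ * ‖riemannZeta (3 / 2 - T * I)‖) :=
          mul_le_mul_of_nonneg_left h3 hc.le
    _ = _ := by ring

/-- no zeros with `re s ≤ 0`, `im s ≠ 0` -/
theorem zeta_ne_zero_of_re_nonpos {s : ℂ} (h1 : s.re ≤ 0) (h2 : s.im ≠ 0) :
    riemannZeta s ≠ 0 := by
  have him : (1 - s).im ≠ 0 := by
    rw [sub_im, one_im, zero_sub]
    exact neg_ne_zero.mpr h2
  have hre : 1 ≤ (1 - s).re := by
    rw [sub_re, one_re]
    linarith
  have h3 := riemannZeta_one_sub (s := 1 - s) (fun n h => him (by rw [h]; simp))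
    (fun h => him (by rw [h]; simp))
  rw [sub_sub_cancel] at h3
  rw [h3]
  refine mul_ne_zero (mul_ne_zero (mul_ne_zero (mul_ne_zero two_ne_zero ?_) ?_) ?_) ?_
  · have : (2 : ℂ) * π ≠ 0 := by
      simp [Real.pi_ne_zero]
    exact fun h => this ((Complex.cpow_eq_zero_iff _ _).mp h).1
  · exact Complex.Gamma_ne_zero_of_re_pos (by linarith)
  · intro h
    rw [Complex.cos_eq_zero_iff] at h
    obtain ⟨k, hk⟩ := h
    have h4 : (1 - s) = 2 * k + 1 := by
      have hpi : (π : ℂ) ≠ 0 := by exact_mod_cast Real.pi_ne_zero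
      field_simp at hk
      exact hk
    apply him
    rw [h4]
    simp
  · exact riemannZeta_ne_zero_of_one_le_re hre

end Fermat.Agent.Cor.BL

end
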