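import Mathlib.Analysis.Complex.AbsMax
import Mathlib.Analysis.Complex.BranchLogRoot
import Mathlib.Analysis.Convex.Contractible
import Mathlib.Analysis.SpecialFunctions.Trigonometric.DerivHyp

/-!
# Logarithms on convex sets and the maximum principle on a rectangle
-/

set_option autoImplicit false

noncomputable section

namespace Fermat.Agent.Cor.BL

open Complex Real Filter Topology Set

/-- a holomorphic function without zeros on a convex open set has a holomorphic logarithm -/
theorem exists_log {U : Set ℂ} (hU : Convex ℝ U) (hne : U.Nonempty) (hUo : IsOpen U)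
    {g : ℂ → ℂ} (hg : DifferentiableOn ℂ g U) (h0 : ∀ z ∈ U, g z ≠ 0) :
    ∃ L : ℂ → ℂ, DifferentiableOn ℂ L U ∧ ∀ z ∈ U, cexp (L z) = g z := by
  have hsc : IsSimplyConnected U := by
    have := hU.contractibleSpace hne
    exact (inferInstance : SimplyConnectedSpace U)
  obtain ⟨L, hLc, hL⟩ := exists_continuousOn_eqOn_exp_comp hsc hUo hg.continuousOn (by
    rintro ⟨z, hz, h⟩
    exact h0 z hz h)
  have hL' : ∀ z ∈ U, cexp (L z) = g z := fun z hz => hL hz
  refine ⟨L, fun z₀ hz₀ => ?_, hL'⟩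
  refine DifferentiableAt.differentiableWithinAt ?_
  have hgd : DifferentiableAt ℂ g z₀ := (hg z₀ hz₀).differentiableAt (hUo.mem_nhds hz₀)
  have hLcont : ContinuousAt L z₀ := hLc.continuousAt (hUo.mem_nhds hz₀)
  have h1 : DifferentiableAt ℂ (fun z => L z₀ + Complex.log (g z / g z₀)) z₀ := by
    refine (DifferentiableAt.clog (hgd.div_const _) ?_).const_add _
    rw [div_self (h0 z₀ hz₀)]
    exact one_mem_slitPlane
  refine h1.congr_of_eventuallyEq ?_
  have h2 : ∀ᶠ z in 𝓝 z₀, ‖L z - L z₀‖ < π := by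
    have h3 : Tendsto (fun z => ‖L z - L z₀‖) (𝓝 z₀) (𝓝 0) := by
      have := (hLcont.tendsto.sub_const (L z₀)).norm
      rwa [sub_self, norm_zero] at this
    exact h3.eventually_lt_const Real.pi_pos
  filter_upwards [h2, hUo.mem_nhds hz₀] with z hz hzU
  have h4 : g z / g z₀ = cexp (L z - L z₀) := by
    rw [Complex.exp_sub, hL' z hzU, hL' z₀ hz₀]
  have h5 := (Complex.abs_im_le_norm (L z - L z₀)).trans_lt hz
  rw [h4, Complex.log_exp (by linarith [(abs_lt.mp h5).1]) (by linarith [(abs_lt.mp h5).2])]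
  ring

/-- the rectangle -/
def Rc (h : ℝ) : Set ℂ := Ioo (-(3 / 4)) 2 ×ℂ Ioo (-h) h

theorem closure_Rc {h : ℝ} (hh : 0 < h) : closure (Rc h) = Icc (-(3 / 4)) 2 ×ℂ Icc (-h) h := by
  rw [Rc, closure_reProdIm, closure_Ioo (by norm_num), closure_Ioo (by linarith : -h < h).ne]

theorem isBounded_Rc (h : ℝ) : Bornology.IsBounded (Rc h) :=
  (Metric.isBounded_Ioo _ _).reProdIm (Metric.isBounded_Ioo _ _)

/-- the exponent in the estimate at `-1/2` -/
def eta (h : ℝ) : ℝ := Real.sinh (π / (2 * h) / 4) / Real.sinh (π / (2 * h) * (11 / 4))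

theorem eta_pos {h : ℝ} (hh : 0 < h) : 0 < eta h := by
  have hl : 0 < π / (2 * h) := div_pos Real.pi_pos (by linarith)
  exact div_pos (Real.sinh_pos_iff.mpr (by linarith)) (Real.sinh_pos_iff.mpr (by linarith))

/-- **two constants on a rectangle**: a bounded function, small on the right side, is small at
`-1/2` -/
theorem two_constants {h : ℝ} (hh : 0 < h) {w : ℂ → ℂ} (hw : DiffContOnCl ℂ w (Rc h)) {M a : ℝ}
    (ha : 0 ≤ a)
    (h1 : ∀ z : ℂ, -(3 / 4) ≤ z.re → z.re ≤ 2 → |z.im| ≤ h → ‖w z‖ ≤ M)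
    (h2 : ∀ z : ℂ, z.re = 2 → |z.im| ≤ h → ‖w z‖ ≤ M * Real.exp (-a)) :
    ‖w (-(1 / 2))‖ ≤ M * Real.exp (-(a * eta h)) := by
  set l : ℝ := π / (2 * h) with hl
  have hl0 : 0 < l := div_pos Real.pi_pos (by linarith)
  set S : ℝ := Real.sinh (l * (11 / 4)) with hS
  have hS0 : 0 < S := Real.sinh_pos_iff.mpr (by positivity)
  set K : ℂ → ℂ := fun z => (a / S : ℝ) * Complex.sinh (l * (z + 3 / 4)) with hK
  have hKre : ∀ z : ℂ, (K z).re = a / S * (Real.sinh (l * (z.re + 3 / 4)) * Real.cos (l * z.im)) := by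
    intro z
    have e1 : (l : ℂ) * (z + 3 / 4) = ((l * (z.re + 3 / 4) : ℝ) : ℂ) + ((l * z.im : ℝ) : ℂ) * I := by
      apply Complex.ext <;> simp
    rw [hK]
    simp only
    have e0 : ∀ p q r t : ℝ, ((p : ℂ) * q + r * (t * I)).re = p * q := by
      intro p q r t
      simp
    rw [e1, Complex.sinh_add, Complex.cosh_mul_I, Complex.sinh_mul_I, ← ofReal_sinh,
      ← ofReal_cosh, ← ofReal_cos, ← ofReal_sin, re_ofReal_mul, e0]
  have hKd : Differentiable ℂ K := by
    intro z
    have : DifferentiableAt ℂ (fun z : ℂ => (l : ℂ) * (z + 3 / 4)) z := by fun_prop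
    exact (this.csinh).const_mul _
  have hM : 0 ≤ M := (norm_nonneg _).trans (h1 0 (by norm_num) (by norm_num) (by simpa using hh.le))
  have hW : DiffContOnCl ℂ (fun z => cexp (K z) • w z) (Rc h) :=
    (Complex.differentiable_exp.comp hKd).diffContOnCl.smul hw
  have hbd : ∀ z ∈ frontier (Rc h), ‖cexp (K z) • w z‖ ≤ M := by
    intro z hz
    rw [norm_smul, Complex.norm_exp, hKre]
    rw [Rc, frontier_reProdIm, closure_Ioo (by norm_num), closure_Ioo (by linarith : -h < h).ne,
      frontier_Ioo (by linarith : -h < h), frontier_Ioo (by norm_num)] at hz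
    rcases hz with hz | hz
    · obtain ⟨hz1, hz2⟩ := mem_reProdIm.mp hz
      have hc : Real.cos (l * z.im) = 0 := by
        have e2 : l * h = π / 2 := by
          rw [hl]
          field_simp
        rcases hz2 with hz2 | hz2
        · rw [hz2, mul_neg, Real.cos_neg, e2, Real.cos_pi_div_two]
        · rw [hz2, e2, Real.cos_pi_div_two]
      rw [hc, mul_zero, mul_zero, Real.exp_zero, one_mul]
      refine h1 z hz1.1 hz1.2 ?_
      rcases hz2 with hz2 | hz2
      · rw [hz2, abs_neg, abs_of_pos hh]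
      · rw [hz2, abs_of_pos hh]
    · obtain ⟨hz1, hz2⟩ := mem_reProdIm.mp hz
      have him : |z.im| ≤ h := abs_le.mpr hz2
      rcases hz1 with hz1 | hz1
      · rw [hz1]
        have : l * (-(3 / 4) + 3 / 4) = 0 := by ring
        rw [this, Real.sinh_zero, zero_mul, mul_zero, Real.exp_zero, one_mul]
        exact h1 z hz1.ge (by rw [hz1]; norm_num) him
      · have hz1' : z.re = 2 := hz1
        have e3 : Real.sinh (l * (z.re + 3 / 4)) = S := by
          rw [hz1', hS]
          norm_num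
        rw [e3]
        have e4 : a / S * (S * Real.cos (l * z.im)) ≤ a := by
          rw [← mul_assoc, div_mul_cancel₀ _ hS0.ne']
          exact mul_le_of_le_one_right ha (Real.cos_le_one _)
        calc Real.exp (a / S * (S * Real.cos (l * z.im))) * ‖w z‖
            ≤ Real.exp a * (M * Real.exp (-a)) :=
              mul_le_mul (Real.exp_le_exp.mpr e4) (h2 z hz1' him) (norm_nonneg _)
                (Real.exp_pos _).le
          _ = M := by
              rw [mul_comm M, ← mul_assoc, ← Real.exp_add, add_neg_cancel, Real.exp_zero, one_mul]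
  have hmem : (-(1 / 2) : ℂ) ∈ closure (Rc h) := by
    rw [closure_Rc hh, mem_reProdIm]
    constructor
    · norm_num
    · simp [hh.le]
  have hfin := Complex.norm_le_of_forall_mem_frontier_norm_le (isBounded_Rc h) hW hbd hmem
  rw [norm_smul, Complex.norm_exp, hKre] at hfin
  have e5 : a / S * (Real.sinh (l * ((-(1 / 2) : ℂ).re + 3 / 4)) *
      Real.cos (l * (-(1 / 2) : ℂ).im)) = a * eta h := by
    have e6 : (-(1 / 2) : ℂ).re = -(1 / 2) := by norm_num
    have e7 : (-(1 / 2) : ℂ).im = 0 := by norm_num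
    rw [e6, e7, mul_zero, Real.cos_zero, mul_one, eta, ← hl, ← hS]
    have e8 : l * (-(1 / 2) + 3 / 4) = l / 4 := by ring
    rw [e8]
    ring
  rw [e5] at hfin
  rw [Real.exp_neg, ← div_eq_mul_inv, le_div_iff₀ (Real.exp_pos _), mul_comm]
  exact hfin

end Fermat.Agent.Cor.BL

end
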