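import Fermat.Agent.Corollaries.ZetaK.HL.Em

/-!
# Polynomial growth of the zeta function to the left of the critical strip
-/

set_option autoImplicit false

noncomputable section

namespace Fermat.Agent.Cor.BL

open Complex Real Filter Topology Set MeasureTheory
open Fermat.Agent.Cor.HL

/-- **Euler-Maclaurin for the Riemann zeta function, `re s > -1`** -/
theorem zeta_em_left {s : ℂ} (hs : -1 < s.re) (hs1 : s ≠ 1) {N : ℕ} (hN : 1 ≤ N) :
    riemannZeta s = Qs s N -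
      s * (s + 1) / 2 * ∫ x in Ioi (N : ℝ), (B2 x : ℂ) * (x : ℂ) ^ (-s - 2) := by
  have hN0 : (N : ℂ) ≠ 0 := by exact_mod_cast (by omega : N ≠ 0)
  set F : ℂ → ℂ := fun s => (s - 1) * (∑ n ∈ Finset.Icc 1 N, (n : ℂ) ^ (-s) -
    (N : ℂ) ^ (-s) / 2 + s / 12 * (N : ℂ) ^ (-s - 1) -
      s * (s + 1) / 2 * ∫ x in Ioi (N : ℝ), (B2 x : ℂ) * (x : ℂ) ^ (-s - 2)) +
    (N : ℂ) ^ (1 - s) with hF
  set U : Set ℂ := {s : ℂ | -1 < s.re} with hU
  have hUo : IsOpen U := isOpen_lt continuous_const continuous_re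
  have hUc : IsPreconnected U := (convex_halfSpace_re_gt (-1)).isPreconnected
  have hFd : DifferentiableOn ℂ F U := by
    intro z hz
    have hz' : (-1 : ℝ) < z.re := hz
    refine DifferentiableAt.differentiableWithinAt ?_
    have hsum : DifferentiableAt ℂ (fun s : ℂ => ∑ n ∈ Finset.Icc 1 N, (n : ℂ) ^ (-s)) z := by
      refine DifferentiableAt.fun_sum fun n hn => ?_
      have hn0 : (n : ℂ) ≠ 0 := by
        have := (Finset.mem_Icc.mp hn).1
        exact_mod_cast (by omega : n ≠ 0)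
      exact (differentiableAt_id.neg).const_cpow (Or.inl hn0)
    have h1 : DifferentiableAt ℂ (fun s : ℂ => (N : ℂ) ^ (-s)) z :=
      (differentiableAt_id.neg).const_cpow (Or.inl hN0)
    have h2 : DifferentiableAt ℂ (fun s : ℂ => (N : ℂ) ^ (-s - 1)) z :=
      ((differentiableAt_id.neg).sub_const 1).const_cpow (Or.inl hN0)
    have h3 : DifferentiableAt ℂ (fun s : ℂ => (N : ℂ) ^ (1 - s)) z :=
      ((differentiableAt_const (1 : ℂ)).sub differentiableAt_id).const_cpow (Or.inl hN0)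
    have h4 := differentiableAt_integral hz' hN
    exact ((differentiableAt_id.sub_const 1).mul (((hsum.sub (h1.div_const 2)).add
      ((differentiableAt_id.div_const 12).mul h2)).sub
        (((differentiableAt_id.mul (differentiableAt_id.add_const 1)).div_const 2).mul h4))).add h3
  have hkey : EqOn F riemannZeta₁ U := by
    refine (hFd.analyticOnNhd hUo).eqOn_of_preconnected_of_eventuallyEq
      (differentiable_riemannZeta₁.differentiableOn.analyticOnNhd hUo) hUc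
      (z₀ := 2) (by simp only [hU, mem_ofPred_eq]; norm_num) ?_
    have hev : ∀ᶠ z : ℂ in 𝓝 2, 1 < z.re :=
      (isOpen_lt continuous_const continuous_re).mem_nhds (by simp)
    filter_upwards [hev] with z hz
    have hz1 : z ≠ 1 := by
      rintro rfl
      rw [one_re] at hz
      exact lt_irrefl _ hz
    have hz2 : z - 1 ≠ 0 := sub_ne_zero.mpr hz1
    have hz3 : 1 - z ≠ 0 := sub_ne_zero.mpr hz1.symm
    have h1 := zeta_em_of_one_lt hz hN
    rw [riemannZeta_eq_inv_sub_mul hz1] at h1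
    have h2 : riemannZeta₁ z = (z - 1) * (Qs z N -
      z * (z + 1) / 2 * ∫ x in Ioi (N : ℝ), (B2 x : ℂ) * (x : ℂ) ^ (-z - 2)) := by
      rw [← h1, mul_inv_cancel_left₀ hz2]
    rw [h2, hF, Qs]
    simp only
    have h3 : (N : ℂ) ^ (1 - z) = -((z - 1) * ((N : ℂ) ^ (1 - z) / (1 - z))) := by
      field_simp
      ring
    linear_combination h3
  have h := hkey (show s ∈ U from hs)
  have hs2 : s - 1 ≠ 0 := sub_ne_zero.mpr hs1
  have hs3 : 1 - s ≠ 0 := sub_ne_zero.mpr hs1.symm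
  rw [riemannZeta_eq_inv_sub_mul hs1, ← h, hF, Qs]
  simp only
  have h3 : (s - 1)⁻¹ * (N : ℂ) ^ (1 - s) = -((N : ℂ) ^ (1 - s) / (1 - s)) := by
    rw [← neg_sub 1 s, inv_neg]
    field_simp
  rw [mul_add, inv_mul_cancel_left₀ hs2]
  linear_combination h3

/-- the integral of the Euler-Maclaurin formula -/
theorem norm_integral_B2_one_le {s : ℂ} (hs : -1 < s.re) :
    ‖∫ x in Ioi ((1 : ℕ) : ℝ), (B2 x : ℂ) * (x : ℂ) ^ (-s - 2)‖ ≤ 1 / (s.re + 1) := by
  have h1 : IntegrableOn (fun x : ℝ => x ^ (-s.re - 2)) (Ioi ((1 : ℕ) : ℝ)) :=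
    integrableOn_Ioi_rpow_of_lt (by linarith) (by norm_num)
  refine (norm_integral_le_of_norm_le h1 ?_).trans ?_
  · refine (ae_restrict_iff' measurableSet_Ioi).mpr (Eventually.of_forall fun x hx => ?_)
    have hx0 : 0 < x := by
      have : ((1 : ℕ) : ℝ) < x := hx
      push_cast at this
      linarith
    rw [norm_mul, norm_real, Complex.norm_cpow_eq_rpow_re_of_pos hx0]
    have e : (-s - 2).re = -s.re - 2 := by simp
    rw [e]
    exact mul_le_of_le_one_left (by positivity) (abs_B2_le x)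
  · rw [integral_Ioi_rpow_of_lt (by linarith) (by norm_num)]
    have e : (-s.re - 2 + 1 : ℝ) = -(s.re + 1) := by ring
    rw [e]
    push_cast
    rw [Real.one_rpow, neg_div_neg_eq]

/-- **`|ζ(σ + it)| ≤ 26 t²`** for `-3/4 ≤ σ ≤ 2`, `|t| ≥ 1` -/
theorem norm_zeta_le {s : ℂ} (h1 : -(3 / 4) ≤ s.re) (h2 : s.re ≤ 2) (h3 : 1 ≤ |s.im|) :
    ‖riemannZeta s‖ ≤ 26 * |s.im| ^ 2 := by
  have hs1 : s ≠ 1 := by
    rintro rfl
    simp at h3
    norm_num at h3
  rw [zeta_em_left (by linarith) hs1 le_rfl, Qs]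
  simp only [Finset.Icc_self, Finset.sum_singleton, Nat.cast_one, Complex.one_cpow, mul_one]
  have hre : |s.re| ≤ 2 * |s.im| := by
    rw [abs_le]
    constructor <;> linarith
  have hn : ‖s‖ ≤ 3 * |s.im| := (Complex.norm_le_abs_re_add_abs_im s).trans (by linarith)
  have hn1 : ‖s + 1‖ ≤ 4 * |s.im| := (norm_add_le _ _).trans (by rw [norm_one]; linarith)
  have hd : 1 ≤ ‖1 - s‖ := by
    have := Complex.abs_im_le_norm (1 - s)
    rw [sub_im, one_im, zero_sub, abs_neg] at this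
    linarith
  have hi := norm_integral_B2_one_le (s := s) (by linarith)
  simp only [Nat.cast_one] at hi
  have hi' : ‖∫ x in Ioi (1 : ℝ), (B2 x : ℂ) * (x : ℂ) ^ (-s - 2)‖ ≤ 4 := by
    refine hi.trans ?_
    rw [div_le_iff₀ (by linarith)]
    linarith
  have h4 : ‖(1 : ℂ) - 1 / (1 - s) - 1 / 2 + s / 12‖ ≤ 2 * |s.im| := by
    have e1 : ‖1 / (1 - s)‖ ≤ 1 := by
      rw [norm_div, norm_one]
      exact (div_le_one (by linarith)).mpr hd
    have e2 : ‖s / 12‖ ≤ |s.im| / 4 := by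
      rw [norm_div]
      have : ‖(12 : ℂ)‖ = 12 := by simp
      rw [this]
      linarith
    have e3 : (1 : ℂ) - 1 / (1 - s) - 1 / 2 + s / 12 = 1 / 2 - 1 / (1 - s) + s / 12 := by ring
    rw [e3]
    have e4 : ‖(1 / 2 : ℂ)‖ = 1 / 2 := by simp
    have := norm_add_le (1 / 2 - 1 / (1 - s)) (s / 12)
    have := norm_sub_le (1 / 2 : ℂ) (1 / (1 - s))
    linarith
  have h5 : ‖s * (s + 1) / 2 * ∫ x in Ioi (1 : ℝ), (B2 x : ℂ) * (x : ℂ) ^ (-s - 2)‖ ≤
      24 * |s.im| ^ 2 := by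
    rw [norm_mul, norm_div, norm_mul]
    have e5 : ‖(2 : ℂ)‖ = 2 := by simp
    rw [e5]
    have e6 : ‖s‖ * ‖s + 1‖ ≤ (3 * |s.im|) * (4 * |s.im|) :=
      mul_le_mul hn hn1 (norm_nonneg _) (by positivity)
    calc ‖s‖ * ‖s + 1‖ / 2 * ‖∫ x in Ioi (1 : ℝ), (B2 x : ℂ) * (x : ℂ) ^ (-s - 2)‖
        ≤ (3 * |s.im|) * (4 * |s.im|) / 2 * 4 :=
          mul_le_mul (by linarith) hi' (norm_nonneg _) (by positivity)
      _ = 24 * |s.im| ^ 2 := by ring
  refine (norm_sub_le _ _).trans ?_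
  nlinarith

end Fermat.Agent.Cor.BL

end
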