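import Fermat.Agent.Corollaries.ZetaK.BL.Defs
import Fermat.Agent.Corollaries.ZetaK.BL.Max
import Fermat.Agent.Corollaries.ZetaK.BL.Left
import Fermat.Agent.Corollaries.ZetaK.BL.Poly

/-!
# Littlewood's theorem: the gaps between the ordinates of the zeros tend to zero

If `ζ(s + iT)` has no zero with `|im s| < 2k`, `w(s) = (ζ(s + iT) / ζ(2 + iT)) ^ (1 / log T)` is
holomorphic and bounded on `-3/4 ≤ re s ≤ 2`, `|im s| ≤ k` and `w - 1` is small for `re s = 2`, so it is
small at `-1/2`; but `|ζ(-1/2 + iT)| ≥ c T`, a contradiction.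
-/

set_option autoImplicit false

noncomputable section

namespace Fermat.Agent.Cor.BL

open Complex Real Filter Topology Set

/-- the strip -/
def strip (k : ℝ) : Set ℂ := {z | |z.im| < 2 * k}

theorem convex_strip (k : ℝ) : Convex ℝ (strip k) := by
  have h : strip k = (fun z : ℂ => z.im) ⁻¹' Ioo (-(2 * k)) (2 * k) := by
    ext z
    change |z.im| < 2 * k ↔ -(2 * k) < z.im ∧ z.im < 2 * k
    rw [abs_lt]
  rw [h]
  exact (convex_Ioo _ _).is_linear_preimage ⟨fun x y => add_im x y, fun c x => by simp⟩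

theorem isOpen_strip (k : ℝ) : IsOpen (strip k) :=
  isOpen_lt (continuous_abs.comp continuous_im) continuous_const

/-- the main step -/
theorem not_zero_free {k T m Z C c n a : ℝ} (hk : 0 < k) (hk1 : k ≤ 1 / 2) (hT : 2 ≤ T)
    (hn : n = Real.log T) (hn1 : 1 ≤ n) (hm : 0 < m) (hC : 0 < C) (hc : 0 < c)
    (hb : ∀ s : ℂ, 3 / 2 ≤ s.re → m ≤ ‖riemannZeta s‖ ∧ ‖riemannZeta s‖ ≤ Z)
    (hl : ∀ s : ℂ, 2 ≤ s.re → ‖deriv riemannZeta s / riemannZeta s‖ ≤ C)
    (hleft : ∀ T : ℝ, 0 ≤ T → c * T ≤ ‖riemannZeta (-(1 / 2) + T * I)‖)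
    (h0 : ∀ s : ℂ, |s.im - T| < 2 * k → riemannZeta s ≠ 0)
    (hT1 : 26 * (T + 1) ^ 2 ≤ m * T ^ 4) (hT2 : C ≤ n) (ha : 0 ≤ a)
    (hT3 : 2 * C / n ≤ (Real.exp 4 + 1) * Real.exp (-a))
    (hT4 : (Real.exp 4 + 1) * Real.exp (-(a * eta k)) < 1 / 2)
    (hT5 : n / 2 ≤ Real.log c + n - Real.log Z) : False := by
  have hT0 : 0 < T := by linarith
  have hn0 : 0 < n := by linarith
  set g : ℂ → ℂ := fun z => riemannZeta (z + T * I) with hg
  have him : ∀ z : ℂ, (z + T * I).im = z.im + T := fun z => by simp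
  have hre : ∀ z : ℂ, (z + T * I).re = z.re := fun z => by simp
  have hne1 : ∀ z ∈ strip k, z + T * I ≠ 1 := by
    intro z hz h
    have h1 := him z
    rw [h, one_im] at h1
    have h2 := (abs_lt.mp (show |z.im| < 2 * k from hz)).1
    linarith
  have hgd : ∀ z ∈ strip k, DifferentiableAt ℂ g z := fun z hz =>
    DifferentiableAt.comp (𝕜 := ℂ) z (differentiableAt_riemannZeta (hne1 z hz))
      (differentiableAt_id.add_const _)
  have hg0 : ∀ z ∈ strip k, g z ≠ 0 := fun z hz => h0 _ (by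
    rw [him, add_sub_cancel_right]
    exact hz)
  have h2U : (2 : ℂ) ∈ strip k := by
    change |(2 : ℂ).im| < 2 * k
    norm_num
    exact hk
  obtain ⟨L, hLd, hL⟩ := exists_log (convex_strip k) ⟨2, h2U⟩ (isOpen_strip k)
    (fun z hz => (hgd z hz).differentiableWithinAt) hg0
  have hLd' : ∀ z ∈ strip k, DifferentiableAt ℂ L z := fun z hz =>
    (hLd z hz).differentiableAt ((isOpen_strip k).mem_nhds hz)
  have hlog : ∀ z ∈ strip k, (L z).re = Real.log ‖g z‖ := by
    intro z hz
    rw [← hL z hz, Complex.norm_exp, Real.log_exp]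
  -- the function `w - 1`
  set w : ℂ → ℂ := fun z => cexp ((L z - L 2) / n) - 1 with hw
  have hnormw : ∀ z ∈ strip k, ‖cexp ((L z - L 2) / n)‖ =
      Real.exp ((Real.log ‖g z‖ - Real.log ‖g 2‖) / n) := by
    intro z hz
    rw [Complex.norm_exp, Complex.div_ofReal_re, sub_re, hlog z hz, hlog 2 h2U]
  have hg2 : m ≤ ‖g 2‖ ∧ ‖g 2‖ ≤ Z := hb _ (by rw [hre]; norm_num)
  have hg2' : 0 < ‖g 2‖ := by linarith [hg2.1]
  have hwd : DiffContOnCl ℂ w (Rc k) := by
    refine DifferentiableOn.diffContOnCl fun z hz => ?_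
    rw [closure_Rc hk, mem_reProdIm] at hz
    have hz' : z ∈ strip k := (abs_le.mpr hz.2).trans_lt (by linarith)
    refine DifferentiableAt.differentiableWithinAt ?_
    exact (((hLd' z hz').sub_const _).div_const _).cexp.sub_const _
  have hw1 : ∀ z : ℂ, -(3 / 4) ≤ z.re → z.re ≤ 2 → |z.im| ≤ k → ‖w z‖ ≤ Real.exp 4 + 1 := by
    intro z h1 h2 h3
    have hz : z ∈ strip k := h3.trans_lt (by linarith)
    have h4 := abs_le.mp h3
    refine (norm_sub_le _ _).trans ?_
    rw [norm_one, hnormw z hz]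
    have h5 : ‖g z‖ ≤ 26 * (T + 1) ^ 2 := by
      have h6 : |(z + T * I).im| = z.im + T := by
        rw [him]
        exact abs_of_nonneg (by linarith)
      refine (norm_zeta_le (s := z + T * I) (by rw [hre]; exact h1) (by rw [hre]; exact h2)
        (by rw [h6]; linarith)).trans ?_
      rw [h6]
      have : z.im + T ≤ T + 1 := by linarith
      have h7 : (z.im + T) ^ 2 ≤ (T + 1) ^ 2 := pow_le_pow_left₀ (by linarith) this 2
      linarith
    have hgz : 0 < ‖g z‖ := norm_pos_iff.mpr (hg0 z hz)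
    have h8 : Real.log ‖g z‖ ≤ Real.log ‖g 2‖ + 4 * n := by
      have h9 : ‖g z‖ ≤ ‖g 2‖ * T ^ 4 :=
        (h5.trans hT1).trans (mul_le_mul_of_nonneg_right hg2.1 (by positivity))
      have h10 := Real.log_le_log hgz h9
      rw [Real.log_mul hg2'.ne' (by positivity), Real.log_pow, ← hn] at h10
      exact_mod_cast h10
    have h11 : (Real.log ‖g z‖ - Real.log ‖g 2‖) / n ≤ 4 := by
      rw [div_le_iff₀ hn0]
      linarith
    linarith [Real.exp_le_exp.mpr h11]
  have hw2 : ∀ z : ℂ, z.re = 2 → |z.im| ≤ k → ‖w z‖ ≤ (Real.exp 4 + 1) * Real.exp (-a) := by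
    intro z h1 h2
    have hz : z ∈ strip k := h2.trans_lt (by linarith)
    have h3 : ‖L z - L 2‖ ≤ C * ‖z - 2‖ := by
      have hconv : Convex ℝ (strip k ∩ {z : ℂ | 2 ≤ z.re}) :=
        (convex_strip k).inter (convex_halfSpace_re_ge 2)
      refine hconv.norm_image_sub_le_of_norm_deriv_le (𝕜 := ℂ) (f := L)
        (fun s hs => hLd' s hs.1) (fun s hs => ?_) ⟨h2U, by simp⟩ ⟨hz, h1.ge⟩
      have h4 : HasDerivAt (fun s => cexp (L s)) (cexp (L s) * deriv L s) s :=
        (hLd' s hs.1).hasDerivAt.cexp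
      have h5 : HasDerivAt g (deriv riemannZeta (s + T * I)) s := by
        have h6 := (differentiableAt_riemannZeta (hne1 s hs.1)).hasDerivAt.comp s
          ((hasDerivAt_id s).add_const (T * I))
        rw [mul_one] at h6
        exact h6
      have h7 : (fun s => cexp (L s)) =ᶠ[𝓝 s] g :=
        Filter.mem_of_superset ((isOpen_strip k).mem_nhds hs.1) hL
      have h8 : cexp (L s) * deriv L s = deriv riemannZeta (s + T * I) :=
        h4.unique (h5.congr_of_eventuallyEq h7)
      have h9 : deriv L s = deriv riemannZeta (s + T * I) / riemannZeta (s + T * I) := by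
        rw [← h8, hL s hs.1]
        exact (mul_div_cancel_left₀ _ (hg0 s hs.1)).symm
      rw [h9]
      exact hl _ (by rw [hre]; exact hs.2)
    have h4 : ‖z - 2‖ ≤ 1 := by
      have h5 : z - 2 = (z.im : ℂ) * I := by
        apply Complex.ext
        · simp [h1]
        · simp
      rw [h5, norm_mul, norm_I, mul_one, norm_real, Real.norm_eq_abs]
      linarith
    have h5 : ‖(L z - L 2) / n‖ ≤ C / n := by
      rw [norm_div, norm_real, Real.norm_of_nonneg hn0.le]
      refine div_le_div_of_nonneg_right (h3.trans ?_) hn0.le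
      exact mul_le_of_le_one_right hC.le h4
    have h6 : ‖(L z - L 2) / n‖ ≤ 1 := h5.trans ((div_le_one hn0).mpr hT2)
    refine (Complex.norm_exp_sub_one_le h6).trans (le_trans ?_ hT3)
    rw [mul_div_assoc]
    linarith
  have hfin := two_constants hk hwd ha hw1 hw2
  have h12 : (-(1 / 2) : ℂ) ∈ strip k := by
    change |(-(1 / 2) : ℂ).im| < 2 * k
    norm_num
    exact hk
  have h13 : Real.exp (1 / 2) ≤ ‖cexp ((L (-(1 / 2)) - L 2) / n)‖ := by
    rw [hnormw _ h12]
    refine Real.exp_le_exp.mpr ?_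
    rw [le_div_iff₀ hn0]
    have h14 : Real.log c + n ≤ Real.log ‖g (-(1 / 2))‖ := by
      rw [hn, ← Real.log_mul hc.ne' hT0.ne']
      exact Real.log_le_log (by positivity) (hleft T hT0.le)
    have h15 : Real.log ‖g 2‖ ≤ Real.log Z := Real.log_le_log hg2' hg2.2
    linarith
  have h16 : (3 / 2 : ℝ) ≤ Real.exp (1 / 2) := by
    have := Real.add_one_le_exp (1 / 2 : ℝ)
    linarith
  have h17 : ‖cexp ((L (-(1 / 2)) - L 2) / n)‖ - 1 ≤ ‖w (-(1 / 2))‖ := by
    have := norm_sub_norm_le (cexp ((L (-(1 / 2)) - L 2) / n)) 1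
    rwa [norm_one] at this
  linarith

/-- **Littlewood (1924)**: for every `h > 0` the zeta function has a zero in the critical strip with
`|im ρ - T| ≤ h`, for all large `T` -/
theorem gapStmt : GapStmt := by
  intro h hh
  obtain ⟨m, Z, hm, -, hb⟩ := exists_zeta_bounds
  obtain ⟨C, hC, hl⟩ := exists_logDeriv_bound
  obtain ⟨c, hc, hleft⟩ := exists_norm_zeta_left
  set k : ℝ := min h 1 / 2 with hk'
  have hmin : 0 < min h 1 := lt_min hh one_pos
  have hk : 0 < k := by linarith
  have hk1 : k ≤ 1 / 2 := by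
    have := min_le_right h 1
    linarith
  have hkh : 2 * k ≤ h := by
    have := min_le_left h 1
    linarith
  have hE : 0 < Real.exp 4 + 1 := by positivity
  have haT : Tendsto (fun T : ℝ => Real.log ((Real.exp 4 + 1) * Real.log T / (2 * C))) atTop
      atTop :=
    Real.tendsto_log_atTop.comp ((Real.tendsto_log_atTop.const_mul_atTop hE).atTop_div_const
      (by positivity))
  have h4 : Tendsto (fun T : ℝ => (Real.exp 4 + 1) *
      Real.exp (-(Real.log ((Real.exp 4 + 1) * Real.log T / (2 * C)) * eta k))) atTop (𝓝 0) := by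
    have := (Real.tendsto_exp_neg_atTop_nhds_zero.comp
      (haT.atTop_mul_const (eta_pos hk))).const_mul (Real.exp 4 + 1)
    rw [mul_zero] at this
    exact this
  have hev : ∀ᶠ T : ℝ in atTop, ∃ ρ : ℂ, riemannZeta ρ = 0 ∧ 0 < ρ.re ∧ ρ.re < 1 ∧
      |ρ.im - T| ≤ h := by
    filter_upwards [eventually_ge_atTop 2, eventually_ge_atTop (104 / m),
      Real.tendsto_log_atTop.eventually_ge_atTop 1, Real.tendsto_log_atTop.eventually_ge_atTop C,
      Real.tendsto_log_atTop.eventually_ge_atTop (2 * C),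
      Real.tendsto_log_atTop.eventually_ge_atTop (2 * (Real.log Z - Real.log c)),
      h4.eventually_lt_const (show (0 : ℝ) < 1 / 2 by norm_num)] with T h1 h2 h3 h5 h6 h7 h8
    by_contra hno
    push Not at hno
    have hn0 : 0 < Real.log T := by linarith
    have hquo : 0 < (Real.exp 4 + 1) * Real.log T / (2 * C) := by positivity
    refine not_zero_free (k := k) (T := T) (n := Real.log T)
      (a := Real.log ((Real.exp 4 + 1) * Real.log T / (2 * C))) hk hk1 h1 rfl h3 hm hC hc hb hl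
      hleft ?_ ?_ h5 ?_ ?_ h8 (by linarith)
    · intro s hs hz
      have h9 := abs_lt.mp hs
      rcases le_or_gt s.re 0 with h10 | h10
      · exact zeta_ne_zero_of_re_nonpos h10 (by linarith [h9.1] : 0 < s.im).ne' hz
      rcases le_or_gt 1 s.re with h11 | h11
      · exact riemannZeta_ne_zero_of_one_le_re h11 hz
      · exact absurd (hno s hz h10 h11) (not_lt.mpr (hs.le.trans hkh))
    · have h9 : 104 ≤ m * T := by
        rw [div_le_iff₀ hm] at h2
        linarith
      have h10 : 104 ≤ m * T ^ 2 := by nlinarith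
      have h11 : 26 * (T + 1) ^ 2 ≤ 104 * T ^ 2 := by nlinarith
      have h12 : 104 * T ^ 2 ≤ m * T ^ 2 * T ^ 2 :=
        mul_le_mul_of_nonneg_right h10 (by positivity)
      calc 26 * (T + 1) ^ 2 ≤ 104 * T ^ 2 := h11
        _ ≤ m * T ^ 2 * T ^ 2 := h12
        _ = m * T ^ 4 := by ring
    · refine Real.log_nonneg ?_
      rw [le_div_iff₀ (by positivity), one_mul]
      have : 0 < Real.exp 4 := Real.exp_pos 4
      nlinarith
    · rw [Real.exp_neg, Real.exp_log hquo]
      refine le_of_eq ?_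
      field_simp
  exact eventually_atTop.mp hev

end Fermat.Agent.Cor.BL

end
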