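import Fermat.Agent.Corollaries.ZetaK.BL.Defs

/-!
# (D) The mean square of the zeta function to the right of the critical line
-/

set_option autoImplicit false

noncomputable section

namespace Fermat.Agent.Cor.BL

open Complex Real Filter Topology Set MeasureTheory

/-- the Dirichlet polynomial -/
def Dp (σ : ℝ) (N : ℕ) (t : ℝ) : ℂ := ∑ n ∈ Finset.Icc 1 N, (n : ℂ) ^ (-(σ + t * I : ℂ))

theorem continuous_Dp (σ : ℝ) (N : ℕ) : Continuous (Dp σ N) := by
  refine continuous_finset_sum _ fun n hn => ?_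
  have hn0 : (n : ℂ) ≠ 0 := by
    have := (Finset.mem_Icc.1 hn).1
    exact_mod_cast (by omega : n ≠ 0)
  exact Continuous.const_cpow (by fun_prop) (Or.inl hn0)

theorem continuousAt_zeta (σ : ℝ) {t : ℝ} (ht : t ≠ 0) :
    ContinuousAt (fun t : ℝ => riemannZeta (σ + t * I)) t := by
  have h1 : (σ + t * I : ℂ) ≠ 1 := by
    intro h
    have := congrArg Complex.im h
    simp at this
    exact ht this
  exact (differentiableAt_riemannZeta h1).continuousAt.comp
    (f := fun t : ℝ => (σ + t * I : ℂ)) (by fun_prop)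

theorem continuousOn_zeta (σ : ℝ) {T : ℝ} (hT : 1 ≤ T) :
    ContinuousOn (fun t : ℝ => riemannZeta (σ + t * I)) (uIcc 1 T) := by
  intro t ht
  rw [uIcc_of_le hT] at ht
  exact (continuousAt_zeta σ (by linarith [ht.1])).continuousWithinAt

/-- the mean square of the error term -/
theorem integral_err_le {A : ℝ} (hA : 0 < A) {σ : ℝ} (hσ : 1 / 2 ≤ σ)
    {N : ℕ} (hN1 : 1 ≤ N) {T : ℝ} (hT : 1 ≤ T)
    (h : ∀ t : ℝ, 1 ≤ t → t ≤ T → ‖riemannZeta (σ + t * I) - Dp σ N t‖ ≤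
      A * (N : ℝ) ^ (1 - σ) / t) :
    ∫ t in 1..T, ‖riemannZeta (σ + t * I) - Dp σ N t‖ ^ 2 ≤ A ^ 2 * N := by
  have hNR : (1 : ℝ) ≤ N := by exact_mod_cast hN1
  have hN0 : (0 : ℝ) < N := by linarith
  have hcE : ContinuousOn (fun t : ℝ => ‖riemannZeta (σ + t * I) - Dp σ N t‖ ^ 2) (uIcc 1 T) :=
    (((continuousOn_zeta σ hT).sub (continuous_Dp σ N).continuousOn).norm).pow 2
  have hcB : ContinuousOn (fun t : ℝ => A ^ 2 * N * (t ^ 2)⁻¹) (uIcc 1 T) := by
    refine continuousOn_const.mul (ContinuousOn.inv₀ (by fun_prop) fun t ht => ?_)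
    rw [uIcc_of_le hT] at ht
    have : 0 < t := by linarith [ht.1]
    positivity
  have h1 : ∫ t in 1..T, ‖riemannZeta (σ + t * I) - Dp σ N t‖ ^ 2 ≤
      ∫ t in 1..T, A ^ 2 * N * (t ^ 2)⁻¹ := by
    refine intervalIntegral.integral_mono_on hT hcE.intervalIntegrable hcB.intervalIntegrable
      fun t ht => ?_
    have ht0 : 0 < t := by linarith [ht.1]
    have h2 := pow_le_pow_left₀ (norm_nonneg _) (h t ht.1 ht.2) 2
    refine h2.trans ?_
    have h3 : ((N : ℝ) ^ (1 - σ)) ^ 2 ≤ N := by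
      rw [← Real.rpow_natCast, ← Real.rpow_mul hN0.le]
      calc (N : ℝ) ^ ((1 - σ) * (2 : ℕ)) ≤ (N : ℝ) ^ (1 : ℝ) := by
            refine Real.rpow_le_rpow_of_exponent_le hNR ?_
            push_cast
            linarith
        _ = N := Real.rpow_one _
    have e : (A * (N : ℝ) ^ (1 - σ) / t) ^ 2 = A ^ 2 * ((N : ℝ) ^ (1 - σ)) ^ 2 * (t ^ 2)⁻¹ := by
      field_simp
    rw [e]
    gcongr
  refine h1.trans ?_
  have h4 : ∫ t in 1..T, (t ^ 2)⁻¹ ≤ 1 := by
    have h5 : ∀ t ∈ uIcc 1 T, HasDerivAt (fun t : ℝ => -t⁻¹) ((t ^ 2)⁻¹) t := by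
      intro t ht
      rw [uIcc_of_le hT] at ht
      have ht0 : t ≠ 0 := by linarith [ht.1]
      have := (hasDerivAt_inv ht0).neg
      rwa [neg_neg] at this
    have hc : ContinuousOn (fun t : ℝ => (t ^ 2)⁻¹) (uIcc 1 T) := by
      refine ContinuousOn.inv₀ (by fun_prop) fun t ht => ?_
      rw [uIcc_of_le hT] at ht
      have : 0 < t := by linarith [ht.1]
      positivity
    rw [intervalIntegral.integral_eq_sub_of_hasDerivAt h5 hc.intervalIntegrable]
    have : 0 < T⁻¹ := by positivity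
    rw [inv_one]
    linarith
  rw [intervalIntegral.integral_const_mul]
  calc A ^ 2 * N * ∫ t in 1..T, (t ^ 2)⁻¹ ≤ A ^ 2 * N * 1 := by gcongr
    _ = A ^ 2 * N := mul_one _

/-- (D) -/
theorem unifStmt (hA : ApprStmt) (hB : DirStmt) : UnifStmt := by
  obtain ⟨A, hA0, hA⟩ := hA
  obtain ⟨B, hB0, hB⟩ := hB
  intro δ hδ
  have hsum : Summable fun n : ℕ => (n : ℝ) ^ (-(1 + 2 * δ)) :=
    Real.summable_nat_rpow.2 (by linarith)
  set S : ℝ := ∑' n : ℕ, (n : ℝ) ^ (-(1 + 2 * δ)) with hS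
  have hS0 : 0 ≤ S := tsum_nonneg fun n => by positivity
  refine ⟨8 * (S + B) + 8 * A ^ 2, by positivity, fun σ T hσ hσ' hT => ?_⟩
  set N : ℕ := ⌈2 * T⌉₊ with hN
  have hN1 : 2 * T ≤ N := Nat.le_ceil _
  have hN2 : (N : ℝ) < 2 * T + 1 := Nat.ceil_lt_add_one (by linarith)
  have hN1' : 1 ≤ N := by
    have : (1 : ℝ) ≤ N := by linarith
    exact_mod_cast this
  have hcD := continuous_Dp σ N
  have hcD2 : Continuous fun t : ℝ => ‖Dp σ N t‖ ^ 2 := hcD.norm.pow 2
  have hcE : ContinuousOn (fun t : ℝ => ‖riemannZeta (σ + t * I) - Dp σ N t‖ ^ 2) (uIcc 1 T) :=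
    (((continuousOn_zeta σ hT).sub hcD.continuousOn).norm).pow 2
  have hcZ : ContinuousOn (fun t : ℝ => ‖riemannZeta (σ + t * I)‖ ^ 2) (uIcc 1 T) :=
    ((continuousOn_zeta σ hT).norm).pow 2
  -- the error
  have h1 := integral_err_le hA0 (by linarith : 1 / 2 ≤ σ) hN1' hT fun t ht htT =>
    hA σ t N (by linarith) hσ' ht (by linarith)
  -- the Dirichlet polynomial
  have h2 := hB σ (2 * T) N (by linarith) (by linarith) (by linarith)
  have h3 : ∑ n ∈ Finset.Icc 1 N, (n : ℝ) ^ (-(2 * σ)) ≤ S := by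
    refine le_trans (Finset.sum_le_sum fun n hn => ?_)
      (hsum.sum_le_tsum (Finset.Icc 1 N) fun n _ => by positivity)
    have : (1 : ℝ) ≤ n := by exact_mod_cast (Finset.mem_Icc.1 hn).1
    exact Real.rpow_le_rpow_of_exponent_le this (by linarith)
  have h4 : (∫ t in 0..(2 * T), (1 - t / (2 * T)) * ‖Dp σ N t‖ ^ 2) ≤ (S + 2 * B) * T := by
    have h5 := (abs_le.1 h2).2
    have h6 : 2 * T / 2 * ∑ n ∈ Finset.Icc 1 N, (n : ℝ) ^ (-(2 * σ)) ≤ T * S := by
      rw [show 2 * T / 2 = T by ring]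
      gcongr
    have e : (∫ t in 0..(2 * T), (1 - t / (2 * T)) * ‖Dp σ N t‖ ^ 2) =
        ∫ t in 0..(2 * T), (1 - t / (2 * T)) *
          ‖∑ n ∈ Finset.Icc 1 N, (n : ℂ) ^ (-(σ + t * I : ℂ))‖ ^ 2 := rfl
    rw [e]
    linarith
  have hcW : Continuous fun t : ℝ => (1 - t / (2 * T)) * ‖Dp σ N t‖ ^ 2 :=
    (by fun_prop : Continuous fun t : ℝ => 1 - t / (2 * T)).mul hcD2
  have h7 : ∫ t in 1..T, ‖Dp σ N t‖ ^ 2 ≤
      2 * ∫ t in 0..(2 * T), (1 - t / (2 * T)) * ‖Dp σ N t‖ ^ 2 := by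
    have h8 : ∫ t in 1..T, ‖Dp σ N t‖ ^ 2 ≤
        ∫ t in 1..T, 2 * ((1 - t / (2 * T)) * ‖Dp σ N t‖ ^ 2) := by
      refine intervalIntegral.integral_mono_on hT (hcD2.intervalIntegrable _ _)
        ((hcW.const_mul 2).intervalIntegrable _ _) fun t ht => ?_
      have h9 : 1 / 2 ≤ 1 - t / (2 * T) := by
        have : t / (2 * T) ≤ 1 / 2 := by
          rw [div_le_iff₀ (by linarith)]
          linarith [ht.2]
        linarith
      nlinarith [sq_nonneg ‖Dp σ N t‖]
    rw [intervalIntegral.integral_const_mul] at h8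
    refine h8.trans (mul_le_mul_of_nonneg_left ?_ (by norm_num))
    refine intervalIntegral.integral_mono_interval (by norm_num) hT (by linarith) ?_
      (hcW.intervalIntegrable _ _)
    rw [Filter.EventuallyLE, ae_restrict_iff' measurableSet_Ioc]
    refine Eventually.of_forall fun t ht => ?_
    have h9 : 0 ≤ 1 - t / (2 * T) := by
      have : t / (2 * T) ≤ 1 := by
        rw [div_le_iff₀ (by linarith)]
        linarith [ht.2]
      linarith
    exact mul_nonneg h9 (sq_nonneg _)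
  -- together
  have h10 : ∫ t in 1..T, ‖riemannZeta (σ + t * I)‖ ^ 2 ≤
      ∫ t in 1..T, (2 * ‖Dp σ N t‖ ^ 2 + 2 * ‖riemannZeta (σ + t * I) - Dp σ N t‖ ^ 2) := by
    refine intervalIntegral.integral_mono_on hT hcZ.intervalIntegrable
      (((hcD2.const_mul 2).intervalIntegrable _ _).add (hcE.const_mul 2).intervalIntegrable)
      fun t _ => ?_
    have h11 : ‖riemannZeta (σ + t * I)‖ ≤
        ‖Dp σ N t‖ + ‖riemannZeta (σ + t * I) - Dp σ N t‖ := by
      have := norm_add_le (Dp σ N t) (riemannZeta (σ + t * I) - Dp σ N t)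
      rwa [add_sub_cancel] at this
    nlinarith [sq_nonneg (‖Dp σ N t‖ - ‖riemannZeta (σ + t * I) - Dp σ N t‖),
      norm_nonneg (riemannZeta (σ + t * I))]
  rw [intervalIntegral.integral_add ((hcD2.const_mul 2).intervalIntegrable _ _)
    (hcE.const_mul 2).intervalIntegrable, intervalIntegral.integral_const_mul,
    intervalIntegral.integral_const_mul] at h10
  have h12 : A ^ 2 * (N : ℝ) ≤ A ^ 2 * (3 * T) := by
    gcongr
    linarith
  nlinarith [sq_nonneg A]

end Fermat.Agent.Cor.BL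

end
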