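import Fermat.Agent.Corollaries.ZetaK.BL.Almost
import Fermat.Agent.Corollaries.ZetaK.BL.Gap
import Fermat.Agent.Corollaries.ZetaK.ZD.Final

/-!
# Almost all zeros of the zeta function are near to the critical line

* `littlewood_gaps` (Littlewood 1924): the gaps between the ordinates of the zeros tend to `0`;
* `tendsto_card_div`: `N(T) / T → ∞`;
* `almost_all_zeros` (Bohr and Landau 1914, Littlewood 1924): the proportion of the zeros with
  `|re - 1/2| ≥ δ` tends to `0`.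
-/

set_option autoImplicit false

noncomputable section

namespace Fermat.Agent.Cor.BL

open Complex Real Filter Topology Set

/-- **Littlewood (1924)**: for every `h > 0` and all large `T` the zeta function has a zero `ρ`
with `0 < re ρ < 1` and `|im ρ - T| ≤ h` -/
theorem littlewood_gaps {h : ℝ} (hh : 0 < h) : ∃ T₀ : ℝ, ∀ T : ℝ, T₀ ≤ T →
    ∃ ρ : ℂ, riemannZeta ρ = 0 ∧ 0 < ρ.re ∧ ρ.re < 1 ∧ |ρ.im - T| ≤ h :=
  gapStmt h hh

theorem far_zero (T : ℝ) : far 0 T = {ρ : ℂ | riemannZeta ρ = 0 ∧ 0 < ρ.im ∧ ρ.im ≤ T} := by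
  ext ρ
  exact ⟨fun h => ⟨h.1, h.2.2.1, h.2.2.2⟩, fun h => ⟨h.1, abs_nonneg _, h.2.1, h.2.2⟩⟩

/-- the number of the zeros with `0 < im ≤ T` (a finite set), counted with multiplicities, grows
faster than `T` -/
theorem tendsto_card_div : Tendsto (fun T : ℝ =>
    (∑ᶠ ρ ∈ {ρ : ℂ | riemannZeta ρ = 0 ∧ 0 < ρ.im ∧ ρ.im ≤ T},
      (analyticOrderNatAt riemannZeta ρ : ℝ)) / T) atTop atTop := by
  refine tendsto_atTop.mpr fun b => ?_
  set B : ℝ := |b| + 1 with hB
  have hB0 : 0 < B := by positivity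
  obtain ⟨T₁, hT₁⟩ := le_sum_far gapStmt (h := 1 / (6 * B)) (by positivity)
  filter_upwards [eventually_ge_atTop T₁, eventually_gt_atTop 0] with T h1 h2
  have h3 := hT₁ T h1
  rw [far_zero] at h3
  rw [le_div_iff₀ h2]
  have h4 : T / (6 * (1 / (6 * B))) = B * T := by
    field_simp
  rw [h4] at h3
  have h5 : b ≤ B := (le_abs_self b).trans (by linarith)
  exact (mul_le_mul_of_nonneg_right h5 h2.le).trans h3

/-- **Almost all zeros are near to the critical line** (Bohr and Landau 1914, Littlewood 1924):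
the number of the zeros with `|re ρ - 1/2| ≥ δ`, `0 < im ρ ≤ T`, divided by the number of all zeros
with `0 < im ρ ≤ T`, tends to `0`, zeros counted with multiplicities. -/
theorem almost_all_zeros {δ : ℝ} (hδ : 0 < δ) : Tendsto (fun T : ℝ =>
    (∑ᶠ ρ ∈ {ρ : ℂ | riemannZeta ρ = 0 ∧ δ ≤ |ρ.re - 1 / 2| ∧ 0 < ρ.im ∧ ρ.im ≤ T},
      (analyticOrderNatAt riemannZeta ρ : ℝ)) /
    (∑ᶠ ρ ∈ {ρ : ℂ | riemannZeta ρ = 0 ∧ 0 < ρ.im ∧ ρ.im ≤ T},
      (analyticOrderNatAt riemannZeta ρ : ℝ))) atTop (𝓝 0) := by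
  refine ((almostStmt (fun _ h => ZD.bohr_landau h) gapStmt δ hδ).2).congr fun T => ?_
  rw [far_zero]
  rfl

end Fermat.Agent.Cor.BL

end
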