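import Fermat.Agent.Corollaries.ZetaK.BL.MeanSq

/-!
# The mean square of the zeta function on the critical line with an error term

`∫_0^T |ζ(1/2 + it)|² dt = T log T + O(T (log T)^(3/4))`.
-/

set_option autoImplicit false

noncomputable section

namespace Fermat.Agent.Cor.BL

open Complex Real Filter Topology Set MeasureTheory

/-- the upper bound, `r = (log T)^(1/4)` -/
theorem upper_aux {C T r : ℝ} (hC : 0 < C) (hT : 3 ≤ T) (hr : 1 ≤ r) (hrL : r ^ 4 = Real.log T)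
    (h : ∀ T : ℝ, 3 ≤ T → |F T - T ^ 2 / 2 * Real.log T| ≤ C * (T ^ 2 * √(Real.log T))) :
    ∫ t in 1..T, ‖Z t‖ ^ 2 ≤ T * r ^ 4 + (3 + 13 * C) * (T * r ^ 3) := by
  have hT0 : 0 < T := by linarith
  have hr0 : 0 < r := by linarith
  have hsq : √(Real.log T) = r ^ 2 := by
    rw [← hrL, show r ^ 4 = (r ^ 2) ^ 2 by ring, Real.sqrt_sq (by positivity)]
  set η : ℝ := 1 / r with hη
  have hη0 : 0 < η := by positivity
  have hη1 : η ≤ 1 := by
    rw [hη, div_le_one hr0]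
    exact hr
  have hηr : η * r = 1 := by rw [hη]; field_simp
  set b : ℝ := (1 + η) * T with hb
  have hb1 : T ≤ b := by rw [hb]; nlinarith
  have hb2 : b ≤ 2 * T := by rw [hb]; nlinarith
  have hb0 : 0 < b := by linarith
  have hLb : Real.log b ≤ r ^ 4 + η := by
    rw [hb, Real.log_mul (by positivity) hT0.ne', ← hrL]
    have := Real.log_le_sub_one_of_pos (show 0 < 1 + η by positivity)
    linarith
  have hLb0 : 0 ≤ Real.log b := Real.log_nonneg (by linarith)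
  have hr4 : 1 ≤ r ^ 4 := one_le_pow₀ hr
  have hsb : √(Real.log b) ≤ 2 * r ^ 2 := by
    rw [Real.sqrt_le_left (by positivity)]
    nlinarith
  have h1 := (abs_le.1 (h b (by linarith))).2
  have h2 := (abs_le.1 (h T hT)).1
  rw [hsq, ← hrL] at h2
  have h3 := F_diff_ge (a := T) (b := b) (by linarith) hb1
  have h4 : b ^ 2 / 2 * Real.log b ≤ b ^ 2 / 2 * (r ^ 4 + η) :=
    mul_le_mul_of_nonneg_left hLb (by positivity)
  have h5 : C * (b ^ 2 * √(Real.log b)) ≤ C * ((2 * T) ^ 2 * (2 * r ^ 2)) := by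
    gcongr
  have h6 : F b - F T ≤ b ^ 2 / 2 * (r ^ 4 + η) - T ^ 2 / 2 * r ^ 4 + 9 * C * (T ^ 2 * r ^ 2) := by
    nlinarith
  have h7 : b ^ 2 / 2 * (r ^ 4 + η) - T ^ 2 / 2 * r ^ 4 ≤
      η * T * (T * r ^ 4 + 3 * (T * r ^ 3)) := by
    have e : b ^ 2 / 2 * (r ^ 4 + η) - T ^ 2 / 2 * r ^ 4 =
        T ^ 2 * (η * r ^ 4 + η * (η * r ^ 4) / 2 + (1 + η) ^ 2 * η / 2) := by
      rw [hb]
      ring
    have e2 : η * (η * r ^ 4) = η * r ^ 3 := by
      calc η * (η * r ^ 4) = η * ((η * r) * r ^ 3) := by ring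
        _ = η * r ^ 3 := by rw [hηr, one_mul]
    have h8 : (1 + η) ^ 2 * η / 2 ≤ 2 * (η * r ^ 3) := by
      have h9 : 1 ≤ r ^ 3 := one_le_pow₀ hr
      have h10 : (1 + η) ^ 2 ≤ 4 := by nlinarith
      nlinarith
    rw [e, e2]
    have h11 : 0 ≤ η * r ^ 3 := by positivity
    have h12 : η * r ^ 4 + η * r ^ 3 / 2 + (1 + η) ^ 2 * η / 2 ≤ η * r ^ 4 + 3 * (η * r ^ 3) := by
      linarith
    calc T ^ 2 * (η * r ^ 4 + η * r ^ 3 / 2 + (1 + η) ^ 2 * η / 2)
        ≤ T ^ 2 * (η * r ^ 4 + 3 * (η * r ^ 3)) := by gcongr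
      _ = _ := by ring
  have h8 : 9 * C * (T ^ 2 * r ^ 2) = η * T * (9 * C * (T * r ^ 3)) := by
    calc 9 * C * (T ^ 2 * r ^ 2) = 9 * C * (T ^ 2 * r ^ 2) * (η * r) := by rw [hηr, mul_one]
      _ = _ := by ring
  have h9 : b - T = η * T := by rw [hb]; ring
  rw [h9] at h3
  have h10 : η * T * (∫ t in 1..T, ‖Z t‖ ^ 2) ≤
      η * T * (T * r ^ 4 + 3 * (T * r ^ 3) + 9 * C * (T * r ^ 3)) := by
    rw [mul_add (η * T) (T * r ^ 4 + 3 * (T * r ^ 3))]
    linarith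
  have h11 := le_of_mul_le_mul_left h10 (by positivity)
  have h12 : 0 ≤ C * (T * r ^ 3) := by positivity
  linarith

/-- the lower bound -/
theorem lower_aux {C T r : ℝ} (hC : 0 < C) (hT : 3 ≤ T) (hr : 1 ≤ r) (hrL : r ^ 4 = Real.log T)
    (h : ∀ T : ℝ, 3 ≤ T → |F T - T ^ 2 / 2 * Real.log T| ≤ C * (T ^ 2 * √(Real.log T))) :
    T * r ^ 4 - (3 + 13 * C) * (T * r ^ 3) ≤ ∫ t in 1..T, ‖Z t‖ ^ 2 := by
  have hT0 : 0 < T := by linarith
  have hr0 : 0 < r := by linarith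
  have hJ : 0 ≤ ∫ t in 1..T, ‖Z t‖ ^ 2 :=
    intervalIntegral.integral_nonneg (by linarith) fun t _ => sq_nonneg _
  rcases le_total r 2 with h2 | h2
  · have h3 : T * r ^ 4 ≤ 2 * (T * r ^ 3) := by
      calc T * r ^ 4 = r * (T * r ^ 3) := by ring
        _ ≤ 2 * (T * r ^ 3) := by gcongr
    have h12 : 0 ≤ C * (T * r ^ 3) := by positivity
    have h13 : 0 ≤ T * r ^ 3 := by positivity
    linarith
  have hsq : √(Real.log T) = r ^ 2 := by
    rw [← hrL, show r ^ 4 = (r ^ 2) ^ 2 by ring, Real.sqrt_sq (by positivity)]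
  set η : ℝ := 1 / r with hη
  have hη0 : 0 < η := by positivity
  have hη1 : η ≤ 1 / 2 := by
    rw [hη]
    exact one_div_le_one_div_of_le (by norm_num) h2
  have hηr : η * r = 1 := by rw [hη]; field_simp
  have hT16 : 6 ≤ T := by
    have h3 : (16 : ℝ) ≤ r ^ 4 := by
      calc (16 : ℝ) = 2 ^ 4 := by norm_num
        _ ≤ r ^ 4 := pow_le_pow_left₀ (by norm_num) h2 4
    rw [hrL] at h3
    have := Real.log_le_sub_one_of_pos hT0
    linarith
  set a : ℝ := (1 - η) * T with ha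
  have ha1 : a ≤ T := by rw [ha]; nlinarith
  have ha3 : 3 ≤ a := by rw [ha]; nlinarith
  have ha0 : 0 < a := by linarith
  have hLa : Real.log a ≤ r ^ 4 - η := by
    rw [ha, Real.log_mul (by linarith) hT0.ne', ← hrL]
    have := Real.log_le_sub_one_of_pos (show 0 < 1 - η by linarith)
    linarith
  have hLa0 : 0 ≤ Real.log a := Real.log_nonneg (by linarith)
  have hsa : √(Real.log a) ≤ r ^ 2 := by
    rw [Real.sqrt_le_left (by positivity)]
    nlinarith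
  have h1 := (abs_le.1 (h a ha3)).2
  have h2' := (abs_le.1 (h T hT)).1
  rw [hsq, ← hrL] at h2'
  have h3 := F_diff_le (a := a) (b := T) (by linarith) ha1
  have h4 : a ^ 2 / 2 * Real.log a ≤ a ^ 2 / 2 * (r ^ 4 - η) :=
    mul_le_mul_of_nonneg_left hLa (by positivity)
  have h5 : C * (a ^ 2 * √(Real.log a)) ≤ C * (T ^ 2 * r ^ 2) := by
    gcongr
  have h7 : η * T * (T * r ^ 4 - T * r ^ 3) ≤ T ^ 2 / 2 * r ^ 4 - a ^ 2 / 2 * (r ^ 4 - η) := by
    have e : T ^ 2 / 2 * r ^ 4 - a ^ 2 / 2 * (r ^ 4 - η) =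
        T ^ 2 * (η * r ^ 4 - η * (η * r ^ 4) / 2 + (1 - η) ^ 2 * η / 2) := by
      rw [ha]
      ring
    have e2 : η * (η * r ^ 4) = η * r ^ 3 := by
      calc η * (η * r ^ 4) = η * ((η * r) * r ^ 3) := by ring
        _ = η * r ^ 3 := by rw [hηr, one_mul]
    have h11 : 0 ≤ η * r ^ 3 := by positivity
    have h12 : 0 ≤ (1 - η) ^ 2 * η / 2 := by positivity
    rw [e, e2]
    calc η * T * (T * r ^ 4 - T * r ^ 3) = T ^ 2 * (η * r ^ 4 - η * r ^ 3) := by ring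
      _ ≤ T ^ 2 * (η * r ^ 4 - η * r ^ 3 / 2 + (1 - η) ^ 2 * η / 2) := by
          refine mul_le_mul_of_nonneg_left ?_ (by positivity)
          linarith
  have h8 : 2 * C * (T ^ 2 * r ^ 2) = η * T * (2 * C * (T * r ^ 3)) := by
    calc 2 * C * (T ^ 2 * r ^ 2) = 2 * C * (T ^ 2 * r ^ 2) * (η * r) := by rw [hηr, mul_one]
      _ = _ := by ring
  have h9 : T - a = η * T := by rw [ha]; ring
  rw [h9] at h3
  have h10 : η * T * (T * r ^ 4 - T * r ^ 3 - 2 * C * (T * r ^ 3)) ≤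
      η * T * (∫ t in 1..T, ‖Z t‖ ^ 2) := by
    rw [mul_sub (η * T) (T * r ^ 4 - T * r ^ 3)]
    linarith
  have h11 := le_of_mul_le_mul_left h10 (by positivity)
  have h12 : 0 ≤ C * (T * r ^ 3) := by positivity
  have h13 : 0 ≤ T * r ^ 3 := by positivity
  linarith

/-- **The mean square with an error term**:
`∫_0^T |ζ(1/2 + it)|² dt = T log T + O(T (log T)^(3/4))`. -/
theorem mean_square_error : ∃ C : ℝ, ∀ T : ℝ, 3 ≤ T →
    |(∫ t in 0..T, ‖riemannZeta (1 / 2 + t * I)‖ ^ 2) - T * Real.log T| ≤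
      C * (T * Real.log T ^ (3 / 4 : ℝ)) := by
  obtain ⟨C, hC, h⟩ := exists_main
  set c := ∫ t in (0 : ℝ)..1, ‖Z t‖ ^ 2 with hc
  have hc0 : 0 ≤ c := intervalIntegral.integral_nonneg zero_le_one fun t _ => sq_nonneg _
  refine ⟨3 + 13 * C + c, fun T hT => ?_⟩
  have hT0 : 0 < T := by linarith
  have hL1 : 1 ≤ Real.log T := by
    rw [Real.le_log_iff_exp_le hT0]
    linarith [Real.exp_one_lt_d9]
  set r : ℝ := Real.log T ^ (1 / 4 : ℝ) with hr
  have hr1 : 1 ≤ r := Real.one_le_rpow hL1 (by norm_num)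
  have hr4 : r ^ 4 = Real.log T := by
    rw [hr, ← Real.rpow_natCast, ← Real.rpow_mul (by linarith)]
    norm_num
  have hr3 : r ^ 3 = Real.log T ^ (3 / 4 : ℝ) := by
    rw [hr, ← Real.rpow_natCast, ← Real.rpow_mul (by linarith)]
    norm_num
  have h1 := upper_aux hC hT hr1 hr4 h
  have h2 := lower_aux hC hT hr1 hr4 h
  have h3 : (∫ t in 0..T, ‖riemannZeta (1 / 2 + t * I)‖ ^ 2) = c + ∫ t in 1..T, ‖Z t‖ ^ 2 := by
    rw [hc, intervalIntegral.integral_add_adjacent_intervals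
      (continuous_Zsq.intervalIntegrable _ _) (continuous_Zsq.intervalIntegrable _ _)]
    congr 1
    funext t
    rw [Z]
    push_cast
    rfl
  rw [h3, ← hr3, ← hr4]
  have h4 : 1 ≤ T * r ^ 3 := by
    have := one_le_pow₀ hr1 (n := 3)
    nlinarith
  have h5 : c * 1 ≤ c * (T * r ^ 3) := mul_le_mul_of_nonneg_left h4 hc0
  rw [abs_le]
  constructor <;> linarith

end Fermat.Agent.Cor.BL

end
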