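import Fermat.Agent.Corollaries.ZetaK.BL.Unif
import Fermat.Agent.Corollaries.ZetaK.BL.Appr
import Fermat.Agent.Corollaries.ZetaK.BL.Dir

/-!
# The mean square of the zeta function on the critical line

`∫_0^T |ζ(1/2 + it)|² dt ~ T log T` (Hardy and Littlewood 1918).

`F(T) = ∫_1^T (T - t) |ζ(1/2 + it)|² dt` is `(T²/2) log T + O(T² √(log T))` (approximation by the
Dirichlet polynomial of length `T` and its weighted mean square); then
`F((1+ε)T) - F(T)` gives the mean square itself, which is a monotone function of `T`.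
-/

set_option autoImplicit false

noncomputable section

namespace Fermat.Agent.Cor.BL

open Complex Real Filter Topology Set MeasureTheory

/-- the zeta function on the critical line -/
def Z (t : ℝ) : ℂ := riemannZeta (((1 / 2 : ℝ) : ℂ) + t * I)

theorem continuous_Z : Continuous Z := by
  rw [continuous_iff_continuousAt]
  intro t
  have h1 : (((1 / 2 : ℝ) : ℂ) + t * I) ≠ 1 := by
    intro h
    have := congrArg Complex.re h
    norm_num at this
  exact (differentiableAt_riemannZeta h1).continuousAt.comp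
    (f := fun t : ℝ => (((1 / 2 : ℝ) : ℂ) + t * I)) (by fun_prop)

theorem sum_sqrt_le (N : ℕ) :
    ∑ n ∈ Finset.Icc 1 N, (n : ℝ) ^ (-(1 / 2 : ℝ)) ≤ 2 * √(N : ℝ) := by
  induction N with
  | zero => simp
  | succ N ih =>
    rw [Finset.sum_Icc_succ_top (by omega)]
    have h0 : (0 : ℝ) < ((N + 1 : ℕ) : ℝ) := by positivity
    have h1 : (((N + 1 : ℕ) : ℝ)) ^ (-(1 / 2 : ℝ)) = 1 / √((N + 1 : ℕ) : ℝ) := by
      rw [Real.rpow_neg h0.le, ← Real.sqrt_eq_rpow, one_div]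
    rw [h1]
    set a := √(N : ℝ) with ha
    set b := √((N + 1 : ℕ) : ℝ) with hb
    have ha0 : 0 ≤ a := Real.sqrt_nonneg _
    have hb0 : 0 < b := Real.sqrt_pos.2 h0
    have hab : b ^ 2 = a ^ 2 + 1 := by
      rw [ha, hb, Real.sq_sqrt h0.le, Real.sq_sqrt (Nat.cast_nonneg _)]
      push_cast
      ring
    have hle : a ≤ b := Real.sqrt_le_sqrt (by push_cast; linarith)
    have h2 : 1 / b ≤ 2 * b - 2 * a := by
      rw [div_le_iff₀ hb0]
      nlinarith
    linarith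

theorem norm_Dp_le (N : ℕ) (t : ℝ) : ‖Dp (1 / 2) N t‖ ≤ 2 * √(N : ℝ) := by
  refine (norm_sum_le _ _).trans (le_trans (le_of_eq ?_) (sum_sqrt_le N))
  refine Finset.sum_congr rfl fun n hn => ?_
  have hn0 : 0 < n := (Finset.mem_Icc.1 hn).1
  rw [norm_natCast_cpow_of_pos hn0]
  congr 1
  simp

theorem abs_sum_sub_log_le {T : ℝ} (hT : 1 ≤ T) {N : ℕ} (h1 : T ≤ N) (h2 : (N : ℝ) ≤ 2 * T) :
    |∑ n ∈ Finset.Icc 1 N, (n : ℝ) ^ (-(2 * (1 / 2 : ℝ))) - Real.log T| ≤ 2 := by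
  have hT0 : 0 < T := by linarith
  have hN0 : (0 : ℝ) < N := by linarith
  have e : ∑ n ∈ Finset.Icc 1 N, (n : ℝ) ^ (-(2 * (1 / 2 : ℝ))) = (harmonic N : ℝ) := by
    rw [harmonic_eq_sum_Icc]
    push_cast
    refine Finset.sum_congr rfl fun n hn => ?_
    rw [show (-(2 * (1 / 2 : ℝ))) = -1 by norm_num, Real.rpow_neg_one]
  rw [e]
  have h3 := log_add_one_le_harmonic N
  have h4 := harmonic_le_one_add_log N
  have h5 : Real.log T ≤ Real.log ((N + 1 : ℕ) : ℝ) := by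
    refine Real.log_le_log hT0 ?_
    push_cast
    linarith
  have h6 : Real.log N ≤ Real.log 2 + Real.log T := by
    rw [← Real.log_mul (by norm_num) hT0.ne']
    exact Real.log_le_log hN0 h2
  have h7 : Real.log 2 ≤ 1 := by linarith [Real.log_two_lt_d9]
  rw [abs_le]
  constructor <;> linarith

theorem abs_sq_sub_le {a b : ℂ} {η : ℝ} (hη : 0 < η) :
    |‖a‖ ^ 2 - ‖b‖ ^ 2| ≤ η * ‖b‖ ^ 2 + (1 + 1 / η) * ‖a - b‖ ^ 2 := by
  have h1 : |‖a‖ - ‖b‖| ≤ ‖a - b‖ := abs_norm_sub_norm_le a b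
  have h2 : ‖a‖ + ‖b‖ ≤ 2 * ‖b‖ + ‖a - b‖ := by
    have := (abs_le.1 h1).2
    linarith
  have h3 : |‖a‖ ^ 2 - ‖b‖ ^ 2| = |‖a‖ - ‖b‖| * (‖a‖ + ‖b‖) := by
    rw [show ‖a‖ ^ 2 - ‖b‖ ^ 2 = (‖a‖ - ‖b‖) * (‖a‖ + ‖b‖) by ring, abs_mul,
      abs_of_nonneg (by positivity : 0 ≤ ‖a‖ + ‖b‖)]
  rw [h3]
  have h4 : |‖a‖ - ‖b‖| * (‖a‖ + ‖b‖) ≤ ‖a - b‖ * (2 * ‖b‖ + ‖a - b‖) :=
    mul_le_mul h1 h2 (by positivity) (norm_nonneg _)
  refine h4.trans ?_
  set e := ‖a - b‖
  set d := ‖b‖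
  have h5 : 2 * (d * e) ≤ η * d ^ 2 + 1 / η * e ^ 2 := by
    have h6 : 0 ≤ η * (d - e / η) ^ 2 := by positivity
    have h7 : η * (d - e / η) ^ 2 = η * d ^ 2 - 2 * (d * e) + 1 / η * e ^ 2 := by
      field_simp
      ring
    linarith
  nlinarith

/-- the smoothed mean square -/
def F (T : ℝ) : ℝ := ∫ t in 1..T, (T - t) * ‖Z t‖ ^ 2

theorem continuous_Zsq : Continuous fun t => ‖Z t‖ ^ 2 := continuous_Z.norm.pow 2

theorem weight_bounds {T t : ℝ} (hT0 : 0 < T) (ht0 : 0 ≤ t) (ht1 : t ≤ T) :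
    0 ≤ 1 - t / T ∧ 1 - t / T ≤ 1 := by
  have h5 : t / T ≤ 1 := by
    rw [div_le_one hT0]
    exact ht1
  have h6 : 0 ≤ t / T := by positivity
  constructor <;> linarith

theorem continuous_WD (T : ℝ) (N : ℕ) :
    Continuous fun t : ℝ => (1 - t / T) * ‖Dp (1 / 2) N t‖ ^ 2 :=
  (by fun_prop : Continuous fun t : ℝ => 1 - t / T).mul ((continuous_Dp (1 / 2) N).norm.pow 2)

theorem continuous_WZ (T : ℝ) : Continuous fun t : ℝ => (1 - t / T) * ‖Z t‖ ^ 2 :=
  (by fun_prop : Continuous fun t : ℝ => 1 - t / T).mul continuous_Zsq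

/-- the Dirichlet polynomial -/
theorem exists_dir : ∃ B : ℝ, 0 < B ∧ ∀ (T : ℝ) (N : ℕ), 1 ≤ T → T ≤ N → (N : ℝ) ≤ 2 * T →
    |(∫ t in 1..T, (1 - t / T) * ‖Dp (1 / 2) N t‖ ^ 2) - T / 2 * Real.log T| ≤ B * T := by
  obtain ⟨B, hB0, hB⟩ := dirStmt
  refine ⟨B + 9, by linarith, fun T N hT1 hN1 hN3 => ?_⟩
  have hT0 : 0 < T := by linarith
  set L := Real.log T with hL
  have hcWD := continuous_WD T N
  set ID := ∫ t in 0..T, (1 - t / T) * ‖Dp (1 / 2) N t‖ ^ 2 with hID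
  set ID1 := ∫ t in 1..T, (1 - t / T) * ‖Dp (1 / 2) N t‖ ^ 2 with hID1
  set S := ∑ n ∈ Finset.Icc 1 N, (n : ℝ) ^ (-(2 * (1 / 2 : ℝ))) with hS
  have h1 : |ID - T / 2 * S| ≤ B * T := hB (1 / 2) T N le_rfl hT1 hN3
  have h2 : |S - L| ≤ 2 := abs_sum_sub_log_le hT1 hN1 hN3
  have h4 : ID = (∫ t in 0..1, (1 - t / T) * ‖Dp (1 / 2) N t‖ ^ 2) + ID1 := by
    rw [hID, hID1]
    exact (intervalIntegral.integral_add_adjacent_intervals (hcWD.intervalIntegrable _ _)
      (hcWD.intervalIntegrable _ _)).symm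
  have h5 : 0 ≤ ∫ t in 0..1, (1 - t / T) * ‖Dp (1 / 2) N t‖ ^ 2 := by
    refine intervalIntegral.integral_nonneg zero_le_one fun t ht => ?_
    exact mul_nonneg (weight_bounds hT0 ht.1 (by linarith [ht.2])).1 (sq_nonneg _)
  have h6 : ∫ t in 0..1, (1 - t / T) * ‖Dp (1 / 2) N t‖ ^ 2 ≤ 8 * T := by
    have h7 : ∫ t in 0..1, (1 - t / T) * ‖Dp (1 / 2) N t‖ ^ 2 ≤ ∫ t in (0 : ℝ)..1, 8 * T := by
      refine intervalIntegral.integral_mono_on zero_le_one (hcWD.intervalIntegrable _ _)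
        (continuous_const.intervalIntegrable _ _) fun t ht => ?_
      have h8 := weight_bounds hT0 ht.1 (by linarith [ht.2])
      have h9 : ‖Dp (1 / 2) N t‖ ^ 2 ≤ 4 * N := by
        have := pow_le_pow_left₀ (norm_nonneg _) (norm_Dp_le N t) 2
        rw [mul_pow, Real.sq_sqrt (Nat.cast_nonneg _)] at this
        linarith
      calc (1 - t / T) * ‖Dp (1 / 2) N t‖ ^ 2 ≤ 1 * (4 * N) :=
            mul_le_mul h8.2 h9 (sq_nonneg _) zero_le_one
        _ ≤ 8 * T := by linarith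
    rw [intervalIntegral.integral_const, smul_eq_mul] at h7
    linarith
  have h8 := abs_le.1 h1
  have h9 := abs_le.1 h2
  have h10 : T / 2 * S ≤ T / 2 * (L + 2) := mul_le_mul_of_nonneg_left (by linarith) (by linarith)
  have h11 : T / 2 * (L - 2) ≤ T / 2 * S := mul_le_mul_of_nonneg_left (by linarith) (by linarith)
  rw [abs_le]
  constructor <;> linarith

/-- the comparison -/
theorem diff_bound {T : ℝ} (hT1 : 1 ≤ T) (N : ℕ) {s : ℝ} (hs0 : 0 < s) :
    |(∫ t in 1..T, (1 - t / T) * ‖Z t‖ ^ 2) - ∫ t in 1..T, (1 - t / T) * ‖Dp (1 / 2) N t‖ ^ 2| ≤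
      1 / s * (∫ t in 1..T, (1 - t / T) * ‖Dp (1 / 2) N t‖ ^ 2) +
        (1 + s) * ∫ t in 1..T, ‖Z t - Dp (1 / 2) N t‖ ^ 2 := by
  have hT0 : 0 < T := by linarith
  have hcWD := continuous_WD T N
  have hcWZ := continuous_WZ T
  have hcE2 : Continuous fun t : ℝ => ‖Z t - Dp (1 / 2) N t‖ ^ 2 :=
    (continuous_Z.sub (continuous_Dp (1 / 2) N)).norm.pow 2
  rw [← intervalIntegral.integral_sub (hcWZ.intervalIntegrable _ _)
    (hcWD.intervalIntegrable _ _), ← intervalIntegral.integral_const_mul,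
    ← intervalIntegral.integral_const_mul,
    ← intervalIntegral.integral_add ((hcWD.const_mul _).intervalIntegrable _ _)
      ((hcE2.const_mul _).intervalIntegrable _ _)]
  refine (intervalIntegral.abs_integral_le_integral_abs hT1).trans ?_
  refine intervalIntegral.integral_mono_on hT1
    ((hcWZ.sub hcWD).abs.intervalIntegrable _ _)
    (((hcWD.const_mul _).add (hcE2.const_mul _)).intervalIntegrable _ _) fun t ht => ?_
  have h10 := weight_bounds hT0 (by linarith [ht.1]) ht.2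
  have h11 := abs_sq_sub_le (a := Z t) (b := Dp (1 / 2) N t) (η := 1 / s) (by positivity)
  rw [one_div_one_div] at h11
  rw [← mul_sub, abs_mul, abs_of_nonneg h10.1]
  have h12 : 0 ≤ (1 + s) * ‖Z t - Dp (1 / 2) N t‖ ^ 2 := by positivity
  calc (1 - t / T) * |‖Z t‖ ^ 2 - ‖Dp (1 / 2) N t‖ ^ 2|
      ≤ (1 - t / T) * (1 / s * ‖Dp (1 / 2) N t‖ ^ 2 + (1 + s) * ‖Z t - Dp (1 / 2) N t‖ ^ 2) :=
        mul_le_mul_of_nonneg_left h11 h10.1
    _ = 1 / s * ((1 - t / T) * ‖Dp (1 / 2) N t‖ ^ 2) +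
        (1 - t / T) * ((1 + s) * ‖Z t - Dp (1 / 2) N t‖ ^ 2) := by ring
    _ ≤ 1 / s * ((1 - t / T) * ‖Dp (1 / 2) N t‖ ^ 2) +
        1 * ((1 + s) * ‖Z t - Dp (1 / 2) N t‖ ^ 2) := by
        gcongr
        exact h10.2
    _ = _ := by rw [one_mul]

theorem exists_main : ∃ C : ℝ, 0 < C ∧ ∀ T : ℝ, 3 ≤ T →
    |F T - T ^ 2 / 2 * Real.log T| ≤ C * (T ^ 2 * √(Real.log T)) := by
  obtain ⟨A, hA0, hA⟩ := apprStmt
  obtain ⟨B, hB0, hB⟩ := exists_dir
  refine ⟨2 * B + 1 + 4 * A ^ 2, by positivity, fun T hT => ?_⟩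
  have hT0 : 0 < T := by linarith
  have hT1 : 1 ≤ T := by linarith
  set L := Real.log T with hL
  have hL1 : 1 ≤ L := by
    rw [hL, Real.le_log_iff_exp_le hT0]
    linarith [Real.exp_one_lt_d9]
  set s := √L with hs
  have hs1 : 1 ≤ s := by
    rw [hs, Real.one_le_sqrt]
    exact hL1
  have hs0 : 0 < s := by linarith
  have hsL : s * s = L := Real.mul_self_sqrt (by linarith)
  set N : ℕ := ⌈T⌉₊ with hN
  have hN1 : T ≤ N := Nat.le_ceil _
  have hN2 : (N : ℝ) < T + 1 := Nat.ceil_lt_add_one hT0.le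
  have hN3 : (N : ℝ) ≤ 2 * T := by linarith
  have hN1' : 1 ≤ N := by
    have : (1 : ℝ) ≤ N := by linarith
    exact_mod_cast this
  have h7 := hB T N hT1 hN1 hN3
  have h8 : (∫ t in 1..T, ‖Z t - Dp (1 / 2) N t‖ ^ 2) ≤ A ^ 2 * N :=
    integral_err_le hA0 (le_refl (1 / 2 : ℝ)) hN1' hT1 fun t ht htT =>
      hA (1 / 2) t N le_rfl (by norm_num) ht (by linarith)
  have hIE0 : 0 ≤ ∫ t in 1..T, ‖Z t - Dp (1 / 2) N t‖ ^ 2 :=
    intervalIntegral.integral_nonneg hT1 fun t _ => sq_nonneg _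
  have h9 := diff_bound hT1 N hs0
  have h13 : F T = T * ∫ t in 1..T, (1 - t / T) * ‖Z t‖ ^ 2 := by
    rw [F, ← intervalIntegral.integral_const_mul]
    congr 1
    funext t
    field_simp
  generalize (∫ t in 1..T, (1 - t / T) * ‖Dp (1 / 2) N t‖ ^ 2) = ID1 at h7 h9
  generalize (∫ t in 1..T, (1 - t / T) * ‖Z t‖ ^ 2) = IZ1 at h9 h13
  generalize (∫ t in 1..T, ‖Z t - Dp (1 / 2) N t‖ ^ 2) = IE at h8 hIE0 h9
  -- bounds
  have h10 : 1 / s * ID1 ≤ T * s / 2 + B * T := by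
    have h11 := (abs_le.1 h7).2
    have h12 : ID1 ≤ T / 2 * (s * s) + B * T := by
      rw [hsL]
      linarith
    calc 1 / s * ID1 ≤ 1 / s * (T / 2 * (s * s) + B * T) := by gcongr
      _ = T * s / 2 + B * T * (1 / s) := by
        field_simp
      _ ≤ T * s / 2 + B * T * 1 := by
        gcongr
        rw [div_le_one hs0]
        exact hs1
      _ = _ := by ring
  have h11 : (1 + s) * IE ≤ 4 * A ^ 2 * s * T := by
    calc (1 + s) * IE ≤ (2 * s) * (A ^ 2 * (2 * T)) := by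
          refine mul_le_mul (by linarith) (h8.trans ?_) hIE0 (by positivity)
          gcongr
      _ = _ := by ring
  have h12 : |IZ1 - T / 2 * L| ≤ (2 * B + 1 + 4 * A ^ 2) * s * T := by
    have e : IZ1 - T / 2 * L = (IZ1 - ID1) + (ID1 - T / 2 * L) := by ring
    rw [e]
    refine (abs_add_le _ _).trans ?_
    have h14 : (2 * B * T) * 1 ≤ (2 * B * T) * s := mul_le_mul_of_nonneg_left hs1 (by positivity)
    have h15 : 0 ≤ T * s := by positivity
    linarith
  have e : F T - T ^ 2 / 2 * L = T * (IZ1 - T / 2 * L) := by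
    rw [h13]
    ring
  rw [e, abs_mul, abs_of_pos hT0]
  calc T * |IZ1 - T / 2 * L| ≤ T * ((2 * B + 1 + 4 * A ^ 2) * s * T) := by gcongr
    _ = _ := by ring

/-- the limit of the smoothed mean square -/
theorem tendsto_F : Tendsto (fun T : ℝ => F T / (T ^ 2 * Real.log T)) atTop (𝓝 (1 / 2)) := by
  obtain ⟨C, hC, h⟩ := exists_main
  have h1 : Tendsto (fun T : ℝ => C / √(Real.log T)) atTop (𝓝 0) :=
    Tendsto.const_div_atTop (Real.tendsto_sqrt_atTop.comp Real.tendsto_log_atTop) C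
  rw [tendsto_iff_norm_sub_tendsto_zero]
  refine squeeze_zero' (Eventually.of_forall fun _ => norm_nonneg _) ?_ h1
  filter_upwards [eventually_ge_atTop (3 : ℝ)] with T hT
  have hT0 : 0 < T := by linarith
  have hL1 : 1 ≤ Real.log T := by
    rw [Real.le_log_iff_exp_le hT0]
    linarith [Real.exp_one_lt_d9]
  have hL0 : 0 < Real.log T := by linarith
  have hs0 : 0 < √(Real.log T) := Real.sqrt_pos.2 hL0
  have e : F T / (T ^ 2 * Real.log T) - 1 / 2 =
      (F T - T ^ 2 / 2 * Real.log T) / (T ^ 2 * Real.log T) := by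
    field_simp
  rw [e, norm_div, Real.norm_eq_abs, Real.norm_eq_abs,
    abs_of_pos (by positivity : 0 < T ^ 2 * Real.log T)]
  rw [div_le_iff₀ (by positivity)]
  refine (h T hT).trans (le_of_eq ?_)
  have e2 : Real.log T = √(Real.log T) * √(Real.log T) := (Real.mul_self_sqrt hL0.le).symm
  nth_rewrite 3 [e2]
  field_simp

theorem tendsto_log_ratio {c : ℝ} (hc : 0 < c) :
    Tendsto (fun T : ℝ => Real.log (c * T) / Real.log T) atTop (𝓝 1) := by
  have h1 : Tendsto (fun T : ℝ => Real.log c / Real.log T + 1) atTop (𝓝 (0 + 1)) :=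
    (Tendsto.const_div_atTop Real.tendsto_log_atTop _).add_const 1
  rw [zero_add] at h1
  refine h1.congr' ?_
  filter_upwards [eventually_ge_atTop (3 : ℝ)] with T hT
  have hT0 : 0 < T := by linarith
  have hL0 : 0 < Real.log T := Real.log_pos (by linarith)
  rw [Real.log_mul hc.ne' hT0.ne']
  field_simp

theorem tendsto_diff {c : ℝ} (hc : 0 < c) (hc1 : c ≠ 1) :
    Tendsto (fun T : ℝ => (F (c * T) - F T) / ((c - 1) * T * (T * Real.log T))) atTop
      (𝓝 ((c + 1) / 2)) := by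
  have hcT : Tendsto (fun T : ℝ => c * T) atTop atTop := tendsto_id.const_mul_atTop hc
  have h1 := (((tendsto_F.comp hcT).mul (tendsto_log_ratio hc)).mul_const (c ^ 2)).sub tendsto_F
  have h2 := h1.div_const (c - 1)
  have hc2 : c - 1 ≠ 0 := sub_ne_zero.2 hc1
  have e : (1 / 2 * 1 * c ^ 2 - 1 / 2) / (c - 1) = (c + 1) / 2 := by
    field_simp
    ring
  rw [e] at h2
  refine h2.congr' ?_
  filter_upwards [eventually_gt_atTop (3 : ℝ), hcT.eventually (eventually_gt_atTop (3 : ℝ))]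
    with T hT hT'
  have hT0 : 0 < T := by linarith
  have hL0 : 0 < Real.log T := Real.log_pos (by linarith)
  have hL0' : 0 < Real.log (c * T) := Real.log_pos (by linarith)
  simp only [Function.comp]
  field_simp

theorem F_diff_ge {a b : ℝ} (ha : 1 ≤ a) (hab : a ≤ b) :
    (b - a) * ∫ t in 1..a, ‖Z t‖ ^ 2 ≤ F b - F a := by
  have hi : ∀ (c x y : ℝ), IntervalIntegrable (fun t => (c - t) * ‖Z t‖ ^ 2) volume x y :=
    fun c x y => (((by fun_prop : Continuous fun t : ℝ => c - t)).mul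
      continuous_Zsq).intervalIntegrable _ _
  have h1 : F b = (∫ t in 1..a, (b - t) * ‖Z t‖ ^ 2) + ∫ t in a..b, (b - t) * ‖Z t‖ ^ 2 :=
    (intervalIntegral.integral_add_adjacent_intervals (hi _ _ _) (hi _ _ _)).symm
  have h2 : 0 ≤ ∫ t in a..b, (b - t) * ‖Z t‖ ^ 2 :=
    intervalIntegral.integral_nonneg hab fun t ht =>
      mul_nonneg (by linarith [ht.2]) (sq_nonneg _)
  have h3 : (b - a) * ∫ t in 1..a, ‖Z t‖ ^ 2 = (∫ t in 1..a, (b - t) * ‖Z t‖ ^ 2) - F a := by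
    rw [F, ← intervalIntegral.integral_sub (hi _ _ _) (hi _ _ _),
      ← intervalIntegral.integral_const_mul]
    congr 1
    funext t
    ring
  rw [h1, h3]
  linarith

theorem F_diff_le {a b : ℝ} (ha : 1 ≤ a) (hab : a ≤ b) :
    F b - F a ≤ (b - a) * ∫ t in 1..b, ‖Z t‖ ^ 2 := by
  have hi : ∀ (c x y : ℝ), IntervalIntegrable (fun t => (c - t) * ‖Z t‖ ^ 2) volume x y :=
    fun c x y => (((by fun_prop : Continuous fun t : ℝ => c - t)).mul
      continuous_Zsq).intervalIntegrable _ _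
  have h1 : F b = (∫ t in 1..a, (b - t) * ‖Z t‖ ^ 2) + ∫ t in a..b, (b - t) * ‖Z t‖ ^ 2 :=
    (intervalIntegral.integral_add_adjacent_intervals (hi _ _ _) (hi _ _ _)).symm
  have h2 : ∫ t in a..b, (b - t) * ‖Z t‖ ^ 2 ≤ ∫ t in a..b, (b - a) * ‖Z t‖ ^ 2 := by
    refine intervalIntegral.integral_mono_on hab (hi _ _ _)
      ((continuous_Zsq.const_mul _).intervalIntegrable _ _) fun t ht => ?_
    exact mul_le_mul_of_nonneg_right (by linarith [ht.1]) (sq_nonneg _)
  have h3 : (b - a) * ∫ t in 1..a, ‖Z t‖ ^ 2 = (∫ t in 1..a, (b - t) * ‖Z t‖ ^ 2) - F a := by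
    rw [F, ← intervalIntegral.integral_sub (hi _ _ _) (hi _ _ _),
      ← intervalIntegral.integral_const_mul]
    congr 1
    funext t
    ring
  have h4 : ∫ t in 1..b, ‖Z t‖ ^ 2 = (∫ t in 1..a, ‖Z t‖ ^ 2) + ∫ t in a..b, ‖Z t‖ ^ 2 :=
    (intervalIntegral.integral_add_adjacent_intervals (continuous_Zsq.intervalIntegrable _ _)
      (continuous_Zsq.intervalIntegrable _ _)).symm
  rw [intervalIntegral.integral_const_mul] at h2
  rw [h1, h4, mul_add, h3]
  linarith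

theorem tendsto_J₁ : Tendsto (fun T : ℝ => (∫ t in 1..T, ‖Z t‖ ^ 2) / (T * Real.log T)) atTop
    (𝓝 1) := by
  rw [tendsto_order]
  constructor
  · intro a ha
    set c : ℝ := max a (1 / 2) with hc
    have hc0 : 0 < c := lt_of_lt_of_le (by norm_num) (le_max_right _ _)
    have hc1 : c < 1 := max_lt ha (by norm_num)
    have hac : a ≤ c := le_max_left _ _
    have hlim := tendsto_diff hc0 hc1.ne
    have hcT : Tendsto (fun T : ℝ => c * T) atTop atTop := tendsto_id.const_mul_atTop hc0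
    filter_upwards [hlim.eventually_const_lt (show a < (c + 1) / 2 by linarith),
      eventually_gt_atTop (3 : ℝ), hcT.eventually (eventually_gt_atTop (3 : ℝ))] with T h1 hT hT'
    have hT0 : 0 < T := by linarith
    have hL0 : 0 < Real.log T := Real.log_pos (by linarith)
    refine h1.trans_le ?_
    have h2 := F_diff_le (a := c * T) (b := T) (by linarith) (by nlinarith)
    have e : (F (c * T) - F T) / ((c - 1) * T * (T * Real.log T)) =
        (F T - F (c * T)) / ((1 - c) * T) / (T * Real.log T) := by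
      rw [div_div, show (c - 1) * T * (T * Real.log T) = -((1 - c) * T * (T * Real.log T)) by ring,
        div_neg, ← neg_div, neg_sub]
    rw [e]
    refine div_le_div_of_nonneg_right ?_ (by positivity)
    rw [div_le_iff₀ (mul_pos (by linarith) hT0)]
    calc F T - F (c * T) ≤ (T - c * T) * ∫ t in 1..T, ‖Z t‖ ^ 2 := h2
      _ = _ := by ring
  · intro a ha
    have hlim := tendsto_diff (c := a) (by linarith) ha.ne'
    filter_upwards [hlim.eventually_lt_const (show (a + 1) / 2 < a by linarith),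
      eventually_gt_atTop (3 : ℝ)] with T h1 hT
    have hT0 : 0 < T := by linarith
    have hL0 : 0 < Real.log T := Real.log_pos (by linarith)
    refine lt_of_le_of_lt ?_ h1
    have h2 := F_diff_ge (a := T) (b := a * T) (by linarith) (by nlinarith)
    rw [← div_div (F (a * T) - F T)]
    refine div_le_div_of_nonneg_right ?_ (by positivity)
    rw [le_div_iff₀ (mul_pos (show (0 : ℝ) < a - 1 by linarith) hT0)]
    calc (∫ t in 1..T, ‖Z t‖ ^ 2) * ((a - 1) * T) = (a * T - T) * ∫ t in 1..T, ‖Z t‖ ^ 2 := by ring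
      _ ≤ _ := h2

/-- **Hardy and Littlewood (1918)**: `∫_0^T |ζ(1/2 + it)|² dt ~ T log T`. -/
theorem meanSqStmt : MeanSqStmt := by
  have h0 : Tendsto (fun T : ℝ => T * Real.log T) atTop atTop :=
    tendsto_id.atTop_mul_atTop₀ Real.tendsto_log_atTop
  have h1 : Tendsto (fun T : ℝ => (∫ t in (0 : ℝ)..1, ‖Z t‖ ^ 2) / (T * Real.log T)) atTop (𝓝 0) :=
    Tendsto.const_div_atTop h0 _
  have h2 := h1.add tendsto_J₁
  rw [zero_add] at h2
  refine h2.congr fun T => ?_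
  rw [← add_div, intervalIntegral.integral_add_adjacent_intervals
    (continuous_Zsq.intervalIntegrable _ _) (continuous_Zsq.intervalIntegrable _ _)]
  congr 2
  funext t
  rw [Z]
  push_cast
  rfl

/-- **Hardy and Littlewood (1918)**: the mean square of the zeta function on the critical line is
asymptotic to `log T`: `∫_0^T |ζ(1/2 + it)|² dt ~ T log T`. -/
theorem mean_square_zeta :
    Tendsto (fun T : ℝ => (∫ t in 0..T, ‖riemannZeta (1 / 2 + t * I)‖ ^ 2) / (T * Real.log T))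
      atTop (𝓝 1) :=
  meanSqStmt

end Fermat.Agent.Cor.BL

end
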