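import Fermat.Agent.Corollaries.ZetaK.BL.Tauber
import Fermat.Agent.Corollaries.ZetaK.BL.MeanSq

/-!
# The mean square of the zeta function to the right of the critical line

`∫_1^T |ζ(σ + it)|² dt ~ ζ(2σ) T` for every `σ > 1/2` (Landau, Schnee 1909).
-/

set_option autoImplicit false

noncomputable section

namespace Fermat.Agent.Cor.BL

open Complex Real Filter Topology Set MeasureTheory

open Fermat.Agent.Cor.HL (sum_Icc_eq)

/-- the off-diagonal terms, `n < m` -/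
theorem off_lt' {κ σ T : ℝ} (hκ : 1 / 2 ≤ κ) (hσ : κ ≤ σ) (hT : 0 < T) {m n : ℕ} (hn : 1 ≤ n)
    (hnm : n < m) :
    (m : ℝ) ^ (-σ) * (n : ℝ) ^ (-σ) * (2 / ((Real.log m - Real.log n) ^ 2 * T)) ≤
      4 * (m : ℝ) ^ (3 / 2 - κ) / T * gB ((m : ℤ) - n) := by
  have hn1 : (1 : ℝ) ≤ n := by exact_mod_cast hn
  have hm1 : (1 : ℝ) ≤ m := by exact_mod_cast (by omega : 1 ≤ m)
  have hm0 : (0 : ℝ) < m := by linarith
  have h1 := off_lt (σ := 1 / 2) le_rfl hT hn hnm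
  have h2 : (m : ℝ) ^ (-σ) ≤ (m : ℝ) ^ (-(κ - 1 / 2)) * (m : ℝ) ^ (-(1 / 2 : ℝ)) := by
    rw [← Real.rpow_add hm0]
    exact Real.rpow_le_rpow_of_exponent_le hm1 (by linarith)
  have h3 : (n : ℝ) ^ (-σ) ≤ (n : ℝ) ^ (-(1 / 2 : ℝ)) :=
    Real.rpow_le_rpow_of_exponent_le hn1 (by linarith)
  have h4 : 0 ≤ 2 / ((Real.log m - Real.log n) ^ 2 * T) := by positivity
  calc (m : ℝ) ^ (-σ) * (n : ℝ) ^ (-σ) * (2 / ((Real.log m - Real.log n) ^ 2 * T))
      ≤ ((m : ℝ) ^ (-(κ - 1 / 2)) * (m : ℝ) ^ (-(1 / 2 : ℝ))) * (n : ℝ) ^ (-(1 / 2 : ℝ)) *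
          (2 / ((Real.log m - Real.log n) ^ 2 * T)) := by gcongr
    _ = (m : ℝ) ^ (-(κ - 1 / 2)) * ((m : ℝ) ^ (-(1 / 2 : ℝ)) * (n : ℝ) ^ (-(1 / 2 : ℝ)) *
          (2 / ((Real.log m - Real.log n) ^ 2 * T))) := by ring
    _ ≤ (m : ℝ) ^ (-(κ - 1 / 2)) * (4 * m / T * gB ((m : ℤ) - n)) := by gcongr
    _ = _ := by
        rw [show (3 / 2 - κ : ℝ) = -(κ - 1 / 2) + 1 by ring, Real.rpow_add hm0, Real.rpow_one]
        ring

theorem off_le' {κ σ T : ℝ} (hκ : 1 / 2 ≤ κ) (hκ' : κ ≤ 3 / 2) (hσ : κ ≤ σ) (hT : 0 < T)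
    {N m n : ℕ} (hm : 1 ≤ m) (hn : 1 ≤ n) (hmN : m ≤ N) (hnN : n ≤ N) (hmn : m ≠ n) :
    |(m : ℝ) ^ (-σ) * (n : ℝ) ^ (-σ) * W T (Real.log m - Real.log n)| ≤
      4 * (N : ℝ) ^ (3 / 2 - κ) / T * gB ((m : ℤ) - n) := by
  have hn0 : (0 : ℝ) < n := by exact_mod_cast hn
  have hm0 : (0 : ℝ) < m := by exact_mod_cast hm
  have hl : Real.log m - Real.log n ≠ 0 := by
    intro h
    have h2 := Real.log_injOn_pos (Set.mem_Ioi.2 hm0) (Set.mem_Ioi.2 hn0) (sub_eq_zero.1 h)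
    exact hmn (by exact_mod_cast h2)
  have hmN' : (m : ℝ) ^ (3 / 2 - κ) ≤ (N : ℝ) ^ (3 / 2 - κ) :=
    Real.rpow_le_rpow hm0.le (by exact_mod_cast hmN) (by linarith)
  have hnN' : (n : ℝ) ^ (3 / 2 - κ) ≤ (N : ℝ) ^ (3 / 2 - κ) :=
    Real.rpow_le_rpow hn0.le (by exact_mod_cast hnN) (by linarith)
  rw [abs_mul, abs_of_nonneg (by positivity : 0 ≤ (m : ℝ) ^ (-σ) * (n : ℝ) ^ (-σ))]
  refine (mul_le_mul_of_nonneg_left (abs_W_le hT hl) (by positivity)).trans ?_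
  rcases lt_or_gt_of_ne hmn with h | h
  · have h1 := off_lt' hκ hσ hT hm h
    have e1 : (m : ℝ) ^ (-σ) * (n : ℝ) ^ (-σ) * (2 / ((Real.log m - Real.log n) ^ 2 * T)) =
        (n : ℝ) ^ (-σ) * (m : ℝ) ^ (-σ) * (2 / ((Real.log n - Real.log m) ^ 2 * T)) := by
      rw [show (Real.log m - Real.log n) ^ 2 = (Real.log n - Real.log m) ^ 2 by ring]
      ring
    rw [e1]
    refine h1.trans ?_
    rw [show ((m : ℤ) - n) = -((n : ℤ) - m) by ring, gB_neg]
    refine mul_le_mul_of_nonneg_right ?_ (gB_nonneg _)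
    exact div_le_div_of_nonneg_right (by linarith) hT.le
  · refine (off_lt' hκ hσ hT hn h).trans ?_
    refine mul_le_mul_of_nonneg_right ?_ (gB_nonneg _)
    exact div_le_div_of_nonneg_right (by linarith) hT.le

/-- weighted mean squares with a power saving -/
theorem dir_le' {κ σ T : ℝ} (hκ : 1 / 2 ≤ κ) (hκ' : κ ≤ 3 / 2) (hσ : κ ≤ σ) (hT : 1 ≤ T) {N : ℕ}
    (hN : (N : ℝ) ≤ 2 * T) :
    |(∫ t in 0..T, (1 - t / T) * ‖Dp σ N t‖ ^ 2) -
      T / 2 * ∑ n ∈ Finset.Icc 1 N, (n : ℝ) ^ (-(2 * σ))| ≤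
        16 * (∑' k, gB k) * T ^ (3 / 2 - κ) := by
  have hS : 0 ≤ ∑' k, gB k := tsum_nonneg gB_nonneg
  have hT0 : 0 < T := by linarith
  simp only [Dp]
  rw [integral_eq, Finset.mul_sum, ← Finset.sum_sub_distrib]
  have h1 : ∀ m ∈ Finset.Icc 1 N, |(∑ n ∈ Finset.Icc 1 N, (m : ℝ) ^ (-σ) * (n : ℝ) ^ (-σ) *
      W T (Real.log m - Real.log n)) - T / 2 * (m : ℝ) ^ (-(2 * σ))| ≤
        4 * (N : ℝ) ^ (3 / 2 - κ) / T * ∑' k, gB k := by
    intro m hm
    obtain ⟨hm1, hmN⟩ := Finset.mem_Icc.1 hm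
    have hm0 : (0 : ℝ) < m := by exact_mod_cast hm1
    rw [← Finset.sum_erase_add _ _ hm, sub_self, W_zero hT0]
    have e : (m : ℝ) ^ (-σ) * (m : ℝ) ^ (-σ) * (T / 2) = T / 2 * (m : ℝ) ^ (-(2 * σ)) := by
      rw [← Real.rpow_add hm0, mul_comm]
      congr 2
      ring
    rw [e, add_sub_cancel_right]
    refine (Finset.abs_sum_le_sum_abs _ _).trans ?_
    refine (Finset.sum_le_sum fun n hn => off_le' hκ hκ' hσ hT0 hm1
      (Finset.mem_Icc.1 (Finset.mem_of_mem_erase hn)).1 hmN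
      (Finset.mem_Icc.1 (Finset.mem_of_mem_erase hn)).2 (Finset.ne_of_mem_erase hn).symm).trans ?_
    rw [← Finset.mul_sum]
    refine mul_le_mul_of_nonneg_left ?_ (by positivity)
    refine (Finset.sum_le_sum_of_subset_of_nonneg (Finset.erase_subset _ _)
      fun k _ _ => gB_nonneg _).trans (sum_gB_le m N)
  refine (Finset.abs_sum_le_sum_abs _ _).trans ((Finset.sum_le_sum h1).trans ?_)
  rw [Finset.sum_const, Nat.card_Icc, add_tsub_cancel_right, nsmul_eq_mul]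
  have h2 : (N : ℝ) ^ (3 / 2 - κ) ≤ 2 * T ^ (3 / 2 - κ) := by
    calc (N : ℝ) ^ (3 / 2 - κ) ≤ (2 * T) ^ (3 / 2 - κ) :=
          Real.rpow_le_rpow (Nat.cast_nonneg _) hN (by linarith)
      _ = 2 ^ (3 / 2 - κ) * T ^ (3 / 2 - κ) := Real.mul_rpow (by norm_num) hT0.le
      _ ≤ 2 ^ (1 : ℝ) * T ^ (3 / 2 - κ) := by
          gcongr
          · norm_num
          · linarith
      _ = _ := by rw [Real.rpow_one]
  calc (N : ℝ) * (4 * (N : ℝ) ^ (3 / 2 - κ) / T * ∑' k, gB k)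
      ≤ (2 * T) * (4 * (2 * T ^ (3 / 2 - κ)) / T * ∑' k, gB k) := by gcongr
    _ = _ := by
        field_simp
        ring

theorem sum_rpow_le {κ : ℝ} (hκ : 0 < κ) (hκ' : κ < 1) (N : ℕ) :
    ∑ n ∈ Finset.Icc 1 N, (n : ℝ) ^ (-κ) ≤ (N : ℝ) ^ (1 - κ) / (1 - κ) := by
  have hκ1 : 0 < 1 - κ := by linarith
  induction N with
  | zero => simp [Real.zero_rpow hκ1.ne']
  | succ N ih =>
    rw [Finset.sum_Icc_succ_top (by omega)]
    have h0 : (0 : ℝ) < ((N + 1 : ℕ) : ℝ) := by positivity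
    set b := ((N + 1 : ℕ) : ℝ) with hb
    have hb1 : (N : ℝ) = b * (1 + -(1 / b)) := by
      rw [mul_add, mul_one, mul_neg, mul_one_div_cancel h0.ne', hb]
      push_cast
      ring
    have h1 : (N : ℝ) ^ (1 - κ) ≤ b ^ (1 - κ) - (1 - κ) * b ^ (-κ) := by
      have hb2 : -1 ≤ -(1 / b) := by
        rw [neg_le_neg_iff, div_le_one h0, hb]
        push_cast
        linarith [Nat.cast_nonneg (α := ℝ) N]
      have h2 := rpow_one_add_le_one_add_mul_self hb2 hκ1.le (by linarith : 1 - κ ≤ 1)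
      rw [hb1, Real.mul_rpow h0.le (by linarith)]
      calc b ^ (1 - κ) * (1 + -(1 / b)) ^ (1 - κ) ≤ b ^ (1 - κ) * (1 + (1 - κ) * -(1 / b)) := by
            gcongr
        _ = b ^ (1 - κ) - (1 - κ) * (b ^ (1 - κ) / b) := by ring
        _ = _ := by
            congr 2
            rw [show (1 - κ : ℝ) = -κ + 1 by ring, Real.rpow_add h0, Real.rpow_one]
            field_simp
    have h3 : (N : ℝ) ^ (1 - κ) / (1 - κ) ≤ b ^ (1 - κ) / (1 - κ) - b ^ (-κ) := by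
      rw [div_le_iff₀ hκ1, sub_mul, div_mul_cancel₀ _ hκ1.ne']
      linarith
    linarith

theorem norm_Dp_sq_le {κ σ T : ℝ} (hκ : 1 / 2 ≤ κ) (hκ' : κ ≤ 3 / 4) (hσ : κ ≤ σ) (hT : 1 ≤ T)
    {N : ℕ} (hN : (N : ℝ) ≤ 2 * T) (t : ℝ) : ‖Dp σ N t‖ ^ 2 ≤ 32 * T ^ (3 / 2 - κ) := by
  have hT0 : 0 < T := by linarith
  have h1 : ‖Dp σ N t‖ ≤ 4 * (N : ℝ) ^ (1 - κ) := by
    refine (norm_sum_le _ _).trans ?_
    have h2 : ∑ n ∈ Finset.Icc 1 N, ‖(n : ℂ) ^ (-(σ + t * I : ℂ))‖ ≤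
        ∑ n ∈ Finset.Icc 1 N, (n : ℝ) ^ (-κ) := by
      refine Finset.sum_le_sum fun n hn => ?_
      have hn0 : 0 < n := (Finset.mem_Icc.1 hn).1
      have hn1 : (1 : ℝ) ≤ n := by exact_mod_cast hn0
      rw [norm_natCast_cpow_of_pos hn0]
      refine Real.rpow_le_rpow_of_exponent_le hn1 ?_
      simp
      exact hσ
    refine h2.trans ((sum_rpow_le (by linarith) (by linarith) N).trans ?_)
    rw [div_le_iff₀ (by linarith)]
    have : 0 ≤ (N : ℝ) ^ (1 - κ) := by positivity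
    nlinarith
  calc ‖Dp σ N t‖ ^ 2 ≤ (4 * (N : ℝ) ^ (1 - κ)) ^ 2 := pow_le_pow_left₀ (norm_nonneg _) h1 2
    _ = 16 * (N : ℝ) ^ (2 - 2 * κ) := by
        rw [mul_pow, ← Real.rpow_natCast ((N : ℝ) ^ (1 - κ)) 2, ← Real.rpow_mul
          (Nat.cast_nonneg _)]
        norm_num
        congr 1
        ring
    _ ≤ 16 * (2 * T) ^ (2 - 2 * κ) := by
        gcongr
        linarith
    _ = 16 * (2 ^ (2 - 2 * κ) * T ^ (2 - 2 * κ)) := by rw [Real.mul_rpow (by norm_num) hT0.le]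
    _ ≤ 16 * (2 ^ (1 : ℝ) * T ^ (3 / 2 - κ)) := by
        have e1 : (2 : ℝ) ^ (2 - 2 * κ) ≤ 2 ^ (1 : ℝ) :=
          Real.rpow_le_rpow_of_exponent_le (by norm_num) (by linarith)
        have e2 : T ^ (2 - 2 * κ) ≤ T ^ (3 / 2 - κ) :=
          Real.rpow_le_rpow_of_exponent_le hT (by linarith)
        exact mul_le_mul_of_nonneg_left (mul_le_mul e1 e2 (by positivity) (by positivity))
          (by norm_num)
    _ = _ := by
        rw [Real.rpow_one]
        ring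

/-- the tail of the Dirichlet series -/
theorem exists_tail : ∃ c : ℝ, 0 < c ∧ ∀ (σ t : ℝ) (N : ℕ), 2 ≤ σ → 1 ≤ N →
    ‖riemannZeta (σ + t * I) - Dp σ N t‖ ≤ c / √(N : ℝ) := by
  have hsum : Summable fun n : ℕ => ((n : ℝ) + 1) ^ (-(3 / 2 : ℝ)) := by
    have h : Summable fun n : ℕ => (n : ℝ) ^ (-(3 / 2 : ℝ)) :=
      Real.summable_nat_rpow.2 (by norm_num)
    refine ((summable_nat_add_iff 1).2 h).congr fun n => ?_
    push_cast
    rfl
  set c := ∑' n : ℕ, ((n : ℝ) + 1) ^ (-(3 / 2 : ℝ)) with hc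
  have hc0 : 0 ≤ c := tsum_nonneg fun n => by positivity
  refine ⟨c + 1, by linarith, fun σ t N hσ hN => ?_⟩
  have hN0 : (0 : ℝ) < N := by exact_mod_cast hN
  set s : ℂ := σ + t * I with hs
  have hsre : s.re = σ := by simp [hs]
  have hs1 : 1 < s.re := by rw [hsre]; linarith
  set f : ℕ → ℂ := fun n => ((n + 1 : ℕ) : ℂ) ^ (-s) with hf
  have hfs : Summable f := by
    have h := (Complex.summable_one_div_nat_cpow.mpr hs1)
    refine ((summable_nat_add_iff 1).mpr h).congr fun n => ?_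
    rw [hf]
    simp only
    rw [cpow_neg, one_div]
  have hft : ∑' n, f n = riemannZeta s := by
    rw [zeta_eq_tsum_one_div_nat_add_one_cpow hs1]
    refine tsum_congr fun n => ?_
    rw [hf]
    simp only
    rw [cpow_neg, one_div]
    push_cast
    rfl
  have h1 := hfs.sum_add_tsum_nat_add N
  rw [hft] at h1
  have h2 : Dp σ N t = ∑ i ∈ Finset.range N, f i := by
    rw [Dp, sum_Icc_eq]
  rw [h2, ← h1, add_sub_cancel_left]
  have h3 : ∀ i : ℕ, ‖f (i + N)‖ ≤ 1 / √(N : ℝ) * ((i : ℝ) + 1) ^ (-(3 / 2 : ℝ)) := by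
    intro i
    rw [hf]
    simp only
    rw [norm_natCast_cpow_of_pos (by omega), neg_re, hsre]
    have hx : (1 : ℝ) ≤ ((i + N + 1 : ℕ) : ℝ) := by
      push_cast
      linarith [Nat.cast_nonneg (α := ℝ) i]
    have hx0 : (0 : ℝ) < ((i + N + 1 : ℕ) : ℝ) := by linarith
    calc (((i + N + 1 : ℕ) : ℝ)) ^ (-σ) ≤ (((i + N + 1 : ℕ) : ℝ)) ^ (-(1 / 2 : ℝ) + -(3 / 2 : ℝ)) :=
          Real.rpow_le_rpow_of_exponent_le hx (by linarith)
      _ = (((i + N + 1 : ℕ) : ℝ)) ^ (-(1 / 2 : ℝ)) * (((i + N + 1 : ℕ) : ℝ)) ^ (-(3 / 2 : ℝ)) :=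
          Real.rpow_add hx0 _ _
      _ ≤ (N : ℝ) ^ (-(1 / 2 : ℝ)) * ((i : ℝ) + 1) ^ (-(3 / 2 : ℝ)) := by
          refine mul_le_mul ?_ ?_ (by positivity) (by positivity)
          · refine Real.rpow_le_rpow_of_nonpos hN0 ?_ (by norm_num)
            push_cast
            linarith [Nat.cast_nonneg (α := ℝ) i]
          · refine Real.rpow_le_rpow_of_nonpos (by positivity) ?_ (by norm_num)
            push_cast
            linarith
      _ = _ := by rw [Real.rpow_neg hN0.le, ← Real.sqrt_eq_rpow, one_div]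
  refine (tsum_of_norm_bounded ((hsum.hasSum).mul_left (1 / √(N : ℝ))) h3).trans ?_
  rw [← hc, one_div_mul_eq_div]
  exact div_le_div_of_nonneg_right (by linarith) (Real.sqrt_nonneg _)

/-- the mean square of the error term -/
theorem exists_err {κ σ : ℝ} (hκ : 1 / 2 ≤ κ) (hκ' : κ ≤ 3 / 4) (hσ : κ ≤ σ) :
    ∃ C : ℝ, 0 < C ∧ ∀ T : ℝ, 1 ≤ T →
      ∫ t in 1..T, ‖riemannZeta (σ + t * I) - Dp σ ⌈T⌉₊ t‖ ^ 2 ≤ C * T ^ (3 / 2 - κ) := by
  have hcE : ∀ (N : ℕ) {T : ℝ}, 1 ≤ T →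
      ContinuousOn (fun t : ℝ => ‖riemannZeta (σ + t * I) - Dp σ N t‖ ^ 2) (uIcc 1 T) :=
    fun N T hT => (((continuousOn_zeta σ hT).sub (continuous_Dp σ N).continuousOn).norm).pow 2
  rcases le_total σ 4 with h4 | h4
  · obtain ⟨A, hA0, hA⟩ := apprStmt
    refine ⟨2 * A ^ 2, by positivity, fun T hT => ?_⟩
    have hT0 : 0 < T := by linarith
    set N : ℕ := ⌈T⌉₊ with hN
    have hN1 : T ≤ N := Nat.le_ceil _
    have hN2 : (N : ℝ) < T + 1 := Nat.ceil_lt_add_one hT0.le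
    have hNR : (1 : ℝ) ≤ N := by linarith
    have hN0 : (0 : ℝ) < N := by linarith
    have hcB : ContinuousOn (fun t : ℝ => A ^ 2 * (2 * T ^ (3 / 2 - κ)) * (t ^ 2)⁻¹)
        (uIcc 1 T) := by
      refine continuousOn_const.mul (ContinuousOn.inv₀ (by fun_prop) fun t ht => ?_)
      rw [uIcc_of_le hT] at ht
      have : 0 < t := by linarith [ht.1]
      positivity
    have h1 : ∫ t in 1..T, ‖riemannZeta (σ + t * I) - Dp σ N t‖ ^ 2 ≤
        ∫ t in 1..T, A ^ 2 * (2 * T ^ (3 / 2 - κ)) * (t ^ 2)⁻¹ := by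
      refine intervalIntegral.integral_mono_on hT (hcE N hT).intervalIntegrable
        hcB.intervalIntegrable fun t ht => ?_
      have ht0 : 0 < t := by linarith [ht.1]
      have h2 := pow_le_pow_left₀ (norm_nonneg _) (hA σ t N (by linarith) h4 ht.1
        (by linarith [ht.2])) 2
      refine h2.trans ?_
      have h3 : ((N : ℝ) ^ (1 - σ)) ^ 2 ≤ 2 * T ^ (3 / 2 - κ) := by
        rw [← Real.rpow_natCast, ← Real.rpow_mul hN0.le]
        calc (N : ℝ) ^ ((1 - σ) * (2 : ℕ)) ≤ (N : ℝ) ^ (3 / 2 - κ) := by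
              refine Real.rpow_le_rpow_of_exponent_le hNR ?_
              push_cast
              linarith
          _ ≤ (2 * T) ^ (3 / 2 - κ) := by
              gcongr
              · linarith
              · linarith
          _ = 2 ^ (3 / 2 - κ) * T ^ (3 / 2 - κ) := Real.mul_rpow (by norm_num) hT0.le
          _ ≤ 2 ^ (1 : ℝ) * T ^ (3 / 2 - κ) := by
              gcongr
              · norm_num
              · linarith
          _ = _ := by rw [Real.rpow_one]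
      have e : (A * (N : ℝ) ^ (1 - σ) / t) ^ 2 = A ^ 2 * ((N : ℝ) ^ (1 - σ)) ^ 2 * (t ^ 2)⁻¹ := by
        field_simp
      rw [e]
      gcongr
    refine h1.trans ?_
    have h4 : ∫ t in 1..T, (t ^ 2)⁻¹ ≤ 1 := by
      have h5 : ∀ t ∈ uIcc 1 T, HasDerivAt (fun t : ℝ => -t⁻¹) ((t ^ 2)⁻¹) t := by
        intro t ht
        rw [uIcc_of_le hT] at ht
        have ht0 : t ≠ 0 := by linarith [ht.1]
        have := (hasDerivAt_inv ht0).neg
        rwa [neg_neg] at this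
      have hc : ContinuousOn (fun t : ℝ => (t ^ 2)⁻¹) (uIcc 1 T) := by
        refine ContinuousOn.inv₀ (by fun_prop) fun t ht => ?_
        rw [uIcc_of_le hT] at ht
        have : 0 < t := by linarith [ht.1]
        positivity
      rw [intervalIntegral.integral_eq_sub_of_hasDerivAt h5 hc.intervalIntegrable]
      have : 0 < T⁻¹ := by positivity
      rw [inv_one]
      linarith
    rw [intervalIntegral.integral_const_mul]
    calc A ^ 2 * (2 * T ^ (3 / 2 - κ)) * ∫ t in 1..T, (t ^ 2)⁻¹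
        ≤ A ^ 2 * (2 * T ^ (3 / 2 - κ)) * 1 := by gcongr
      _ = _ := by ring
  · obtain ⟨c, hc0, hc⟩ := exists_tail
    refine ⟨c ^ 2, by positivity, fun T hT => ?_⟩
    have hT0 : 0 < T := by linarith
    set N : ℕ := ⌈T⌉₊ with hN
    have hN1 : T ≤ N := Nat.le_ceil _
    have hN0 : (0 : ℝ) < N := by linarith
    have hN1' : 1 ≤ N := by
      have : (1 : ℝ) ≤ N := by linarith
      exact_mod_cast this
    have h1 : ∫ t in 1..T, ‖riemannZeta (σ + t * I) - Dp σ N t‖ ^ 2 ≤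
        ∫ t in 1..T, c ^ 2 / N := by
      refine intervalIntegral.integral_mono_on hT (hcE N hT).intervalIntegrable
        (continuous_const.intervalIntegrable _ _) fun t ht => ?_
      refine (pow_le_pow_left₀ (norm_nonneg _) (hc σ t N (by linarith) hN1') 2).trans ?_
      rw [div_pow, Real.sq_sqrt hN0.le]
    rw [intervalIntegral.integral_const, smul_eq_mul] at h1
    refine h1.trans ?_
    have h2 : (T - 1) * (c ^ 2 / N) ≤ c ^ 2 * 1 := by
      rw [mul_div_assoc', div_le_iff₀ hN0]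
      nlinarith [sq_nonneg c]
    refine h2.trans ?_
    gcongr
    exact Real.one_le_rpow hT (by linarith)

/-- the comparison, general form -/
theorem diff_bound' {a b : ℝ → ℂ} {T : ℝ} (hT1 : 1 ≤ T) (ha : ContinuousOn a (uIcc 1 T))
    (hb : ContinuousOn b (uIcc 1 T)) {s : ℝ} (hs0 : 0 < s) :
    |(∫ t in 1..T, (1 - t / T) * ‖a t‖ ^ 2) - ∫ t in 1..T, (1 - t / T) * ‖b t‖ ^ 2| ≤
      1 / s * (∫ t in 1..T, (1 - t / T) * ‖b t‖ ^ 2) + (1 + s) * ∫ t in 1..T, ‖a t - b t‖ ^ 2 := by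
  have hT0 : 0 < T := by linarith
  have hw : ContinuousOn (fun t : ℝ => 1 - t / T) (uIcc 1 T) :=
    (by fun_prop : Continuous fun t : ℝ => 1 - t / T).continuousOn
  have hcWD : ContinuousOn (fun t : ℝ => (1 - t / T) * ‖b t‖ ^ 2) (uIcc 1 T) :=
    hw.mul (hb.norm.pow 2)
  have hcWZ : ContinuousOn (fun t : ℝ => (1 - t / T) * ‖a t‖ ^ 2) (uIcc 1 T) :=
    hw.mul (ha.norm.pow 2)
  have hcE2 : ContinuousOn (fun t : ℝ => ‖a t - b t‖ ^ 2) (uIcc 1 T) := (ha.sub hb).norm.pow 2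
  rw [← intervalIntegral.integral_sub hcWZ.intervalIntegrable hcWD.intervalIntegrable,
    ← intervalIntegral.integral_const_mul, ← intervalIntegral.integral_const_mul,
    ← intervalIntegral.integral_add (hcWD.const_mul _).intervalIntegrable
      (hcE2.const_mul _).intervalIntegrable]
  refine (intervalIntegral.abs_integral_le_integral_abs hT1).trans ?_
  refine intervalIntegral.integral_mono_on hT1 (hcWZ.sub hcWD).abs.intervalIntegrable
    ((hcWD.const_mul _).add (hcE2.const_mul _)).intervalIntegrable fun t ht => ?_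
  have h10 := weight_bounds hT0 (by linarith [ht.1]) ht.2
  have h11 := abs_sq_sub_le (a := a t) (b := b t) (η := 1 / s) (by positivity)
  rw [one_div_one_div] at h11
  rw [← mul_sub, abs_mul, abs_of_nonneg h10.1]
  have h12 : 0 ≤ (1 + s) * ‖a t - b t‖ ^ 2 := by positivity
  calc (1 - t / T) * |‖a t‖ ^ 2 - ‖b t‖ ^ 2|
      ≤ (1 - t / T) * (1 / s * ‖b t‖ ^ 2 + (1 + s) * ‖a t - b t‖ ^ 2) :=
        mul_le_mul_of_nonneg_left h11 h10.1
    _ = 1 / s * ((1 - t / T) * ‖b t‖ ^ 2) + (1 - t / T) * ((1 + s) * ‖a t - b t‖ ^ 2) := by ring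
    _ ≤ 1 / s * ((1 - t / T) * ‖b t‖ ^ 2) + 1 * ((1 + s) * ‖a t - b t‖ ^ 2) := by
        gcongr
        exact h10.2
    _ = _ := by rw [one_mul]

end Fermat.Agent.Cor.BL

end
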