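import Fermat.Agent.Corollaries.ZetaK.BL.MeanR

/-!
# The mean square of the zeta function to the right of the critical line: the theorem

`∫_1^T |ζ(σ + it)|² dt ~ ζ(2σ) T` for every `σ > 1/2` (Landau, Schnee 1909).
-/

set_option autoImplicit false

noncomputable section

namespace Fermat.Agent.Cor.BL

open Complex Real Filter Topology Set MeasureTheory

theorem sum_Icc_eq_range {f : ℕ → ℝ} (h0 : f 0 = 0) (M : ℕ) :
    ∑ k ∈ Finset.Icc 1 M, f k = ∑ k ∈ Finset.range (M + 1), f k := by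
  induction M with
  | zero => simp [h0]
  | succ M ih => rw [Finset.sum_Icc_succ_top (by omega), Finset.sum_range_succ _ (M + 1), ih]

theorem summable_two_mul {σ : ℝ} (hσ : 1 / 2 < σ) :
    Summable fun n : ℕ => (n : ℝ) ^ (-(2 * σ)) :=
  Real.summable_nat_rpow.2 (by linarith)

theorem tendsto_partial {σ : ℝ} (hσ : 1 / 2 < σ) :
    Tendsto (fun T : ℝ => ∑ n ∈ Finset.Icc 1 ⌈T⌉₊, (n : ℝ) ^ (-(2 * σ))) atTop
      (𝓝 (∑' n : ℕ, (n : ℝ) ^ (-(2 * σ)))) := by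
  have h0 : (fun n : ℕ => (n : ℝ) ^ (-(2 * σ))) 0 = 0 := by
    simp only [Nat.cast_zero]
    exact Real.zero_rpow (by linarith)
  have h1 := (summable_two_mul hσ).hasSum.tendsto_sum_nat
  have h2 : Tendsto (fun T : ℝ => ⌈T⌉₊ + 1) atTop atTop :=
    (tendsto_add_atTop_nat 1).comp tendsto_nat_ceil_atTop
  refine (h1.comp h2).congr fun T => ?_
  exact (sum_Icc_eq_range h0 _).symm

theorem sum_le_tsum' {σ : ℝ} (hσ : 1 / 2 < σ) (N : ℕ) :
    ∑ n ∈ Finset.Icc 1 N, (n : ℝ) ^ (-(2 * σ)) ≤ ∑' n : ℕ, (n : ℝ) ^ (-(2 * σ)) :=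
  (summable_two_mul hσ).sum_le_tsum _ fun n _ => by positivity

theorem exists_main_right {σ : ℝ} (hσ : 1 / 2 < σ) : ∃ C γ : ℝ, 0 < γ ∧ ∀ T : ℝ, 1 ≤ T →
    |(∫ t in 1..T, (1 - t / T) * ‖riemannZeta (σ + t * I)‖ ^ 2) -
      T / 2 * ∑ n ∈ Finset.Icc 1 ⌈T⌉₊, (n : ℝ) ^ (-(2 * σ))| ≤ C * T ^ (1 - γ) := by
  set κ : ℝ := min σ (3 / 4) with hκdef
  have hκ1 : 1 / 2 < κ := lt_min hσ (by norm_num)
  have hκ2 : κ ≤ 3 / 4 := min_le_right _ _
  have hκ3 : κ ≤ σ := min_le_left _ _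
  obtain ⟨CE, hCE0, hCE⟩ := exists_err hκ1.le hκ2 hκ3
  set S := ∑' k, gB k with hS
  have hS0 : 0 ≤ S := tsum_nonneg gB_nonneg
  set V := ∑' n : ℕ, (n : ℝ) ^ (-(2 * σ)) with hV
  have hV0 : 0 ≤ V := tsum_nonneg fun n => by positivity
  set γ : ℝ := (κ - 1 / 2) / 2 with hγ
  refine ⟨(16 * S + 32) + (V / 2 + 16 * S + 32) + 2 * CE, γ, by rw [hγ]; linarith,
    fun T hT => ?_⟩
  have hT0 : 0 < T := by linarith
  set N : ℕ := ⌈T⌉₊ with hN
  have hN1 : T ≤ N := Nat.le_ceil _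
  have hN2 : (N : ℝ) < T + 1 := Nat.ceil_lt_add_one hT0.le
  have hN3 : (N : ℝ) ≤ 2 * T := by linarith
  set VN := ∑ n ∈ Finset.Icc 1 N, (n : ℝ) ^ (-(2 * σ)) with hVN
  have hVN1 : VN ≤ V := sum_le_tsum' hσ N
  have hcWD : Continuous fun t : ℝ => (1 - t / T) * ‖Dp σ N t‖ ^ 2 :=
    (by fun_prop : Continuous fun t : ℝ => 1 - t / T).mul ((continuous_Dp σ N).norm.pow 2)
  have h1 := dir_le' hκ1.le (by linarith) hκ3 hT hN3
  have h4 : (∫ t in 0..T, (1 - t / T) * ‖Dp σ N t‖ ^ 2) =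
      (∫ t in 0..1, (1 - t / T) * ‖Dp σ N t‖ ^ 2) +
        ∫ t in 1..T, (1 - t / T) * ‖Dp σ N t‖ ^ 2 :=
    (intervalIntegral.integral_add_adjacent_intervals (hcWD.intervalIntegrable _ _)
      (hcWD.intervalIntegrable _ _)).symm
  have h5 : 0 ≤ ∫ t in 0..1, (1 - t / T) * ‖Dp σ N t‖ ^ 2 := by
    refine intervalIntegral.integral_nonneg zero_le_one fun t ht => ?_
    exact mul_nonneg (weight_bounds hT0 ht.1 (by linarith [ht.2])).1 (sq_nonneg _)
  have h6 : ∫ t in 0..1, (1 - t / T) * ‖Dp σ N t‖ ^ 2 ≤ 32 * T ^ (3 / 2 - κ) := by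
    have h7 : ∫ t in 0..1, (1 - t / T) * ‖Dp σ N t‖ ^ 2 ≤
        ∫ t in (0 : ℝ)..1, 32 * T ^ (3 / 2 - κ) := by
      refine intervalIntegral.integral_mono_on zero_le_one (hcWD.intervalIntegrable _ _)
        (continuous_const.intervalIntegrable _ _) fun t ht => ?_
      have h8 := weight_bounds hT0 ht.1 (by linarith [ht.2])
      calc (1 - t / T) * ‖Dp σ N t‖ ^ 2 ≤ 1 * (32 * T ^ (3 / 2 - κ)) :=
            mul_le_mul h8.2 (norm_Dp_sq_le hκ1.le hκ2 hκ3 hT hN3 t) (sq_nonneg _) zero_le_one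
        _ = 32 * T ^ (3 / 2 - κ) := one_mul _
    rw [intervalIntegral.integral_const, smul_eq_mul] at h7
    linarith
  have h8 := hCE T hT
  have hIE0 : 0 ≤ ∫ t in 1..T, ‖riemannZeta (σ + t * I) - Dp σ N t‖ ^ 2 :=
    intervalIntegral.integral_nonneg hT fun t _ => sq_nonneg _
  have hs0 : 0 < T ^ γ := by positivity
  have h9 := diff_bound' hT (continuousOn_zeta σ hT) (continuous_Dp σ N).continuousOn hs0
  rw [h4] at h1
  generalize (∫ t in 0..1, (1 - t / T) * ‖Dp σ N t‖ ^ 2) = I0 at h1 h5 h6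
  generalize (∫ t in 1..T, (1 - t / T) * ‖Dp σ N t‖ ^ 2) = ID1 at h1 h9
  generalize (∫ t in 1..T, (1 - t / T) * ‖riemannZeta (σ + t * I)‖ ^ 2) = IZ1 at h9 ⊢
  generalize (∫ t in 1..T, ‖riemannZeta (σ + t * I) - Dp σ N t‖ ^ 2) = IE at h8 hIE0 h9
  set β : ℝ := 3 / 2 - κ with hβ
  have hTβ : T ^ β ≤ T ^ (1 - γ) := Real.rpow_le_rpow_of_exponent_le hT (by rw [hβ, hγ]; linarith)
  have hTβ1 : T ^ β ≤ T := by
    calc T ^ β ≤ T ^ (1 : ℝ) := Real.rpow_le_rpow_of_exponent_le hT (by rw [hβ]; linarith)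
      _ = T := Real.rpow_one _
  have hβ0 : 0 < T ^ β := by positivity
  have h10 := abs_le.1 h1
  have h11 : |ID1 - T / 2 * VN| ≤ (16 * S + 32) * T ^ β := by
    rw [abs_le]
    constructor <;> nlinarith [h10.1, h10.2, mul_nonneg hS0 hβ0.le]
  have h12 : ID1 ≤ (V / 2 + 16 * S + 32) * T := by
    have h13 := (abs_le.1 h11).2
    have h14 : T / 2 * VN ≤ T / 2 * V := mul_le_mul_of_nonneg_left hVN1 (by linarith)
    have h15 : (16 * S + 32) * T ^ β ≤ (16 * S + 32) * T :=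
      mul_le_mul_of_nonneg_left hTβ1 (by linarith)
    linarith
  have h13 : 1 / T ^ γ * ID1 ≤ (V / 2 + 16 * S + 32) * T ^ (1 - γ) := by
    calc 1 / T ^ γ * ID1 ≤ 1 / T ^ γ * ((V / 2 + 16 * S + 32) * T) := by gcongr
      _ = _ := by
        rw [Real.rpow_sub hT0, Real.rpow_one]
        ring
  have h14 : (1 + T ^ γ) * IE ≤ 2 * CE * T ^ (1 - γ) := by
    have hs1 : 1 ≤ T ^ γ := Real.one_le_rpow hT (by rw [hγ]; linarith)
    calc (1 + T ^ γ) * IE ≤ (2 * T ^ γ) * (CE * T ^ β) :=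
          mul_le_mul (by linarith) h8 hIE0 (by positivity)
      _ = 2 * CE * (T ^ γ * T ^ β) := by ring
      _ = _ := by
        rw [← Real.rpow_add hT0]
        congr 2
        rw [hγ, hβ]
        ring
  have e : IZ1 - T / 2 * VN = (IZ1 - ID1) + (ID1 - T / 2 * VN) := by ring
  rw [e]
  refine (abs_add_le _ _).trans ?_
  have h15 : (16 * S + 32) * T ^ β ≤ (16 * S + 32) * T ^ (1 - γ) :=
    mul_le_mul_of_nonneg_left hTβ (by linarith)
  linarith

/-- **The mean square to the right of the critical line**, `V = ∑ n^(-2σ)` -/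
theorem mean_square_right' {σ : ℝ} (hσ : 1 / 2 < σ) :
    Tendsto (fun T : ℝ => (∫ t in 1..T, ‖riemannZeta (σ + t * I)‖ ^ 2) / T) atTop
      (𝓝 (∑' n : ℕ, (n : ℝ) ^ (-(2 * σ)))) := by
  have hV : 0 < ∑' n : ℕ, (n : ℝ) ^ (-(2 * σ)) := by
    have h1 := (summable_two_mul hσ).le_tsum 1 fun n _ => by positivity
    rw [Nat.cast_one, Real.one_rpow] at h1
    linarith
  have hq : ContinuousOn (fun t : ℝ => ‖riemannZeta (σ + t * I)‖ ^ 2) (Ici 1) := by
    intro t ht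
    have ht1 : (1 : ℝ) ≤ t := ht
    exact ((continuousAt_zeta σ (by linarith)).norm.pow 2).continuousWithinAt
  refine tendsto_mean hq (fun t _ => sq_nonneg _) hV ?_
  obtain ⟨C, γ, hγ, h⟩ := exists_main_right hσ
  have h1 : Tendsto (fun T : ℝ => C * T ^ (-γ)) atTop (𝓝 0) := by
    have := (tendsto_rpow_neg_atTop hγ).const_mul C
    rwa [mul_zero] at this
  have h2 : Tendsto (fun T : ℝ => sm (fun t : ℝ => ‖riemannZeta (σ + t * I)‖ ^ 2) T / T ^ 2 -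
      (∑ n ∈ Finset.Icc 1 ⌈T⌉₊, (n : ℝ) ^ (-(2 * σ))) / 2) atTop (𝓝 0) := by
    rw [tendsto_zero_iff_norm_tendsto_zero]
    refine squeeze_zero' (Eventually.of_forall fun _ => norm_nonneg _) ?_ h1
    filter_upwards [eventually_ge_atTop (1 : ℝ)] with T hT
    have hT0 : 0 < T := by linarith
    have h3 := h T hT
    have e1 : sm (fun t : ℝ => ‖riemannZeta (σ + t * I)‖ ^ 2) T =
        T * ∫ t in 1..T, (1 - t / T) * ‖riemannZeta (σ + t * I)‖ ^ 2 := by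
      rw [sm, ← intervalIntegral.integral_const_mul]
      congr 1
      funext t
      field_simp
    rw [e1]
    generalize (∫ t in 1..T, (1 - t / T) * ‖riemannZeta (σ + t * I)‖ ^ 2) = IZ1 at h3 ⊢
    have e2 : T * IZ1 / T ^ 2 - (∑ n ∈ Finset.Icc 1 ⌈T⌉₊, (n : ℝ) ^ (-(2 * σ))) / 2 =
        (IZ1 - T / 2 * ∑ n ∈ Finset.Icc 1 ⌈T⌉₊, (n : ℝ) ^ (-(2 * σ))) / T := by
      field_simp
    rw [e2, Real.norm_eq_abs, abs_div, abs_of_pos hT0, div_le_iff₀ hT0]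
    refine h3.trans (le_of_eq ?_)
    rw [mul_assoc, Real.rpow_neg hT0.le, Real.rpow_sub hT0, Real.rpow_one]
    ring
  have h3 := h2.add ((tendsto_partial hσ).div_const 2)
  rw [zero_add] at h3
  refine h3.congr fun T => ?_
  ring

/-- **The mean square of the zeta function to the right of the critical line** (Landau, Schnee 1909):
`∫_1^T |ζ(σ + it)|² dt ~ ζ(2σ) T` for every `σ > 1/2`. -/
theorem mean_square_right {σ : ℝ} (hσ : 1 / 2 < σ) :
    Tendsto (fun T : ℝ => (∫ t in 1..T, ‖riemannZeta (σ + t * I)‖ ^ 2) / T) atTop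
      (𝓝 (riemannZeta (2 * σ)).re) := by
  have h1 : riemannZeta (2 * σ) = ((∑' n : ℕ, (n : ℝ) ^ (-(2 * σ)) : ℝ) : ℂ) := by
    have h2 : 1 < ((2 : ℂ) * σ).re := by
      simp
      linarith
    rw [zeta_eq_tsum_one_div_nat_cpow h2, Complex.ofReal_tsum]
    refine tsum_congr fun n => ?_
    rw [Complex.ofReal_cpow (Nat.cast_nonneg n)]
    push_cast
    rw [cpow_neg, one_div]
  rw [h1, ofReal_re]
  exact mean_square_right' hσ

end Fermat.Agent.Cor.BL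

end
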