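import Fermat.Agent.Corollaries.ZetaK.BL.MeanSq

/-!
# Large values of the zeta function on the critical line

`|ζ(1/2 + it)|² ≥ (1 - ε) log t` for arbitrarily large `t`; in particular the zeta function is not
bounded on the critical line.
-/

set_option autoImplicit false

noncomputable section

namespace Fermat.Agent.Cor.BL

open Complex Real Filter Topology Set MeasureTheory

/-- **Large values**: `|ζ(1/2 + it)|² ≥ (1 - ε) log t` for arbitrarily large `t`. -/
theorem frequently_large {ε : ℝ} (hε : 0 < ε) :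
    ∃ᶠ t : ℝ in atTop, (1 - ε) * Real.log t ≤ ‖riemannZeta (1 / 2 + t * I)‖ ^ 2 := by
  intro hcon
  have hZ : ∀ t : ℝ, riemannZeta (1 / 2 + t * I) = Z t := by
    intro t
    rw [Z]
    push_cast
    rfl
  obtain ⟨t₁, ht₁⟩ := eventually_atTop.1 hcon
  set t₀ : ℝ := max t₁ 1 with ht₀
  have h1 : ∀ t, t₀ ≤ t → ‖Z t‖ ^ 2 < (1 - ε) * Real.log t := by
    intro t ht
    have h2 : ¬ (1 - ε) * Real.log t ≤ ‖riemannZeta (1 / 2 + t * I)‖ ^ 2 :=
      ht₁ t ((le_max_left _ _).trans ht)
    rw [hZ] at h2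
    exact not_le.1 h2
  have ht1 : 1 ≤ t₀ := le_max_right _ _
  -- `ε < 1`
  have hε1 : 0 < 1 - ε := by
    by_contra h
    push Not at h
    have h2 := h1 t₀ le_rfl
    have h3 : (1 - ε) * Real.log t₀ ≤ 0 := mul_nonpos_of_nonpos_of_nonneg h (Real.log_nonneg ht1)
    linarith [sq_nonneg ‖Z t₀‖]
  set C := ∫ t in 0..t₀, ‖Z t‖ ^ 2 with hC
  have h2 : ∀ᶠ T : ℝ in atTop, (∫ t in 0..T, ‖riemannZeta (1 / 2 + t * I)‖ ^ 2) /
      (T * Real.log T) ≤ C / (T * Real.log T) + (1 - ε) := by
    filter_upwards [eventually_ge_atTop t₀, eventually_gt_atTop (1 : ℝ)] with T hT hT1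
    have hT0 : 0 < T := by linarith
    have hL : 0 < Real.log T := Real.log_pos hT1
    simp_rw [hZ]
    have h3 : ∫ t in 0..T, ‖Z t‖ ^ 2 = C + ∫ t in t₀..T, ‖Z t‖ ^ 2 :=
      (intervalIntegral.integral_add_adjacent_intervals (continuous_Zsq.intervalIntegrable _ _)
        (continuous_Zsq.intervalIntegrable _ _)).symm
    have h4 : ∫ t in t₀..T, ‖Z t‖ ^ 2 ≤ ∫ t in t₀..T, (1 - ε) * Real.log T := by
      refine intervalIntegral.integral_mono_on hT (continuous_Zsq.intervalIntegrable _ _)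
        (continuous_const.intervalIntegrable _ _) fun t ht => ?_
      refine (h1 t ht.1).le.trans ?_
      exact mul_le_mul_of_nonneg_left (Real.log_le_log (by linarith [ht.1]) ht.2) hε1.le
    rw [intervalIntegral.integral_const, smul_eq_mul] at h4
    have h5 : (T - t₀) * ((1 - ε) * Real.log T) ≤ (1 - ε) * (T * Real.log T) := by
      have : 0 ≤ t₀ * ((1 - ε) * Real.log T) := by positivity
      linarith
    rw [h3, add_div]
    have h6 : (∫ t in t₀..T, ‖Z t‖ ^ 2) / (T * Real.log T) ≤ 1 - ε := by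
      rw [div_le_iff₀ (by positivity)]
      linarith
    linarith
  have h0 : Tendsto (fun T : ℝ => T * Real.log T) atTop atTop :=
    tendsto_id.atTop_mul_atTop₀ Real.tendsto_log_atTop
  have h3 : Tendsto (fun T : ℝ => C / (T * Real.log T) + (1 - ε)) atTop (𝓝 (0 + (1 - ε))) :=
    (Tendsto.const_div_atTop h0 _).add_const _
  have h4 := le_of_tendsto_of_tendsto mean_square_zeta h3 h2
  linarith

/-- **The zeta function is not bounded on the critical line.** -/
theorem not_bounded : ¬ ∃ C : ℝ, ∀ t : ℝ, 1 ≤ t → ‖riemannZeta (1 / 2 + t * I)‖ ≤ C := by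
  rintro ⟨C, hC⟩
  have h1 := frequently_large (ε := 1 / 2) (by norm_num)
  have h2 : ∀ᶠ t : ℝ in atTop, C ^ 2 < (1 - 1 / 2) * Real.log t := by
    have h3 : Tendsto (fun t : ℝ => (1 - 1 / 2) * Real.log t) atTop atTop :=
      Real.tendsto_log_atTop.const_mul_atTop (by norm_num)
    exact h3.eventually_gt_atTop _
  obtain ⟨t, h4, h5, h6⟩ := (h1.and_eventually (h2.and (eventually_ge_atTop (1 : ℝ)))).exists
  have h7 := pow_le_pow_left₀ (norm_nonneg _) (hC t h6) 2
  linarith

end Fermat.Agent.Cor.BL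

end
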