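import Fermat.Agent.Corollaries.ZetaK.BL.Defs
import Fermat.Agent.Corollaries.ZetaK.HL.Osc

/-!
# First derivative test, all exponents

`|∫_N^∞ e^{2πiκx} x^{-(a+it)} dx| ≤ 4 N^{-a} / |κ|` for `|t| ≤ 3N`, `κ ≠ 0`, `5/2 ≤ a ≤ 6`, and the
same for the second Bernoulli function.
-/

set_option autoImplicit false

noncomputable section

namespace Fermat.Agent.Cor.BL

open Complex Real Filter Topology Set MeasureTheory

open Fermat.Agent.Cor.HL (B2 oscD norm_exp_osc le_oscD hasSum_B2)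

/-- the integrand -/
def oscF (a t : ℝ) (κ : ℤ) (x : ℝ) : ℂ := cexp (2 * π * κ * x * I) * (x : ℂ) ^ (-(a + t * I : ℂ))

/-- the primitive -/
def oscU (a t : ℝ) (κ : ℤ) (x : ℝ) : ℂ :=
  -I * (cexp (2 * π * κ * x * I) * (x : ℂ) ^ (-((a - 1) + t * I : ℂ))) / (oscD t κ x : ℂ)

/-- the second term of the derivative -/
def oscR (a t : ℝ) (κ : ℤ) (x : ℝ) : ℂ :=
  oscF a t κ x * (I * (((a - 1) / oscD t κ x + 2 * π * κ * x / oscD t κ x ^ 2 : ℝ) : ℂ))

theorem norm_oscF {a t x : ℝ} (hx : 0 < x) (κ : ℤ) : ‖oscF a t κ x‖ = x ^ (-a) := by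
  rw [oscF, norm_mul, norm_exp_osc, one_mul, norm_cpow_eq_rpow_re_of_pos hx]
  congr 1
  simp

theorem norm_oscR_le {a t x : ℝ} (ha : 5 / 2 ≤ a) (ha' : a ≤ 6) {N : ℕ} {κ : ℤ} (hN : 1 ≤ N)
    (hκ : κ ≠ 0) (ht : |t| ≤ 3 * N) (hx : (N : ℝ) ≤ x) :
    ‖oscR a t κ x‖ ≤ 3 / |(κ : ℝ)| * x ^ (-a - 1) := by
  have hN' : (1 : ℝ) ≤ N := by exact_mod_cast hN
  have hx0 : 0 < x := by linarith
  have hκ1 : (1 : ℝ) ≤ |(κ : ℝ)| := by exact_mod_cast Int.one_le_abs hκ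
  have hD := le_oscD hN hκ ht hx
  have hD0 : 0 < |oscD t κ x| := lt_of_lt_of_le (by positivity) hD
  rw [oscR, norm_mul, norm_oscF hx0, norm_mul, norm_I, one_mul, Complex.norm_real,
    Real.norm_eq_abs]
  have h1 : |(a - 1) / oscD t κ x + 2 * π * κ * x / oscD t κ x ^ 2| ≤ 3 / |(κ : ℝ)| * x⁻¹ := by
    refine (abs_add_le _ _).trans ?_
    have h2 : |(a - 1) / oscD t κ x| ≤ 5 / 3 / |(κ : ℝ)| * x⁻¹ := by
      rw [abs_div, abs_of_pos (by linarith : (0 : ℝ) < a - 1)]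
      have e : 5 / 3 / |(κ : ℝ)| * x⁻¹ = 5 / (3 * |(κ : ℝ)| * x) := by field_simp
      rw [e]
      exact div_le_div₀ (by norm_num) (by linarith) (by positivity) hD
    have h3 : |2 * π * κ * x / oscD t κ x ^ 2| ≤ 1 / |(κ : ℝ)| * x⁻¹ := by
      rw [abs_div, abs_pow, abs_mul, abs_mul, abs_of_pos hx0,
        abs_of_pos (by positivity : (0 : ℝ) < 2 * π)]
      have h4 : (3 * |(κ : ℝ)| * x) ^ 2 ≤ |oscD t κ x| ^ 2 :=
        pow_le_pow_left₀ (by positivity) hD 2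
      refine (div_le_div_of_nonneg_left (by positivity) (by positivity) h4).trans ?_
      have e : 2 * π * |(κ : ℝ)| * x / (3 * |(κ : ℝ)| * x) ^ 2 =
          2 * π / 9 * (1 / |(κ : ℝ)| * x⁻¹) := by
        field_simp
        norm_num
      rw [e]
      have h5 : 2 * π / 9 ≤ 1 := by linarith [Real.pi_le_four]
      exact mul_le_of_le_one_left (by positivity) h5
    have e2 : 5 / 3 / |(κ : ℝ)| * x⁻¹ + 1 / |(κ : ℝ)| * x⁻¹ =
        8 / 3 * (1 / |(κ : ℝ)| * x⁻¹) := by ring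
    have e3 : 3 / |(κ : ℝ)| * x⁻¹ = 3 * (1 / |(κ : ℝ)| * x⁻¹) := by ring
    have h6 : 0 ≤ 1 / |(κ : ℝ)| * x⁻¹ := by positivity
    rw [e3]
    linarith
  have e4 : x ^ (-a - 1) = x ^ (-a) * x⁻¹ := by
    rw [Real.rpow_sub hx0, Real.rpow_one]
    rfl
  rw [e4]
  calc x ^ (-a) * |(a - 1) / oscD t κ x + 2 * π * κ * x / oscD t κ x ^ 2|
      ≤ x ^ (-a) * (3 / |(κ : ℝ)| * x⁻¹) :=
        mul_le_mul_of_nonneg_left h1 (by positivity)
    _ = _ := by ring

/-- the algebra of the derivative -/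
theorem alg_osc {a e w x p D t : ℂ} (hD : D ≠ 0) (hDt : D = p * x - t) :
    (-I * (e * (p * I) * (w * x) + e * (-((a - 1) + t * I) * w)) * D -
      -I * (e * (w * x)) * p) / D ^ 2 = e * w + e * w * (I * ((a - 1) / D + p * x / D ^ 2)) := by
  obtain rfl : t = p * x - D := by rw [hDt]; ring
  have hI : I ^ 2 = -1 := I_sq
  field_simp
  ring_nf
  rw [hI]
  ring

theorem hasDerivAt_oscU {a t x : ℝ} (ha : 5 / 2 ≤ a) {κ : ℤ} (hx : 0 < x) (hD : oscD t κ x ≠ 0) :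
    HasDerivAt (oscU a t κ) (oscF a t κ x + oscR a t κ x) x := by
  have hDc : (oscD t κ x : ℂ) ≠ 0 := ofReal_ne_zero.2 hD
  have hxc : (x : ℂ) ≠ 0 := ofReal_ne_zero.2 hx.ne'
  have h1 : HasDerivAt (fun x : ℝ => cexp (2 * π * κ * x * I))
      (cexp (2 * π * κ * x * I) * (2 * π * κ * I)) x := by
    have h : HasDerivAt (fun x : ℝ => (2 * π * κ * x * I : ℂ)) (2 * π * κ * I) x := by
      have h0 := ((hasDerivAt_id x).ofReal_comp.const_mul (2 * π * κ : ℂ)).mul_const I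
      simpa using h0
    exact h.cexp
  have h2 : HasDerivAt (fun x : ℝ => (x : ℂ) ^ (-((a - 1) + t * I : ℂ)))
      (-((a - 1) + t * I : ℂ) * (x : ℂ) ^ (-((a - 1) + t * I : ℂ) - 1)) x := by
    refine hasDerivAt_ofReal_cpow_const hx.ne' fun h => ?_
    have := congrArg Complex.re h
    simp at this
    linarith
  have h3 : HasDerivAt (fun x : ℝ => (oscD t κ x : ℂ)) (2 * π * κ : ℂ) x := by
    have h0 : HasDerivAt (oscD t κ) (2 * π * κ) x := by
      have := ((hasDerivAt_id x).const_mul (2 * π * κ : ℝ)).sub_const t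
      rw [mul_one] at this
      exact this
    have := h0.ofReal_comp
    push_cast at this
    exact this
  have h4 := ((h1.mul h2).const_mul (-I)).div h3 hDc
  refine h4.congr_deriv ?_
  have e1 : (x : ℂ) ^ (-((a - 1) + t * I : ℂ) - 1) = (x : ℂ) ^ (-(a + t * I : ℂ)) := by
    congr 1
    ring
  have e2 : (x : ℂ) ^ (-((a - 1) + t * I : ℂ)) = (x : ℂ) ^ (-(a + t * I : ℂ)) * x := by
    have h5 := cpow_add (-(a + t * I : ℂ)) 1 hxc
    rw [cpow_one] at h5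
    rw [← h5]
    congr 1
    ring
  have hDdef : (oscD t κ x : ℂ) = 2 * π * κ * x - t := by
    rw [oscD]
    push_cast
    ring
  rw [oscR, oscF]
  simp only [Pi.mul_apply]
  rw [e1, e2]
  push_cast
  exact alg_osc hDc hDdef

theorem continuousOn_oscF {a : ℝ} (ha : 5 / 2 ≤ a) (t : ℝ) (κ : ℤ) :
    ContinuousOn (oscF a t κ) (Ioi 0) := by
  intro x hx
  have hx0 : x ≠ 0 := (mem_Ioi.1 hx).ne'
  have h2 : HasDerivAt (fun x : ℝ => (x : ℂ) ^ (-(a + t * I : ℂ)))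
      (-(a + t * I : ℂ) * (x : ℂ) ^ (-(a + t * I : ℂ) - 1)) x := by
    refine hasDerivAt_ofReal_cpow_const hx0 fun h => ?_
    have := congrArg Complex.re h
    simp at this
    linarith
  have h1 : Continuous fun x : ℝ => cexp (2 * π * κ * x * I) := by fun_prop
  exact (h1.continuousAt.mul h2.continuousAt).continuousWithinAt

/-- (A2) for all exponents -/
theorem osc_le {a t : ℝ} (ha : 5 / 2 ≤ a) (ha' : a ≤ 6) {N : ℕ} {κ : ℤ} (hN : 1 ≤ N)
    (hκ : κ ≠ 0) (ht : |t| ≤ 3 * N) :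
    ‖∫ x in Ioi (N : ℝ), cexp (2 * π * κ * x * I) * (x : ℂ) ^ (-(a + t * I : ℂ))‖ ≤
      4 * (N : ℝ) ^ (-a) / |(κ : ℝ)| := by
  have hN' : (1 : ℝ) ≤ N := by exact_mod_cast hN
  have hN0 : (0 : ℝ) < N := by linarith
  have hκ1 : (1 : ℝ) ≤ |(κ : ℝ)| := by exact_mod_cast Int.one_le_abs hκ
  have hκ0 : 0 < |(κ : ℝ)| := by linarith
  have hDne : ∀ x : ℝ, (N : ℝ) ≤ x → oscD t κ x ≠ 0 := fun x hx h => by
    have h1 := le_oscD hN hκ ht hx
    rw [h, abs_zero] at h1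
    have : 0 < 3 * |(κ : ℝ)| * x := by
      have : 0 < x := by linarith
      positivity
    linarith
  have hcD : Continuous (oscD t κ) := by
    unfold oscD
    fun_prop
  have hsub : Ioi (N : ℝ) ⊆ Ioi 0 := fun x hx => hN0.trans hx
  have hcF : ContinuousOn (oscF a t κ) (Ioi (N : ℝ)) := (continuousOn_oscF ha t κ).mono hsub
  have hcR : ContinuousOn (oscR a t κ) (Ioi (N : ℝ)) := by
    refine hcF.mul (continuousOn_const.mul (continuous_ofReal.comp_continuousOn ?_))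
    refine ContinuousOn.add (continuousOn_const.div hcD.continuousOn fun x hx => hDne x
      (le_of_lt hx)) (ContinuousOn.div (by fun_prop) (hcD.continuousOn.pow 2) fun x hx =>
        pow_ne_zero 2 (hDne x (le_of_lt hx)))
  have hiF : IntegrableOn (oscF a t κ) (Ioi (N : ℝ)) := by
    refine (integrableOn_Ioi_rpow_of_lt (by linarith : -a < -1) hN0).mono'
      (hcF.aestronglyMeasurable measurableSet_Ioi) ?_
    filter_upwards [ae_restrict_mem measurableSet_Ioi] with x hx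
    rw [norm_oscF (hN0.trans hx)]
  have hbd : IntegrableOn (fun x : ℝ => 3 / |(κ : ℝ)| * x ^ (-a - 1)) (Ioi (N : ℝ)) :=
    (integrableOn_Ioi_rpow_of_lt (by linarith : -a - 1 < -1) hN0).const_mul _
  have hRle : ∀ᵐ x ∂(volume.restrict (Ioi (N : ℝ))),
      ‖oscR a t κ x‖ ≤ 3 / |(κ : ℝ)| * x ^ (-a - 1) := by
    filter_upwards [ae_restrict_mem measurableSet_Ioi] with x hx
    exact norm_oscR_le ha ha' hN hκ ht (le_of_lt hx)
  have hiR : IntegrableOn (oscR a t κ) (Ioi (N : ℝ)) :=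
    hbd.mono' (hcR.aestronglyMeasurable measurableSet_Ioi) hRle
  have hUle : ∀ x : ℝ, (N : ℝ) ≤ x → ‖oscU a t κ x‖ ≤ 1 / 3 / |(κ : ℝ)| * x ^ (-a) := by
    intro x hx
    have hx0 : 0 < x := by linarith
    have hD := le_oscD hN hκ ht hx
    rw [oscU, norm_div, norm_mul, norm_mul, norm_neg, norm_I, one_mul, norm_exp_osc, one_mul,
      norm_cpow_eq_rpow_re_of_pos hx0, Complex.norm_real, Real.norm_eq_abs]
    have e1 : (-((a - 1) + t * I : ℂ)).re = -a + 1 := by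
      simp
      ring
    rw [e1]
    refine (div_le_div_of_nonneg_left (by positivity) (by positivity) hD).trans (le_of_eq ?_)
    rw [Real.rpow_add hx0, Real.rpow_one]
    field_simp
  have hlim : Tendsto (oscU a t κ) atTop (𝓝 0) := by
    refine squeeze_zero_norm' (a := fun x => 1 / 3 / |(κ : ℝ)| * x ^ (-a)) ?_ ?_
    · filter_upwards [eventually_ge_atTop (N : ℝ)] with x hx
      exact hUle x hx
    · have h := (tendsto_rpow_neg_atTop (by linarith : (0 : ℝ) < a)).const_mul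
        (1 / 3 / |(κ : ℝ)|)
      rw [mul_zero] at h
      exact h
  have hFTC := integral_Ioi_of_hasDerivAt_of_tendsto' (a := (N : ℝ)) (f := oscU a t κ)
    (f' := fun x => oscF a t κ x + oscR a t κ x) (m := 0)
    (fun x hx => hasDerivAt_oscU ha (hN0.trans_le hx) (hDne x hx)) (hiF.add hiR) hlim
  rw [integral_add hiF hiR, zero_sub] at hFTC
  have hmain : ∫ x in Ioi (N : ℝ), oscF a t κ x =
      -oscU a t κ N - ∫ x in Ioi (N : ℝ), oscR a t κ x := by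
    rw [← hFTC]
    ring
  have hR : ‖∫ x in Ioi (N : ℝ), oscR a t κ x‖ ≤ 3 / |(κ : ℝ)| * (N : ℝ) ^ (-a) := by
    refine (norm_integral_le_of_norm_le hbd hRle).trans ?_
    rw [integral_const_mul, integral_Ioi_rpow_of_lt (by linarith) hN0]
    have e1 : -a - 1 + 1 = -a := by ring
    rw [e1]
    refine mul_le_mul_of_nonneg_left ?_ (by positivity)
    rw [neg_div_neg_eq]
    exact div_le_self (by positivity) (by linarith)
  change ‖∫ x in Ioi (N : ℝ), oscF a t κ x‖ ≤ _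
  rw [hmain]
  refine (norm_sub_le _ _).trans ?_
  rw [norm_neg]
  have h1 := hUle N le_rfl
  have h2 : 1 / 3 / |(κ : ℝ)| * (N : ℝ) ^ (-a) + 3 / |(κ : ℝ)| * (N : ℝ) ^ (-a) =
      10 / 3 * ((N : ℝ) ^ (-a) / |(κ : ℝ)|) := by ring
  have h3 : 4 * (N : ℝ) ^ (-a) / |(κ : ℝ)| = 4 * ((N : ℝ) ^ (-a) / |(κ : ℝ)|) := by ring
  have h4 : 0 ≤ (N : ℝ) ^ (-a) / |(κ : ℝ)| := by positivity
  rw [h3]
  linarith

/-- the oscillating integrals with the cosine -/
theorem norm_osc_cos_le {a t : ℝ} (ha : 5 / 2 ≤ a) (ha' : a ≤ 6) {N : ℕ} (hN : 1 ≤ N)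
    (ht : |t| ≤ 3 * N) {n : ℕ} (hn : n ≠ 0) :
    ‖∫ x in Ioi (N : ℝ), (Real.cos (2 * π * n * x) : ℂ) * (x : ℂ) ^ (-(a + t * I : ℂ))‖ ≤
      4 * (N : ℝ) ^ (-a) := by
  have hN0 : (0 : ℝ) < N := by exact_mod_cast hN
  have hint : IntegrableOn (fun x : ℝ => (x : ℂ) ^ (-(a + t * I : ℂ))) (Ioi (N : ℝ)) :=
    integrableOn_Ioi_cpow_of_lt (by simp; linarith) hN0
  have hexp : ∀ κ : ℤ, IntegrableOn (fun x : ℝ => cexp (2 * π * κ * x * I) *
      (x : ℂ) ^ (-(a + t * I : ℂ))) (Ioi (N : ℝ)) := by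
    intro κ
    refine Integrable.bdd_mul hint (c := 1) ?_ (Eventually.of_forall fun x => ?_)
    · exact (by fun_prop : Continuous fun x : ℝ => cexp (2 * π * κ * x * I)).aestronglyMeasurable
    · rw [norm_exp_osc]
  have e : ∀ x : ℝ, (Real.cos (2 * π * n * x) : ℂ) * (x : ℂ) ^ (-(a + t * I : ℂ)) =
      (1 / 2 : ℂ) * (cexp (2 * π * (n : ℤ) * x * I) * (x : ℂ) ^ (-(a + t * I : ℂ))) +
      (1 / 2 : ℂ) * (cexp (2 * π * (-(n : ℤ) : ℤ) * x * I) * (x : ℂ) ^ (-(a + t * I : ℂ))) := by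
    intro x
    rw [Complex.ofReal_cos, Complex.cos]
    push_cast
    rw [show -(2 * (π : ℂ) * n * x) * I = 2 * π * -n * x * I by ring]
    ring
  rw [setIntegral_congr_fun measurableSet_Ioi fun x _ => e x,
    integral_add ((hexp _).const_mul _) ((hexp _).const_mul _), integral_const_mul,
    integral_const_mul]
  have hn0 : (n : ℤ) ≠ 0 := by exact_mod_cast hn
  have h1 := osc_le ha ha' hN hn0 ht
  have h2 := osc_le ha ha' hN (neg_ne_zero.mpr hn0) ht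
  have hb : 4 * (N : ℝ) ^ (-a) / |((n : ℤ) : ℝ)| ≤ 4 * (N : ℝ) ^ (-a) := by
    refine div_le_self (by positivity) ?_
    rw [Int.cast_natCast, Nat.abs_cast]
    exact_mod_cast Nat.pos_of_ne_zero hn
  have hb2 : 4 * (N : ℝ) ^ (-a) / |((-(n : ℤ) : ℤ) : ℝ)| ≤ 4 * (N : ℝ) ^ (-a) := by
    rw [Int.cast_neg, abs_neg]
    exact hb
  refine (norm_add_le _ _).trans ?_
  rw [norm_mul, norm_mul]
  have h12 : ‖(1 / 2 : ℂ)‖ = 1 / 2 := by norm_num
  rw [h12]
  linarith [h1.trans hb, h2.trans hb2]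

theorem norm_osc_B2_le {a t : ℝ} (ha : 5 / 2 ≤ a) (ha' : a ≤ 6) {N : ℕ} (hN : 1 ≤ N)
    (ht : |t| ≤ 3 * N) :
    ‖∫ x in Ioi (N : ℝ), (B2 x : ℂ) * (x : ℂ) ^ (-(a + t * I : ℂ))‖ ≤ 4 * (N : ℝ) ^ (-a) := by
  have hN0 : (0 : ℝ) < N := by exact_mod_cast hN
  have hpi : (π : ℝ) ≠ 0 := Real.pi_ne_zero
  have hint : IntegrableOn (fun x : ℝ => (x : ℂ) ^ (-(a + t * I : ℂ))) (Ioi (N : ℝ)) :=
    integrableOn_Ioi_cpow_of_lt (by simp; linarith) hN0
  set μ := volume.restrict (Ioi (N : ℝ)) with hμ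
  set D : ℝ := ∫ x, ‖(x : ℂ) ^ (-(a + t * I : ℂ))‖ ∂μ with hD
  have hD0 : 0 ≤ D := integral_nonneg fun _ => norm_nonneg _
  set F : ℕ → ℝ → ℂ := fun n x => ((1 / (π ^ 2 * (n : ℝ) ^ 2) : ℝ) : ℂ) *
    ((Real.cos (2 * π * n * x) : ℂ) * (x : ℂ) ^ (-(a + t * I : ℂ))) with hF
  have hcos : ∀ n : ℕ, Integrable (fun x : ℝ => (Real.cos (2 * π * n * x) : ℂ) *
      (x : ℂ) ^ (-(a + t * I : ℂ))) μ := by
    intro n
    refine Integrable.bdd_mul hint (c := 1) ?_ (Eventually.of_forall fun x => ?_)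
    · exact (by fun_prop : Continuous fun x : ℝ =>
        ((Real.cos (2 * π * n * x) : ℝ) : ℂ)).aestronglyMeasurable
    · rw [norm_real]
      exact Real.abs_cos_le_one _
  have hFi : ∀ n, Integrable (F n) μ := fun n => (hcos n).const_mul _
  have hs6 : HasSum (fun n : ℕ => 1 / (π ^ 2 * (n : ℝ) ^ 2)) (1 / 6) := by
    have h := hasSum_zeta_two.mul_left (1 / π ^ 2)
    have e : 1 / π ^ 2 * (π ^ 2 / 6) = 1 / 6 := by field_simp
    rw [e] at h
    refine h.congr_fun fun n => ?_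
    rw [one_div_mul_one_div]
  have hnorm : ∀ n, (∫ x, ‖F n x‖ ∂μ) ≤ 1 / (π ^ 2 * (n : ℝ) ^ 2) * D := by
    intro n
    rw [hD, ← integral_const_mul]
    refine integral_mono (hFi n).norm (hint.norm.const_mul _) fun x => ?_
    simp only [hF]
    rw [norm_mul, norm_mul, norm_real, norm_real, Real.norm_eq_abs, Real.norm_eq_abs,
      abs_of_nonneg (by positivity : 0 ≤ 1 / (π ^ 2 * (n : ℝ) ^ 2))]
    refine mul_le_mul_of_nonneg_left ?_ (by positivity)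
    exact mul_le_of_le_one_left (norm_nonneg _) (Real.abs_cos_le_one _)
  have hsum : Summable fun n => ∫ x, ‖F n x‖ ∂μ :=
    Summable.of_nonneg_of_le (fun n => integral_nonneg fun _ => norm_nonneg _) hnorm
      (hs6.summable.mul_right D)
  have hS := hasSum_integral_of_summable_integral_norm hFi hsum
  have hK : (∫ x, ∑' n, F n x ∂μ) = ∫ x, (B2 x : ℂ) * (x : ℂ) ^ (-(a + t * I : ℂ)) ∂μ := by
    refine integral_congr_ae (Eventually.of_forall fun x => ?_)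
    simp only [hF]
    have h := (hasSum_B2 x)
    have h' : HasSum (fun n : ℕ => ((1 / (π ^ 2 * (n : ℝ) ^ 2) * Real.cos (2 * π * n * x) : ℝ) : ℂ))
        (B2 x : ℂ) := by exact_mod_cast h
    have h'' := h'.mul_right ((x : ℂ) ^ (-(a + t * I : ℂ)))
    rw [← h''.tsum_eq]
    refine tsum_congr fun n => ?_
    push_cast
    ring
  rw [hK] at hS
  rw [← hS.tsum_eq]
  have hterm : ∀ n, ‖∫ x, F n x ∂μ‖ ≤ 1 / (π ^ 2 * (n : ℝ) ^ 2) * (4 * (N : ℝ) ^ (-a)) := by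
    intro n
    simp only [hF]
    rw [integral_const_mul, norm_mul, norm_real, Real.norm_eq_abs,
      abs_of_nonneg (by positivity : 0 ≤ 1 / (π ^ 2 * (n : ℝ) ^ 2))]
    rcases eq_or_ne n 0 with rfl | hn
    · simp
    · exact mul_le_mul_of_nonneg_left (norm_osc_cos_le ha ha' hN ht hn) (by positivity)
  refine (tsum_of_norm_bounded (hs6.mul_right _) hterm).trans ?_
  have : 0 ≤ 4 * (N : ℝ) ^ (-a) := by positivity
  linarith

end Fermat.Agent.Cor.BL

end
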