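import Fermat.Agent.Corollaries.ZetaK.BL.Defs

/-!
# From the smoothed to the plain mean

If `q ≥ 0` and `∫_1^T (T - t) q(t) dt ~ V T²/2` then `∫_1^T q(t) dt ~ V T`.
-/

set_option autoImplicit false

noncomputable section

namespace Fermat.Agent.Cor.BL

open Real Filter Topology Set MeasureTheory

variable {q : ℝ → ℝ}

theorem intervalIntegrable_q (hq : ContinuousOn q (Ici 1)) {a b : ℝ} (ha : 1 ≤ a) (hb : 1 ≤ b) :
    IntervalIntegrable q volume a b :=
  (hq.mono fun x hx => (le_min ha hb).trans hx.1).intervalIntegrable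

theorem intervalIntegrable_sub_mul_q (hq : ContinuousOn q (Ici 1)) (c : ℝ) {a b : ℝ} (ha : 1 ≤ a)
    (hb : 1 ≤ b) : IntervalIntegrable (fun t => (c - t) * q t) volume a b :=
  ((by fun_prop : Continuous fun t : ℝ => c - t).continuousOn.mul
    (hq.mono fun x hx => (le_min ha hb).trans hx.1)).intervalIntegrable

/-- the smoothed integral -/
def sm (q : ℝ → ℝ) (T : ℝ) : ℝ := ∫ t in 1..T, (T - t) * q t

theorem sm_sub (hq : ContinuousOn q (Ici 1)) {a b : ℝ} (ha : 1 ≤ a) (hab : a ≤ b) :
    sm q b - sm q a = (b - a) * (∫ t in 1..a, q t) + ∫ t in a..b, (b - t) * q t := by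
  have hb : 1 ≤ b := ha.trans hab
  have h1 : sm q b = (∫ t in 1..a, (b - t) * q t) + ∫ t in a..b, (b - t) * q t :=
    (intervalIntegral.integral_add_adjacent_intervals
      (intervalIntegrable_sub_mul_q hq _ le_rfl ha)
      (intervalIntegrable_sub_mul_q hq _ ha hb)).symm
  have h3 : (b - a) * ∫ t in 1..a, q t = (∫ t in 1..a, (b - t) * q t) - sm q a := by
    rw [sm, ← intervalIntegral.integral_sub (intervalIntegrable_sub_mul_q hq _ le_rfl ha)
      (intervalIntegrable_sub_mul_q hq _ le_rfl ha), ← intervalIntegral.integral_const_mul]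
    congr 1
    funext t
    ring
  rw [h1, h3]
  ring

theorem sm_diff_ge (hq : ContinuousOn q (Ici 1)) (h0 : ∀ t, 1 ≤ t → 0 ≤ q t) {a b : ℝ}
    (ha : 1 ≤ a) (hab : a ≤ b) : (b - a) * ∫ t in 1..a, q t ≤ sm q b - sm q a := by
  rw [sm_sub hq ha hab]
  have h2 : 0 ≤ ∫ t in a..b, (b - t) * q t :=
    intervalIntegral.integral_nonneg hab fun t ht =>
      mul_nonneg (by linarith [ht.2]) (h0 t (ha.trans ht.1))
  linarith

theorem sm_diff_le (hq : ContinuousOn q (Ici 1)) (h0 : ∀ t, 1 ≤ t → 0 ≤ q t) {a b : ℝ}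
    (ha : 1 ≤ a) (hab : a ≤ b) : sm q b - sm q a ≤ (b - a) * ∫ t in 1..b, q t := by
  have hb : 1 ≤ b := ha.trans hab
  rw [sm_sub hq ha hab]
  have h2 : ∫ t in a..b, (b - t) * q t ≤ ∫ t in a..b, (b - a) * q t := by
    refine intervalIntegral.integral_mono_on hab (intervalIntegrable_sub_mul_q hq _ ha hb)
      ((intervalIntegrable_q hq ha hb).const_mul _) fun t ht => ?_
    exact mul_le_mul_of_nonneg_right (by linarith [ht.1]) (h0 t (ha.trans ht.1))
  have h4 : ∫ t in 1..b, q t = (∫ t in 1..a, q t) + ∫ t in a..b, q t :=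
    (intervalIntegral.integral_add_adjacent_intervals (intervalIntegrable_q hq le_rfl ha)
      (intervalIntegrable_q hq ha hb)).symm
  rw [intervalIntegral.integral_const_mul] at h2
  rw [h4, mul_add]
  linarith

theorem tendsto_sm_diff {V : ℝ} (h : Tendsto (fun T => sm q T / T ^ 2) atTop (𝓝 (V / 2))) {c : ℝ}
    (hc : 0 < c) (hc1 : c ≠ 1) :
    Tendsto (fun T : ℝ => (sm q (c * T) - sm q T) / ((c - 1) * T * T)) atTop
      (𝓝 ((c + 1) / 2 * V)) := by
  have hcT : Tendsto (fun T : ℝ => c * T) atTop atTop := tendsto_id.const_mul_atTop hc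
  have h1 := ((h.comp hcT).mul_const (c ^ 2)).sub h
  have h2 := h1.div_const (c - 1)
  have hc2 : c - 1 ≠ 0 := sub_ne_zero.2 hc1
  have e : (V / 2 * c ^ 2 - V / 2) / (c - 1) = (c + 1) / 2 * V := by
    field_simp
    ring
  rw [e] at h2
  refine h2.congr' ?_
  filter_upwards [eventually_gt_atTop (0 : ℝ)] with T hT
  simp only [Function.comp]
  field_simp

/-- **the Tauberian argument** -/
theorem tendsto_mean (hq : ContinuousOn q (Ici 1)) (h0 : ∀ t, 1 ≤ t → 0 ≤ q t) {V : ℝ}
    (hV : 0 < V) (h : Tendsto (fun T => sm q T / T ^ 2) atTop (𝓝 (V / 2))) :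
    Tendsto (fun T : ℝ => (∫ t in 1..T, q t) / T) atTop (𝓝 V) := by
  rw [tendsto_order]
  constructor
  · intro a ha
    set d : ℝ := min (1 / 2) ((V - a) / V) with hd
    have hd0 : 0 < d := lt_min (by norm_num) (div_pos (by linarith) hV)
    have hd1 : d ≤ 1 / 2 := min_le_left _ _
    have hd2 : d * V ≤ V - a := by
      have := min_le_right (1 / 2) ((V - a) / V)
      rw [← hd] at this
      rwa [le_div_iff₀ hV] at this
    have hc0 : 0 < 1 - d := by linarith
    have hcT : Tendsto (fun T : ℝ => (1 - d) * T) atTop atTop := tendsto_id.const_mul_atTop hc0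
    have hlim := tendsto_sm_diff h hc0 (by linarith)
    filter_upwards [hlim.eventually_const_lt (show a < (1 - d + 1) / 2 * V by nlinarith),
      eventually_gt_atTop (3 : ℝ), hcT.eventually (eventually_gt_atTop (3 : ℝ))] with T h1 hT hT'
    have hT0 : 0 < T := by linarith
    refine h1.trans_le ?_
    have h2 := sm_diff_le hq h0 (a := (1 - d) * T) (b := T) (by linarith) (by nlinarith)
    have e : (sm q ((1 - d) * T) - sm q T) / ((1 - d - 1) * T * T) =
        (sm q T - sm q ((1 - d) * T)) / (d * T) / T := by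
      rw [div_div, show (1 - d - 1) * T * T = -(d * T * T) by ring, div_neg, ← neg_div, neg_sub]
    rw [e]
    refine div_le_div_of_nonneg_right ?_ hT0.le
    rw [div_le_iff₀ (mul_pos hd0 hT0)]
    calc sm q T - sm q ((1 - d) * T) ≤ (T - (1 - d) * T) * ∫ t in 1..T, q t := h2
      _ = _ := by ring
  · intro a ha
    set d : ℝ := (a - V) / V with hd
    have hd0 : 0 < d := div_pos (by linarith) hV
    have hd2 : d * V = a - V := by rw [hd, div_mul_cancel₀ _ hV.ne']
    have hlim := tendsto_sm_diff h (c := 1 + d) (by linarith) (by linarith)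
    filter_upwards [hlim.eventually_lt_const (show (1 + d + 1) / 2 * V < a by nlinarith),
      eventually_gt_atTop (3 : ℝ)] with T h1 hT
    have hT0 : 0 < T := by linarith
    refine lt_of_le_of_lt ?_ h1
    have h2 := sm_diff_ge hq h0 (a := T) (b := (1 + d) * T) (by linarith) (by nlinarith)
    have e : (sm q ((1 + d) * T) - sm q T) / ((1 + d - 1) * T * T) =
        (sm q ((1 + d) * T) - sm q T) / (d * T) / T := by
      rw [div_div]
      congr 2
      ring
    rw [e]
    refine div_le_div_of_nonneg_right ?_ hT0.le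
    rw [le_div_iff₀ (mul_pos hd0 hT0)]
    calc (∫ t in 1..T, q t) * (d * T) = ((1 + d) * T - T) * ∫ t in 1..T, q t := by ring
      _ ≤ _ := h2

end Fermat.Agent.Cor.BL

end
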